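import Fermat.Agent.SemistableRed.Interface

/-!
# The statement on `J₀(M w²)` at `w ∤ M`

`FixedKilledByNorms` is the geometric half: classes fixed by inertia at `w` and killed by both
norms to level `M w` are killed by a factor independent of their order.
-/

set_option autoImplicit false

noncomputable section

open AlgebraicCurve ModularCurve

namespace Fermat.Agent.SquareOld

local notation "Qbar" => AlgebraicClosure ℚ

/-- Inertia-fixed torsion prime to `w` killed by both norms has bounded exponent. -/
def FixedKilledByNorms (M w : ℕ) [NeZero M] [NeZero w] : Prop :=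
  ∃ B : ℕ, 0 < B ∧ ∀ A : ValuationSubring Qbar, A.LiesOverPrime w → ∀ n : ℕ, n.Coprime w →
    ∀ (hα : HeckeAlphaBarIntegral Qbar (M * w) w) (hβ : HeckeBetaBarIntegral Qbar (M * w) w)
      (D : Divisor.degZero (K := Qbar) (F := modularFunctionFieldBar (M * w * w))),
      n • Pic0.mk D = 0 → (∀ σ ∈ A.inertiaSubgroupIn ℚ, σ • Pic0.mk D = Pic0.mk D) →
      SemistableRed.PushTrivial (heckeAlphaBar Qbar (M * w) w) hα
        (D : Divisor Qbar (modularFunctionFieldBar (M * w * w))) →
      SemistableRed.PushTrivial (heckeBetaBar Qbar (M * w) w) hβ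
        (D : Divisor Qbar (modularFunctionFieldBar (M * w * w))) →
      B • Pic0.mk D = 0

end Fermat.Agent.SquareOld

end
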