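import Fermat.Agent.SquareOld.Norms

/-!
# The root: values at the branches and the global statement

At a closed point the reduction of a local root on each branch is a constant.  At a pair the
norms force the ratios of the three constants to be fixed roots of unity up to the exponent
`w ^ 2 - 1`; absorbing them into the root makes it compatible everywhere.
-/

set_option autoImplicit false

noncomputable section

namespace Fermat.Agent.SquareOld

variable {k : Type*} [Field k] {G : Type*} [Field G] [Algebra k G]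

/-- `x` has the value `c` at the place `O`. -/
def ResEq (O : ValuationSubring G) (x : G) (c : k) : Prop :=
  x ∈ O ∧ x - algebraMap k G c ∈ O.nonunits

theorem mem_nonunits_mul {O : ValuationSubring G} {x y : G} (hx : x ∈ O.nonunits) (hy : y ∈ O) :
    x * y ∈ O.nonunits := by
  rw [ValuationSubring.mem_nonunits_iff] at hx ⊢
  rw [map_mul]
  exact mul_lt_one_of_lt_of_le hx ((O.valuation_le_one_iff y).mpr hy)

theorem mem_nonunits_add {O : ValuationSubring G} {x y : G} (hx : x ∈ O.nonunits)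
    (hy : y ∈ O.nonunits) : x + y ∈ O.nonunits := by
  rw [ValuationSubring.mem_nonunits_iff] at *
  exact (O.valuation.map_add x y).trans_lt (max_lt hx hy)

theorem ResEq.mul {O : ValuationSubring G} {x y : G} {c d : k} (hk : ∀ e, algebraMap k G e ∈ O)
    (hx : ResEq O x c) (hy : ResEq O y d) : ResEq O (x * y) (c * d) := by
  refine ⟨mul_mem hx.1 hy.1, ?_⟩
  rw [map_mul, show x * y - algebraMap k G c * algebraMap k G d =
    (x - algebraMap k G c) * y + (y - algebraMap k G d) * algebraMap k G c by ring]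
  exact mem_nonunits_add (mem_nonunits_mul hx.2 hy.1) (mem_nonunits_mul hy.2 (hk c))

theorem resEq_const {O : ValuationSubring G} (hk : ∀ e, algebraMap k G e ∈ O) (c : k) :
    ResEq O (algebraMap k G c) c :=
  ⟨hk c, by rw [sub_self, ValuationSubring.mem_nonunits_iff, map_zero]; exact zero_lt_one⟩

theorem ResEq.pow {O : ValuationSubring G} {x : G} {c : k} (hk : ∀ e, algebraMap k G e ∈ O)
    (hx : ResEq O x c) : ∀ m : ℕ, ResEq O (x ^ m) (c ^ m)
  | 0 => by simpa using resEq_const hk (1 : k)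
  | m + 1 => by rw [pow_succ, pow_succ]; exact (hx.pow hk m).mul hk hx

namespace Data

variable {F : Type*} [Field F] {E : Type*} [Field E] (X : Data k F G E) {n : ℕ}

theorem through_of_centred {b : Bool} {Q : Ideal (X.R b)} {i : Fin 3} {O : ValuationSubring G}
    (h : X.Centred b Q i O) : Chart.Through (X := X.toChart) Q i := fun x hx =>
  (h.2.2.2 x).mpr (by
    rw [hx, ValuationSubring.mem_nonunits_iff, map_zero]; exact zero_lt_one)

theorem valuation_red_eq_one {b : Bool} {Q : Ideal (X.R b)} {i : Fin 3} {O : ValuationSubring G}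
    (h : X.Centred b Q i O) {x : X.R b} (hx : x ∉ Q) :
    O.valuation ((X.comp i).redF x) = 1 := by
  refine le_antisymm ((O.valuation_le_one_iff _).mpr (h.2.2.1 x)) (not_lt.mp fun hlt => hx ?_)
  exact (h.2.2.2 x).mpr hlt

/-- At a branch a root of a local unit reduces to a nonzero constant. -/
theorem exists_value (hn : (n : k) ≠ 0) {b : Bool} {Q : Ideal (X.R b)}
    (hQ : X.ClosedPoint b Q) {i : Fin 3} {O : ValuationSubring G} (hC : X.Centred b Q i O)
    {U f : F} (hU : (X.comp i).Unit U) (hU1 : (X.comp i).redF U = 1)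
    (hε : X.LocalUnit b Q (f ^ n * U)) :
    (X.comp i).Unit f ∧ ∃ c : k, c ≠ 0 ∧ ResEq O ((X.comp i).redF f) c := by
  have := hQ.1
  obtain ⟨c, d, hc, hd, hcd⟩ := hε
  have hn0 : n ≠ 0 := fun e => hn (by rw [e, Nat.cast_zero])
  have hi := X.through_of_centred hC
  have hcu : (X.comp i).Unit (c : F) := Chart.unit_of_notMem hi hc
  have hdu : (X.comp i).Unit (d : F) := Chart.unit_of_notMem hi hd
  have hfn : f ^ n = (c : F) * (U * d)⁻¹ := by
    rw [← hcd, mul_assoc (f ^ n) U, mul_inv_cancel_right₀ (mul_ne_zero hU.1 hdu.1)]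
  have hf0 : f ≠ 0 := fun e => by
    rw [e, zero_pow hn0] at hfn
    exact mul_ne_zero hcu.1 (hU.mul hdu).inv.1 hfn.symm
  have hfu : (X.comp i).Unit f := by
    refine ⟨hf0, ?_⟩
    have h1 := (hfn ▸ hcu.mul (hU.mul hdu).inv : (X.comp i).Unit (f ^ n)).2
    rw [(X.comp i).ord_pow hf0] at h1
    exact (mul_eq_zero.mp h1).resolve_left (by exact_mod_cast hn0)
  set r := (X.comp i).redF f
  have hr : O.valuation r = 1 := by
    have h1 : r ^ n = (X.comp i).redF c * ((X.comp i).redF d)⁻¹ := by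
      rw [← Comp.redF_pow hfu.mem, hfn, Comp.redF_mul hcu.mem (hU.mul hdu).inv.mem,
        (hU.mul hdu).redF_inv, Comp.redF_mul hU.mem hdu.mem, hU1, one_mul]
    have h2 := congrArg O.valuation h1
    rw [map_pow, map_mul, map_inv₀, X.valuation_red_eq_one hC hc, X.valuation_red_eq_one hC hd,
      inv_one, mul_one] at h2
    exact (pow_eq_one_iff.mp h2).resolve_right hn0
  have hrO : r ∈ O := (O.valuation_le_one_iff r).mp hr.le
  obtain ⟨γ, hγ⟩ := X.res b Q hQ i O hC r hrO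
  refine ⟨hfu, γ, fun e => ?_, hrO, hγ⟩
  rw [e, map_zero, sub_zero, ValuationSubring.mem_nonunits_iff, hr] at hγ
  exact lt_irrefl _ hγ

variable [IsAlgClosed k]

/-- The roots of unity of `G` are constants. -/
theorem exists_const_of_pow_eq_one (hn : 0 < n) {z : G} (hz : z ^ n = 1) :
    ∃ c : k, algebraMap k G c = z := by
  have hi : IsIntegral k z := ⟨Polynomial.X ^ n - Polynomial.C 1,
    Polynomial.monic_X_pow_sub_C 1 hn.ne', by simp [hz]⟩
  exact minpoly.mem_range_of_degree_eq_one k z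
    (IsAlgClosed.degree_eq_one_of_irreducible k (minpoly.irreducible hi))

/-- With norms `1` on the reductions, the ratios at pairs are fixed constants. -/
theorem exists_ratio (hn : (n : k) ≠ 0) {u s : F} (h : X.NormPow n u) (hs : s ≠ 0)
    (hU : ∀ i, (X.comp i).Unit (s ^ n * u)) (hU1 : ∀ i, (X.comp i).redF (s ^ n * u) = 1) :
    ∃ π : Fin 3 → k, (∀ i, π i ^ n = 1) ∧ π 2 = 1 ∧
      ∀ (b : Bool) (Q : Ideal (X.R b)) (O : Fin 3 → ValuationSubring G), X.ClosedPoint b Q →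
        X.IsPair b Q O → ∀ (f : F) (c : Fin 3 → k), X.LocalUnit b Q (f ^ n * (s ^ n * u)) →
          (∀ i, (X.comp i).Unit f ∧ c i ≠ 0 ∧ ResEq (O i) ((X.comp i).redF f) (c i)) →
          ∀ i, c i ^ (X.w ^ 2 - 1) = π i * c 2 ^ (X.w ^ 2 - 1) := by
  have hn0 : 0 < n := Nat.pos_of_ne_zero fun e => hn (by rw [e, Nat.cast_zero])
  choose y hy ey using fun t => h.exists_root hn hs hU t
  have hz : ∀ t j, ((X.low j).redF (y t)) ^ n = 1 := fun t j => by
    obtain ⟨r0, r2, r3, r4⟩ := X.red_norm _ hU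
    simp only [hU1, one_pow, mul_one, ← ey, Comp.redF_pow (hy _ _).mem] at r0 r2 r3 r4
    obtain rfl | rfl : t = 0 ∨ t = 1 := by omega
    all_goals obtain rfl | rfl : j = 0 ∨ j = 1 := by omega
    · exact r0
    · exact (map_eq_one_iff X.φ X.φ.toRingHom.injective).mp r2
    · exact (map_eq_one_iff X.φ X.φ.toRingHom.injective).mp r3
    · exact r4
  choose ζ hζ using fun t j => exists_const_of_pow_eq_one (k := k) hn0 (hz t j)
  have hζn : ∀ t j, ζ t j ^ n = 1 := fun t j =>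
    (algebraMap k G).injective (by rw [map_pow, hζ, hz, map_one])
  have hζ0 : ∀ t j, ζ t j ≠ 0 := fun t j e => by
    simpa [e, zero_pow hn0.ne'] using hζn t j
  set ρa := ζ 0 1 / ζ 0 0
  set ρb := ζ 1 1 / ζ 1 0
  have hρ : ρa ^ n = 1 ∧ ρb ^ n = 1 := by simp [ρa, ρb, div_pow, hζn]
  set ρ := ρa * ρb
  refine ⟨![ρ ^ (X.w - 1), ρa ^ (X.w + 1) / ρ, 1], fun i => ?_, rfl, ?_⟩
  · fin_cases i <;>
      simp [ρ, div_pow, mul_pow, ← pow_mul, mul_comm _ n] <;> simp [pow_mul, hρ.1, hρ.2]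
  intro b Q O hQ hP f c hε hc
  have hv : ∀ i, (X.comp i).Unit f ∧ c i ≠ 0 ∧ X.HasValue i (O i) f (c i) := fun i =>
    ⟨(hc i).1, (hc i).2.1, (hc i).1.mem, (hc i).2.2.2⟩
  have hg : ∀ t, (t = 0 → ζ t 0 * (c 0 * c 1 ^ (X.w - 1)) = ζ t 1 * c 2 ^ X.w) ∧
      (t = 1 → ζ t 0 * c 0 ^ X.w = ζ t 1 * (c 2 * c 1 ^ (X.w - 1))) := fun t => by
    refine X.glue b Q O hQ hP n hn _ f c hε hv t (X.Nm t f * y t) (ζ t) ?_ fun j => ?_
    · rw [mul_pow, ey, map_mul (X.Nm t) (f ^ n), map_pow]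
    · have hf0 := (hc 0).1.1
      obtain ⟨h0, h1, h2, h3, h4⟩ := X.ord_norm f hf0
      simp only [(hc _).1.2, add_zero, mul_zero] at h1 h2 h3 h4
      have hNf : (X.low j).Unit (X.Nm t f) := by
        refine ⟨h0 t, ?_⟩
        obtain rfl | rfl : t = 0 ∨ t = 1 := by omega
        all_goals obtain rfl | rfl : j = 0 ∨ j = 1 := by omega
        all_goals assumption
      rw [Comp.redF_mul hNf.mem (hy t j).mem, hζ, mul_comm]
  have ha := (hg 0).1 rfl
  have hb := (hg 1).2 rfl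
  obtain ⟨v, hv⟩ : ∃ v, X.w = v + 1 := ⟨X.w - 1, by have := X.w_prime.one_lt; omega⟩
  rw [hv, Nat.add_sub_cancel] at ha hb
  have hρ0 : ρ ≠ 0 := mul_ne_zero (div_ne_zero (hζ0 _ _) (hζ0 _ _)) (div_ne_zero (hζ0 _ _) (hζ0 _ _))
  have ha' : c 0 * c 1 ^ v = ρa * c 2 ^ (v + 1) := by
    rw [div_mul_eq_mul_div, eq_div_iff (hζ0 0 0), mul_comm, ha]
  have hb' : c 0 ^ (v + 1) = ρb * (c 2 * c 1 ^ v) := by
    rw [div_mul_eq_mul_div, eq_div_iff (hζ0 1 0), mul_comm, hb]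
  have h02 : c 0 ^ (v + 2) = ρ * c 2 ^ (v + 2) := by
    have : c 0 ^ (v + 2) * c 1 ^ v = ρ * c 2 ^ (v + 2) * c 1 ^ v := by
      calc c 0 ^ (v + 2) * c 1 ^ v = (c 0 * c 1 ^ v) * c 0 ^ (v + 1) := by ring
        _ = _ := by rw [ha', hb']; ring
    exact mul_right_cancel₀ (pow_ne_zero _ (hc 1).2.1) this
  have hE : X.w ^ 2 - 1 = (v + 2) * v := by
    rw [hv]; exact Nat.sub_eq_of_eq_add (by ring)
  intro i
  rw [hE, hv]
  fin_cases i
  · show c 0 ^ ((v + 2) * v) = ρ ^ (v + 1 - 1) * c 2 ^ ((v + 2) * v)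
    rw [Nat.add_sub_cancel, pow_mul, h02, mul_pow, ← pow_mul]
  · show c 1 ^ ((v + 2) * v) = ρa ^ (v + 1 + 1) / ρ * c 2 ^ ((v + 2) * v)
    have h1 : c 0 ^ (v + 2) * c 1 ^ ((v + 2) * v) = ρa ^ (v + 2) * c 2 ^ ((v + 1) * (v + 2)) := by
      have h2 := congrArg (· ^ (v + 2)) ha'
      simp only [mul_pow, ← pow_mul] at h2
      rwa [mul_comm v (v + 2)] at h2
    rw [h02, show (v + 1) * (v + 2) = (v + 2) * v + (v + 2) by ring, pow_add] at h1
    rw [div_mul_eq_mul_div, eq_div_iff hρ0]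
    exact mul_right_cancel₀ (pow_ne_zero (v + 2) (hc 2).2.1) (by linear_combination h1)
  · show c 2 ^ ((v + 2) * v) = 1 * c 2 ^ ((v + 2) * v)
    rw [one_mul]

/-- The exponent lost. -/
def rootExp : ℕ := (X.w + 1) * (X.w - 1) * X.B₀ * (X.w ^ 2 - 1)

/-- **The root.**  A function whose divisor away from the closed fibre is divisible by `n` and
whose norms are `n`-th powers up to constants is, up to a bounded exponent, an `n`-th power up
to a function without poles on the generic fibre. -/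
theorem exists_root (hn : (n : k) ≠ 0) {u : F} (hu : u ≠ 0) (hH : X.HorizPow n u)
    (hN : X.NormPow n u) :
    ∃ f : F, f ≠ 0 ∧ ∀ V : ValuationSubring F, (∀ x ∈ X.W, x ∈ V) → (X.w : F)⁻¹ ∈ V →
      f ^ n * u ^ X.rootExp ∈ V := by
  have hn0 : 0 < n := Nat.pos_of_ne_zero fun e => hn (by rw [e, Nat.cast_zero])
  obtain ⟨l, s₁, hs₁, hU₁⟩ := hN.exists_ord_zero hn0 hu
  set u₁ := u ^ (X.w + 1) * (X.w : F) ^ l
  have hN₁ : X.NormPow n u₁ := (hN.pow _).mul_w _
  have hH₁ : X.HorizPow n u₁ := horizPow_mul_w (horizPow_pow hH _) _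
  obtain ⟨s₂, hs₂, hU₂, hr₂⟩ := hN₁.exists_red_one hn hs₁ hU₁
  set u₂ := u₁ ^ (X.w - 1)
  have hN₂ : X.NormPow n u₂ := hN₁.pow _
  have hH₂ : X.HorizPow n u₂ := horizPow_pow hH₁ _
  have hu₂ : u₂ ≠ 0 := right_ne_zero_of_mul (hU₂ 0).1
  have hdvd : ∀ i, (n : ℤ) ∣ (X.comp i).ord u₂ := fun i => ⟨-(X.comp i).ord s₂, by
    have := (hU₂ i).2
    rw [(X.comp i).ord_mul _ _ (pow_ne_zero _ hs₂) hu₂, (X.comp i).ord_pow hs₂] at this
    linarith⟩
  set s₃ := s₂ ^ X.B₀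
  set u₃ := u₂ ^ X.B₀
  have hs₃ : s₃ ≠ 0 := pow_ne_zero _ hs₂
  have e₃ : s₃ ^ n * u₃ = (s₂ ^ n * u₂) ^ X.B₀ := by
    show (s₂ ^ X.B₀) ^ n * u₂ ^ X.B₀ = _
    ring
  have hU₃ : ∀ i, (X.comp i).Unit (s₃ ^ n * u₃) := fun i => e₃ ▸ (hU₂ i).pow _
  have hr₃ : ∀ i, (X.comp i).redF (s₃ ^ n * u₃) = 1 := fun i => by
    rw [e₃, Comp.redF_pow (hU₂ i).mem, hr₂, one_pow]
  obtain ⟨π, hπn, hπ2, hπ⟩ := X.exists_ratio hn (hN₂.pow X.B₀) hs₃ hU₃ hr₃
  have hπ0 : ∀ i, π i ≠ 0 := fun i e => by simpa [e, zero_pow hn0.ne'] using hπn i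
  set e := X.w ^ 2 - 1
  obtain ⟨f', hf'⟩ := X.approx fun i => algebraMap k G (π i)
  have hfu : ∀ i, (X.comp i).Unit f' := fun i => Comp.unit_of_redF_ne (hf' i).1 (by
    rw [(hf' i).2, ne_eq, map_eq_zero]; exact hπ0 i)
  set s₄ := s₃ ^ e * f'
  set u₄ := u₃ ^ e
  have e₄ : s₄ ^ n * u₄ = (s₃ ^ n * u₃) ^ e * f' ^ n := by
    show (s₃ ^ e * f') ^ n * u₃ ^ e = _
    ring
  have H : X.toChart.LocalRoots n u₄ s₄ := by
    refine ⟨hn, pow_ne_zero _ (pow_ne_zero _ hu₂), mul_ne_zero (pow_ne_zero _ hs₃) (hfu 0).1,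
      fun i => e₄ ▸ ((hU₃ i).pow e).mul ((hfu i).pow n), fun i => ?_, fun b Q hQ => ?_⟩
    · rw [e₄, Comp.redF_mul ((hU₃ i).pow e).mem ((hfu i).pow n).mem, Comp.redF_pow (hU₃ i).mem,
        hr₃, one_pow, one_mul, Comp.redF_pow (hfu i).mem, (hf' i).2, ← map_pow, hπn, map_one]
    obtain ⟨h, h0, hh⟩ := X.loc b Q hQ n hn u₂ hu₂ hH₂ hdvd
    have := hQ.1
    set f := h / s₃
    have hε : X.LocalUnit b Q (f ^ n * (s₃ ^ n * u₃)) := by
      rwa [div_pow, ← mul_assoc, div_mul_cancel₀ _ (pow_ne_zero _ hs₃)]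
    have hval : ∀ i O, X.Centred b Q i O → (X.comp i).Unit f ∧
        ∃ c : k, c ≠ 0 ∧ ResEq O ((X.comp i).redF f) c := fun i O hC =>
      X.exists_value hn hQ hC (hU₃ i) (hr₃ i) hε
    -- one scale for all branches
    obtain ⟨γ, hγ0, hγ⟩ : ∃ γ : k, γ ≠ 0 ∧ ∀ i O, X.Centred b Q i O →
        ResEq O ((X.comp i).redF f ^ e) (π i * γ) := by
      rcases X.points b Q hQ with hone | ⟨O, hP⟩
      · by_cases hex : ∃ i O, X.Centred b Q i O
        · obtain ⟨i₀, O₀, hC₀⟩ := hex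
          obtain ⟨-, c, hc0, hc⟩ := hval i₀ O₀ hC₀
          refine ⟨(π i₀)⁻¹ * c ^ e, mul_ne_zero (inv_ne_zero (hπ0 _)) (pow_ne_zero _ hc0),
            fun i O hC => ?_⟩
          obtain ⟨rfl, rfl⟩ := hone i i₀ O O₀ hC hC₀
          rw [mul_inv_cancel_left₀ (hπ0 _)]
          exact hc.pow hC.1 e
        · exact ⟨1, one_ne_zero, fun i O hC => absurd ⟨i, O, hC⟩ hex⟩
      · choose hu' c hc0 hc using fun i => hval i (O i) (hP.1 i)
        refine ⟨c 2 ^ e, pow_ne_zero _ (hc0 2), fun i O' hC => ?_⟩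
        obtain rfl := hP.2 i O' hC
        have key := hπ b Q O hQ hP f c hε (fun j => ⟨hu' j, hc0 j, hc j⟩) i
        rw [← key]
        exact (hc i).pow hC.1 e
    obtain ⟨x, hx⟩ := X.resW_surjective γ⁻¹
    have hxu : IsUnit x := by
      by_contra hne
      obtain ⟨z, hz⟩ := (X.W_maximal x).mp hne
      rw [hz, map_mul, map_natCast, X.cast_w_eq_zero, zero_mul] at hx
      exact inv_ne_zero hγ0 hx.symm
    have hxR : (x : F) ∈ X.R b := X.W_le_R b x.2
    have hxQ : (⟨(x : F), hxR⟩ : X.R b) ∉ Q := fun hm => by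
      refine hQ.1.ne_top (Ideal.eq_top_of_isUnit_mem _ hm ?_)
      exact hxu.map (Subring.inclusion fun z hz => X.W_le_R b hz : X.W →+* X.R b)
    refine ⟨h ^ e * x, mul_ne_zero (pow_ne_zero _ h0) (fun e' => hxu.ne_zero (Subtype.ext e')),
      ?_, fun i O hC => ?_⟩
    · obtain ⟨c, d, hc, hd, hcd⟩ := hh
      refine ⟨c ^ e * ⟨(x : F), hxR⟩ ^ n, d ^ e,
        Ideal.IsPrime.mul_notMem ‹Q.IsMaximal›.isPrime
          (fun hm => hc (hQ.1.isPrime.mem_of_pow_mem _ hm))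
          (fun hm => hxQ (hQ.1.isPrime.mem_of_pow_mem _ hm)),
        fun hm => hd (hQ.1.isPrime.mem_of_pow_mem _ hm), ?_⟩
      push_cast
      rw [← hcd]
      ring
    · obtain ⟨hfu₀, -⟩ := hval i O hC
      have hxC : (X.comp i).Unit (x : F) := Comp.unit_of_redF_ne (X.W_le i _ x.2) (by
        rw [X.red_W, hx, ne_eq, map_eq_zero]; exact inv_ne_zero hγ0)
      have e5 : h ^ e * x / s₄ = f ^ e * x / f' := by
        show h ^ e * x / (s₃ ^ e * f') = (h / s₃) ^ e * x / f'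
        rw [div_pow]
        field_simp [hs₃, (hfu 0).1]
      rw [e5, Comp.Unit.redF_div ((hfu₀.pow e).mul hxC) (hfu i), (hf' i).2,
        Comp.redF_mul (hfu₀.pow e).mem hxC.mem, Comp.redF_pow hfu₀.mem, X.red_W, hx]
      have h1 := (hγ i O hC).mul hC.1 (resEq_const hC.1 (γ⁻¹ * (π i)⁻¹))
      rw [show π i * γ * (γ⁻¹ * (π i)⁻¹) = 1 by
        rw [mul_assoc, mul_inv_cancel_left₀ hγ0, mul_inv_cancel₀ (hπ0 i)]] at h1
      have h2 := h1.2
      rw [map_one, map_mul, map_inv₀ _ (π i), ← mul_assoc] at h2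
      rwa [div_eq_mul_inv]
  obtain ⟨f, hf, hfV⟩ := H.exists_global
  refine ⟨f, hf, fun V hW hw => ?_⟩
  have e' : u ^ X.rootExp = u₄ * (((X.w : F) ^ l) ^ ((X.w - 1) * X.B₀ * e))⁻¹ := by
    have e1 : u₄ = u ^ X.rootExp * ((X.w : F) ^ l) ^ ((X.w - 1) * X.B₀ * e) := by
      show (((u ^ (X.w + 1) * (X.w : F) ^ l) ^ (X.w - 1)) ^ X.B₀) ^ e = _
      rw [← pow_mul, ← pow_mul, mul_pow, ← pow_mul u, rootExp]
      simp only [e, mul_assoc]
    rw [e1, mul_inv_cancel_right₀ (pow_ne_zero _ (pow_ne_zero _ X.w_ne))]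
  rw [e', ← mul_assoc, ← pow_mul, ← inv_pow]
  exact mul_mem (hfV V hW) (pow_mem hw _)

end Data

end Fermat.Agent.SquareOld

end
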