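import Fermat.Agent.SquareOld.FixedFunctions
import Fermat.Agent.SquareOld.Root
import Fermat.Agent.SquareOld.Interface

/-!
# From the geometric data to the bound on classes killed by both norms

A class fixed by inertia has a fixed function with divisor `n D`; it is an `n`-th power at the
horizontal valuations and its norms are `n`-th powers up to constants, so the root theorem makes
a bounded power of it an `n`-th power of a function times a constant.
-/

set_option autoImplicit false
set_option linter.unusedSectionVars false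

noncomputable section

open AlgebraicCurve ModularCurve IsLocalRing Fermat.Agent.FunctionFieldRR Fermat.Agent.SemistableRed
  Fermat.Agent.LevelP Fermat.Agent.Reduction

namespace Fermat.Agent.SquareOld

local notation "Qbar" => AlgebraicClosure ℚ

attribute [local instance] HeckeJ0.hasPrincipalDivisors_bar

variable {M w : ℕ} [NeZero M] [NeZero w]

/-- The two degeneracy maps from level `M w` to level `M w²`. -/
def degMap (M w : ℕ) [NeZero M] [NeZero w] : Fin 2 →
    (modularFunctionFieldBar (M * w) →ₐ[Qbar] modularFunctionFieldBar (M * w * w)) :=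
  ![heckeAlphaBar Qbar (M * w) w, heckeBetaBar Qbar (M * w) w]

/-- The data `X` are those of level `M w²` at `A`: constants, and norms along both maps. -/
structure IsLevelData (A : ValuationSubring Qbar) {G : Type} [Field G]
    [Algebra (ResidueField A) G]
    (X : Data (ResidueField A) ↥(Fixed A (M * w) w) G ↥(Fixed A M w)) : Prop where
  w_eq : X.w = w
  B₀_eq : X.B₀ = 1
  const_mem : ∀ (c : Qbar)
    (hc : algebraMap Qbar (modularFunctionFieldBar (M * w * w)) c ∈ Fixed A (M * w) w), c ∈ A →
      (⟨_, hc⟩ : Fixed A (M * w) w) ∈ X.W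
  mem_const : ∀ x : X.W, ∃ c : Qbar,
    ((x : Fixed A (M * w) w) : modularFunctionFieldBar (M * w * w)) = algebraMap Qbar _ c ∧
      (X.ιE x : modularFunctionFieldBar (M * w)) = algebraMap Qbar _ c
  norm_eq : ∀ t (u : Fixed A (M * w) w), (X.Nm t u : modularFunctionFieldBar (M * w)) =
    normAlong (degMap M w t) (u : modularFunctionFieldBar (M * w * w))

variable (M w) in
/-- The geometry of level `M w²` at every place over `w`. -/
def HasLevelData : Prop :=
  ∀ A : ValuationSubring Qbar, A.LiesOverPrime w →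
    ∃ (G : Type) (_ : Field G) (_ : Algebra (ResidueField A) G)
      (X : Data (ResidueField A) ↥(Fixed A (M * w) w) G ↥(Fixed A M w)), IsLevelData A X

/-- A trivial push forward depends only on the class. -/
theorem pushTrivial_of_mk_eq {K F F' : Type*} [Field K] [Field F] [Field F'] [Algebra K F]
    [Algebra K F'] [IsAlgClosed K] [IsFunctionField K F] [IsFunctionField K F']
    [HasPrincipalDivisors K F'] (ψ : F →ₐ[K] F') (hψ : ψ.toRingHom.IsIntegral)
    {D D' : Divisor.degZero (K := K) (F := F')} (h : Pic0.mk D = Pic0.mk D')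
    (hD : PushTrivial ψ hψ (D : Divisor K F')) : PushTrivial ψ hψ (D' : Divisor K F') := by
  obtain ⟨g, hg, hg'⟩ := hD
  have hp : D' - D ∈ (Divisor.principal (K := K) (F := F')).addSubgroupOf _ :=
    (QuotientAddGroup.eq_iff_sub_mem).mp h.symm
  obtain ⟨f, hf, hf'⟩ := hp
  let := algebraAlong ψ
  have : Module.Finite F F' := finiteAlong ψ
  have hn : normAlong ψ f ≠ 0 := Algebra.norm_ne_zero_iff.mpr hf
  refine ⟨normAlong ψ f * g, mul_ne_zero hn hg, fun v => ?_⟩
  have h1 := Congruence.pushforwardAlong_eq_ord ψ hψ (finiteAlong ψ) (normFormulaAlong ψ _) hf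
    (E := ((D' - D : Divisor.degZero (K := K) (F := F')) : Divisor K F')) (fun P => hf' P) v
  rw [AddSubgroupClass.coe_sub, map_sub, Finsupp.sub_apply, hg' v] at h1
  rw [v.ord_mul hn hg]
  show _ = v.ord (normAlong ψ f) + v.ord g
  rw [← show v.ord (Algebra.norm F f) = v.ord (normAlong ψ f) from rfl, ← h1, sub_add_cancel]

variable {A : ValuationSubring Qbar} {G : Type} [Field G] [Algebra (ResidueField A) G]
  {X : Data (ResidueField A) ↥(Fixed A (M * w) w) G ↥(Fixed A M w)}

set_option maxHeartbeats 1000000 in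
theorem IsLevelData.normPow (hX : IsLevelData A X) {n : ℕ} (hn : n ≠ 0) {u : Fixed A (M * w) w}
    (hu : u ≠ 0) {D : Divisor Qbar (modularFunctionFieldBar (M * w * w))}
    (hD : ∀ P : Place Qbar (modularFunctionFieldBar (M * w * w)),
      P.ord (u : modularFunctionFieldBar (M * w * w)) = (n : ℤ) * D P)
    (hint : ∀ t, (degMap M w t).toRingHom.IsIntegral)
    (hpush : ∀ t, PushTrivial (degMap M w t) (hint t) D) : X.NormPow n u := by
  have := isFunctionField_level (M * w)
  have := isFunctionField_level (M * w * w)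
  intro t
  obtain ⟨g, hg, hg'⟩ := hpush t
  have huF : (u : modularFunctionFieldBar (M * w * w)) ≠ 0 := fun e => hu (Subtype.ext e)
  obtain ⟨a, ha, hN0⟩ := normAlong_eq_pow _ (hint t) huF hD hg hg'
  rw [← hX.norm_eq] at ha hN0
  obtain ⟨N, hNeq⟩ : ∃ N : Fixed A M w, X.Nm t u = N := ⟨_, rfl⟩
  rw [hNeq] at ha hN0 ⊢
  have ha0 : a ≠ 0 := fun e => hN0 (by rw [ha, e, map_zero, zero_mul])
  have hfix : ∀ σ ∈ A.inertiaSubgroupIn ℚ, ∀ P : Place Qbar (modularFunctionFieldBar (M * w)),
      P.ord (arithmeticGalois (modularFunctionFieldFull (M * w)) σ • g) = P.ord g := by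
    intro σ hσ P
    have hsg : arithmeticGalois (modularFunctionFieldFull (M * w)) σ • g ≠ 0 :=
      (smul_ne_zero_iff_ne _).mpr hg
    have h1 := galois_of_mem_fixed N.2 hσ
    rw [ha, smul_mul', galois_const, smul_pow'] at h1
    have h2 := congrArg P.ord h1
    rw [P.ord_mul ((map_ne_zero _).mpr ((map_ne_zero σ).mpr ha0)) (pow_ne_zero _ hsg),
      P.ord_mul ((map_ne_zero _).mpr ha0) (pow_ne_zero _ hg), ord_algebraMap, ord_algebraMap,
      zero_add, zero_add, ord_pow, ord_pow] at h2
    exact mul_left_cancel₀ (Int.natCast_ne_zero.mpr hn) h2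
  obtain ⟨c, hc, hcg⟩ := exists_fixed_scale hg hfix
  set g' : Fixed A M w := ⟨_, hcg⟩ with hg'
  set b : Qbar := a * (c ^ n)⁻¹ with hb
  have hN : (N : modularFunctionFieldBar (M * w)) =
      algebraMap Qbar _ b * (g' : modularFunctionFieldBar (M * w)) ^ n := by
    show _ = algebraMap Qbar _ b * (algebraMap Qbar _ c * g) ^ n
    rw [ha, hb, map_mul, map_inv₀, map_pow, mul_pow, mul_assoc,
      inv_mul_cancel_left₀ (pow_ne_zero _ ((map_ne_zero _).mpr hc))]
  have hb0 : b ≠ 0 := mul_ne_zero ha0 (inv_ne_zero (pow_ne_zero _ hc))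
  have hbfix : algebraMap Qbar (modularFunctionFieldBar (M * w * w)) b ∈ Fixed A (M * w) w := by
    refine mem_fixed_of_galois fun σ hσ => ?_
    have h1 := galois_of_mem_fixed N.2 hσ
    rw [hN, smul_mul', galois_const, smul_pow', galois_of_mem_fixed g'.2 hσ] at h1
    have hg0 : (g' : modularFunctionFieldBar (M * w)) ^ n ≠ 0 :=
      pow_ne_zero _ (mul_ne_zero ((map_ne_zero _).mpr hc) hg)
    rw [galois_const, (algebraMap Qbar (modularFunctionFieldBar (M * w))).injective
      (mul_right_cancel₀ hg0 h1)]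
  rcases A.mem_or_inv_mem b with h | h
  · obtain ⟨e, h1, h2⟩ := hX.mem_const ⟨_, hX.const_mem b hbfix h⟩
    rw [← (algebraMap Qbar (modularFunctionFieldBar (M * w * w))).injective h1] at h2
    refine ⟨g', ⟨_, hX.const_mem b hbfix h⟩, 1, fun e0 => hb0 ?_, by
      rw [map_one]; exact one_ne_zero, ?_⟩
    · rw [e0] at h2
      exact (map_eq_zero _).mp h2.symm
    · rw [map_one, one_mul]
      exact Subtype.ext (hN.trans (by rw [MulMemClass.coe_mul, SubmonoidClass.coe_pow, h2]))
  · have hbi : algebraMap Qbar (modularFunctionFieldBar (M * w * w)) b⁻¹ ∈ Fixed A (M * w) w := by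
      rw [map_inv₀]; exact inv_mem hbfix
    obtain ⟨e, h1, h2⟩ := hX.mem_const ⟨_, hX.const_mem b⁻¹ hbi h⟩
    rw [← (algebraMap Qbar (modularFunctionFieldBar (M * w * w))).injective h1] at h2
    refine ⟨g', 1, ⟨_, hX.const_mem b⁻¹ hbi h⟩, by rw [map_one]; exact one_ne_zero,
      fun e0 => hb0 ?_, ?_⟩
    · rw [e0] at h2
      exact inv_eq_zero.mp ((map_eq_zero _).mp h2.symm)
    · rw [map_one, one_mul]
      refine Subtype.ext ?_
      rw [MulMemClass.coe_mul, hN, h2, SubmonoidClass.coe_pow, map_inv₀,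
        inv_mul_cancel_left₀ ((map_ne_zero _).mpr hb0)]

/-- Geometric data at every place above `w` give the bound on fixed classes killed by both norms. -/
theorem fixedKilledByNorms_of_data (hw : w.Prime) (h : HasLevelData M w) :
    FixedKilledByNorms M w := by
  have h1 := hw.two_le
  have h4 : 1 < w ^ 2 := Nat.one_lt_pow two_ne_zero hw.one_lt
  refine ⟨(w + 1) * (w - 1) * 1 * (w ^ 2 - 1),
    Nat.mul_pos (Nat.mul_pos (Nat.mul_pos (by omega) (by omega)) one_pos) (by omega),
    fun A hA n hn hα hβ D hnD hfix hDα hDβ => ?_⟩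
  have := Fact.mk hw
  have := charP_residueField hA
  have : IsAlgClosed (ResidueField A) := isAlgClosed_residueField
  have := isFunctionField_level (M * w)
  have := isFunctionField_level (M * w * w)
  obtain ⟨G, _, _, X, hX⟩ := h A hA
  have hn0 : n ≠ 0 := fun e => hw.ne_one (Nat.coprime_zero_left w |>.mp (e ▸ hn))
  have hnk : (n : ResidueField A) ≠ 0 := natCast_residue_ne_zero hA
    fun hdvd => hw.ne_one (Nat.eq_one_of_dvd_coprimes hn hdvd dvd_rfl)
  obtain ⟨D', u, hDD, hu, hord, hgal⟩ := ToricRows.exists_fixed_function (M * w * w)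
    (H := A.inertiaSubgroupIn ℚ) hnD hfix
  set u' : Fixed A (M * w) w := ⟨u, mem_fixed_of_galois hgal⟩ with hu'
  have hu0 : u' ≠ 0 := fun e => hu (congrArg Subtype.val e)
  have hint : ∀ t, (degMap M w t).toRingHom.IsIntegral := Fin.forall_fin_two.mpr ⟨hα, hβ⟩
  have hpush : ∀ t, PushTrivial (degMap M w t) (hint t)
      (D' : Divisor Qbar (modularFunctionFieldBar (M * w * w))) :=
    Fin.forall_fin_two.mpr ⟨pushTrivial_of_mk_eq _ hα hDD.symm hDα,
      pushTrivial_of_mk_eq _ hβ hDD.symm hDβ⟩
  have hH : X.HorizPow n u' := fun V hV hinv => exists_horiz_root hw hA hn0 hu0 _ hord V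
    (fun c hc hcA => hV _ (hX.const_mem c hc hcA)) (by rwa [hX.w_eq] at hinv)
  obtain ⟨f, hf, hroot⟩ := X.exists_root hnk hu0 hH (hX.normPow hn0 hu0 hord hint hpush)
  rw [Data.rootExp, hX.w_eq, hX.B₀_eq] at hroot
  set B := (w + 1) * (w - 1) * 1 * (w ^ 2 - 1)
  have hfF : (f : modularFunctionFieldBar (M * w * w)) ≠ 0 := fun e => hf (Subtype.ext e)
  set z : modularFunctionFieldBar (M * w * w) := (f : modularFunctionFieldBar (M * w * w)) ^ n * u ^ B
    with hz
  have hz0 : z ≠ 0 := mul_ne_zero (pow_ne_zero _ hfF) (pow_ne_zero _ hu)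
  have hnonneg : ∀ P : Place Qbar (modularFunctionFieldBar (M * w * w)), 0 ≤ P.ord z := fun P => by
    have := hroot (P.toValuationSubring.comap (Fixed A (M * w) w).subtype) (fun x hx => by
        obtain ⟨c, hc, -⟩ := hX.mem_const ⟨x, hx⟩
        show (x : modularFunctionFieldBar (M * w * w)) ∈ P.toValuationSubring
        rw [hc]; exact (ord_nonneg_iff P _).mp (by rw [ord_algebraMap]))
      (by
        show ((Fixed A (M * w) w).subtype ((w : Fixed A (M * w) w))⁻¹) ∈ P.toValuationSubring
        rw [map_inv₀, map_natCast, ← map_natCast (algebraMap Qbar (modularFunctionFieldBar _)),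
          ← map_inv₀]
        exact (ord_nonneg_iff P _).mp (by rw [ord_algebraMap]))
    exact (ord_nonneg_iff P z).mpr this
  obtain ⟨c, hc⟩ := exists_algebraMap_eq_of_forall_ord_nonneg (K := Qbar) (f := z) hnonneg
  have hzero : ∀ P : Place Qbar (modularFunctionFieldBar (M * w * w)), P.ord z = 0 := fun P => by
    rw [hc, ord_algebraMap]
  rw [← hDD]
  refine (QuotientAddGroup.eq_zero_iff (B • D')).mpr
    ⟨(f : modularFunctionFieldBar (M * w * w))⁻¹, inv_ne_zero hfF, fun P => ?_⟩
  have h2 := hzero P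
  rw [hz, P.ord_mul (pow_ne_zero _ hfF) (pow_ne_zero _ hu), ord_pow, ord_pow, hord P] at h2
  have h3 : (n : ℤ) * (P.ord (f : modularFunctionFieldBar (M * w * w)) +
      (B : ℤ) * (D' : Divisor Qbar (modularFunctionFieldBar (M * w * w))) P) = 0 := by
    linear_combination h2
  have h4 := (mul_eq_zero.mp h3).resolve_left (Int.natCast_ne_zero.mpr hn0)
  rw [P.ord_inv]
  simp only [AddSubgroup.subtype_apply, AddSubmonoidClass.coe_nsmul, Finsupp.smul_apply, nsmul_eq_mul]
  linarith

end Fermat.Agent.SquareOld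

end
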