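import Fermat.Agent.Engine.TSide
import Fermat.Agent.Engine.TRep.NonEis
import Fermat.Agent.EigenRep.AdicRelation
import Fermat.Agent.Chebotarev.Trace

/-!
# An irreducible system with cyclotomic determinant is not Eisenstein
-/

set_option autoImplicit false

noncomputable section

open IsLocalRing Matrix

namespace Fermat.Agent.SquareOld

open EigenRep DefRing

local notation "Qbar" => AlgebraicClosure ℚ

section Algebra

variable {O : Type} [CommRing O] [IsDomain O] {G : Type} [Group G]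

/-- If on a normal subgroup the trace is `1 + det` and the determinant is not trivial, there is a
common eigenvector. -/
theorem exists_common_eigenvector (R : G →* Matrix (Fin 2) (Fin 2) O) {C : Type} [CommGroup C]
    (c : G →* C) (htr : ∀ h, c h = 1 → (R h).trace = 1 + (R h).det) {h₀ : G} (hh₀ : c h₀ = 1)
    (hd₀ : (R h₀).det ≠ 1) :
    ∃ v : Fin 2 → O, v ≠ 0 ∧ ∀ g, ∃ x y : O, x ≠ 0 ∧ x • (R g *ᵥ v) = y • v := by
  classical
  set e := (R h₀).det with he
  have h0t := htr h₀ hh₀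
  rw [Matrix.trace_fin_two] at h0t
  have h0d := he
  rw [Matrix.det_fin_two] at h0d
  obtain ⟨v₁, hv₁, hv₁'⟩ := Matrix.exists_mulVec_eq_zero_iff.mpr
    (show (R h₀ - 1).det = 0 by
      rw [Matrix.det_fin_two]; simp
      linear_combination -h0d - h0t)
  obtain ⟨v₂, hv₂, hv₂'⟩ := Matrix.exists_mulVec_eq_zero_iff.mpr
    (show (R h₀ - e • 1).det = 0 by
      rw [Matrix.det_fin_two]; simp
      linear_combination -h0d - e * h0t)
  rw [sub_mulVec, one_mulVec, sub_eq_zero] at hv₁'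
  rw [sub_mulVec, smul_mulVec, one_mulVec, sub_eq_zero] at hv₂'
  set d := v₁ 0 * v₂ 1 - v₁ 1 * v₂ 0 with hd
  have hd0 : d ≠ 0 := by
    intro hd0
    obtain ⟨i, hi⟩ := Function.ne_iff.mp hv₁
    have e1 : ∀ j, v₁ i * v₂ j = v₂ i * v₁ j := fun j => by
      fin_cases i <;> fin_cases j <;> simp only [Fin.isValue, Fin.zero_eta, Fin.mk_one]
      · ring
      · linear_combination hd0
      · linear_combination -hd0
      · ring
    have e2 : v₁ i • v₂ = v₂ i • v₁ := funext e1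
    have e3 := congrArg (R h₀ *ᵥ ·) e2
    simp only [mulVec_smul, hv₁', hv₂', smul_smul] at e3
    have e4 : (e - 1) • (v₁ i • v₂) = 0 := by
      rw [sub_smul, one_smul, smul_smul, mul_comm e, e3, e2, sub_self]
    exact (smul_eq_zero.mp ((smul_eq_zero.mp e4).resolve_left (sub_ne_zero.mpr hd₀))).elim hi hv₂
  -- coordinates with respect to the two eigenvectors, multiplied by `d`
  let α : (Fin 2 → O) → O := fun x => x 0 * v₂ 1 - x 1 * v₂ 0
  let β : (Fin 2 → O) → O := fun x => v₁ 0 * x 1 - v₁ 1 * x 0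
  have hx : ∀ x, d • x = α x • v₁ + β x • v₂ := fun x => by
    funext j
    fin_cases j <;> simp [α, β, hd] <;> ring
  have hα : ∀ g x, d * α (R g *ᵥ x) = α x * α (R g *ᵥ v₁) + β x * α (R g *ᵥ v₂) := fun g x => by
    have h := congrArg (fun y => α (R g *ᵥ y)) (hx x)
    simp [α, Matrix.mulVec_add, Matrix.mulVec_smul] at h ⊢
    linear_combination h
  have hβ : ∀ g x, d * β (R g *ᵥ x) = α x * β (R g *ᵥ v₁) + β x * β (R g *ᵥ v₂) := fun g x => by
    have h := congrArg (fun y => β (R g *ᵥ y)) (hx x)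
    simp [β, Matrix.mulVec_add, Matrix.mulVec_smul] at h ⊢
    linear_combination h
  -- the entries on the kernel of `c`
  have htrd : ∀ g, d * (R g).trace = α (R g *ᵥ v₁) + β (R g *ᵥ v₂) := fun g => by
    simp [α, β, hd, Matrix.trace_fin_two]; ring
  have hdet : ∀ g, d * d * (R g).det =
      α (R g *ᵥ v₁) * β (R g *ᵥ v₂) - α (R g *ᵥ v₂) * β (R g *ᵥ v₁) := fun g => by
    simp [α, β, hd, Matrix.det_fin_two]; ring
  have hdiag : ∀ h, c h = 1 →
      α (R h *ᵥ v₁) = d ∧ β (R h *ᵥ v₂) = d * (R h).det := fun h hh => by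
    have h1 := htr (h * h₀) (by rw [map_mul, hh, hh₀, one_mul])
    rw [map_mul, Matrix.det_mul, ← he] at h1
    have h2 : d * (R h * R h₀).trace = α (R h *ᵥ v₁) + e * β (R h *ᵥ v₂) := by
      have h3 := htrd (h * h₀)
      rw [map_mul, ← mulVec_mulVec, ← mulVec_mulVec, hv₁', hv₂', mulVec_smul] at h3
      rw [h3]; simp [β]; ring
    have h4 := htrd h
    rw [htr h hh] at h4
    rw [h1] at h2
    have h5 : (e - 1) * (β (R h *ᵥ v₂) - d * (R h).det) = 0 := by linear_combination h4 - h2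
    have h6 := (mul_eq_zero.mp h5).resolve_left (sub_ne_zero.mpr hd₀)
    exact ⟨by linear_combination -h4 - h6, sub_eq_zero.mp h6⟩
  have hoff : ∀ h h', c h = 1 → c h' = 1 → α (R h *ᵥ v₂) * β (R h' *ᵥ v₁) = 0 := fun h h' hh hh' => by
    have h1 := (hdiag (h * h') (by rw [map_mul, hh, hh', one_mul])).1
    rw [map_mul, ← mulVec_mulVec] at h1
    have h2 := hα h (R h' *ᵥ v₁)
    rw [h1, (hdiag h hh).1, (hdiag h' hh').1] at h2
    linear_combination -h2
  have hconj : ∀ g h, c h = 1 → c (g⁻¹ * h * g) = 1 ∧ (R (g⁻¹ * h * g)).det = (R h).det :=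
    fun g h hh => by
      refine ⟨by simp [hh], ?_⟩
      have : (R g⁻¹).det * (R g).det = 1 := by
        rw [← Matrix.det_mul, ← map_mul, inv_mul_cancel, map_one, Matrix.det_one]
      rw [map_mul, map_mul, Matrix.det_mul, Matrix.det_mul]
      linear_combination (R h).det * this
  have hrew : ∀ g h (x : Fin 2 → O), R h *ᵥ (R g *ᵥ x) = R g *ᵥ (R (g⁻¹ * h * g) *ᵥ x) :=
    fun g h x => by
      rw [mulVec_mulVec, mulVec_mulVec, ← map_mul, ← map_mul]; congr 2; group
  by_cases hA : ∀ h, c h = 1 → β (R h *ᵥ v₁) = 0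
  · -- `v₁` is fixed by the kernel
    refine ⟨v₁, hv₁, fun g => ⟨d, α (R g *ᵥ v₁), hd0, ?_⟩⟩
    have hfix : ∀ h, c h = 1 → R h *ᵥ v₁ = v₁ := fun h hh => by
      refine smul_right_injective _ hd0 (?_ : d • _ = d • v₁)
      rw [hx, (hdiag h hh).1, hA h hh, zero_smul, add_zero]
    have h1 : R h₀ *ᵥ (R g *ᵥ v₁) = R g *ᵥ v₁ := by
      rw [hrew, hfix _ (hconj g h₀ hh₀).1]
    have h2 := congrArg (fun y => d * β y) h1
    simp only [hβ, hv₁', hv₂'] at h2
    have hb : β (R g *ᵥ v₁) = 0 := by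
      have h3 : β v₁ = 0 := by simp [β]; ring
      have h4 : β (e • v₂) = e * d := by simp [β, hd]; ring
      rw [h3, h4] at h2
      have h5 : d * ((e - 1) * β (R g *ᵥ v₁)) = 0 := by linear_combination h2
      exact (mul_eq_zero.mp ((mul_eq_zero.mp h5).resolve_left hd0)).resolve_left
        (sub_ne_zero.mpr hd₀)
    rw [hx, hb, zero_smul, add_zero]
  · push Not at hA
    obtain ⟨h', hh', hne⟩ := hA
    refine ⟨v₂, hv₂, fun g => ⟨d, β (R g *ᵥ v₂), hd0, ?_⟩⟩
    have hfix : ∀ h, c h = 1 → R h *ᵥ v₂ = (R h).det • v₂ := fun h hh => by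
      refine smul_right_injective _ hd0 (?_ : d • _ = d • ((R h).det • v₂))
      rw [hx, (hdiag h hh).2, (mul_eq_zero.mp (hoff h h' hh hh')).resolve_right hne, zero_smul,
        zero_add, mul_smul]
    have h1 : R h₀ *ᵥ (R g *ᵥ v₂) = e • (R g *ᵥ v₂) := by
      rw [hrew, hfix _ (hconj g h₀ hh₀).1, (hconj g h₀ hh₀).2, mulVec_smul]
    have h2 := congrArg (fun y => d * α y) h1
    simp only [hα, hv₁', hv₂'] at h2
    have ha : α (R g *ᵥ v₂) = 0 := by
      have h3 : α v₁ = d := rfl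
      have h4 : α (e • v₂) = 0 := by simp [α]; ring
      have h5 : α (e • (R g *ᵥ v₂)) = e * α (R g *ᵥ v₂) := by simp [α]; ring
      rw [h3, h4, h5] at h2
      have h6 : d * ((e - 1) * α (R g *ᵥ v₂)) = 0 := by linear_combination -h2
      exact (mul_eq_zero.mp ((mul_eq_zero.mp h6).resolve_left hd0)).resolve_left
        (sub_ne_zero.mpr hd₀)
    rw [hx, ha, zero_smul, zero_add]

end Algebra

variable {O : Type} [CommRing O] [IsDomain O] [IsDiscreteValuationRing O]
  [IsAdicComplete (maximalIdeal O) O] {p : ℕ} [Fact p.Prime]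

/-- The determinant is the cyclotomic character. -/
theorem det_eq_padicHom {ρ : GaloisRepAdic O} (h : ρ.DetIsCyclotomic p) (σ : GQ) :
    LinearMap.det (ρ.ρ σ) = padicHom p h.1 (epsilonPadic p σ : ℤ_[p]) := by
  refine sub_eq_zero.mp (IsHausdorff.haus (I := maximalIdeal O) inferInstance _ fun n => ?_)
  rw [SModEq.zero, smul_eq_mul, Ideal.mul_top]
  set a := epsilonNat p n σ with ha
  have : NeZero (p ^ n) := ⟨pow_ne_zero n (Fact.out : p.Prime).ne_zero⟩
  have hx : PadicInt.toZModPow n (epsilonPadic p σ : ℤ_[p]) = PadicInt.toZModPow n (a : ℤ_[p]) := by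
    rw [map_natCast, ha, epsilonNat, ZMod.natCast_zmod_val]
  obtain ⟨c, hc⟩ := sub_mem_span_pow (padicHom p h.1) hx
  have h1 := h.2 n σ a fun μ hμ => epsilon_spec σ hμ
  rw [hc, map_natCast, sub_add_eq_sub_sub]
  refine sub_mem (Ideal.span_le.mpr ?_ h1) (Ideal.mul_mem_right _ _ (Ideal.pow_mem_pow h.1 n))
  rw [Set.singleton_subset_iff, Nat.cast_pow]
  exact Ideal.pow_mem_pow h.1 n

/-- **Not Eisenstein.** -/
theorem exists_prime_eigen_ne [CharZero O] {ρ : GaloisRepAdic O} {S : Finset ℕ} {a : ℕ → O}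
    (hatt : Engine.IsAttachedSystem O p ρ S a)
    (hirr : ∀ v : ρ.V, v ≠ 0 → ∃ σ, ∀ c d : O, c • ρ.ρ σ v = d • v → c = 0)
    (hpS : p ∈ S) (m : ℕ) (hm : 0 < m) :
    ∃ ℓ : ℕ, ℓ.Prime ∧ ℓ ∉ S ∧ (ℓ : ZMod m) = 1 ∧ a ℓ ≠ (ℓ : O) + 1 := by
  classical
  by_contra hcon
  push Not at hcon
  obtain ⟨hdetc, hfrob⟩ := hatt
  have : NeZero m := ⟨hm.ne'⟩
  obtain ⟨c, hc⟩ := Deform.exists_isCycloMod m
  have : NeZero (m : Qbar) := ⟨Nat.cast_ne_zero.mpr hm.ne'⟩
  obtain ⟨ζ, hζ⟩ := HasEnoughRootsOfUnity.exists_primitiveRoot Qbar m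
  set b := repBasis ρ
  set R := matrixRep ρ b
  have hRdet : ∀ σ, (R σ).det = LinearMap.det (ρ.ρ σ) := fun σ => LinearMap.det_toMatrix b _
  have hRtr : ∀ σ, (R σ).trace = ρ.trace σ := fun σ =>
    (LinearMap.trace_eq_matrix_trace O b _).symm
  have : FiniteDimensional ℚ ↥(IntermediateField.adjoin ℚ ({ζ} : Set Qbar)) :=
    IntermediateField.adjoin.finiteDimensional (hζ.isIntegral hm).tower_top
  -- Frobenius elements fixing `ζ` agree with any element fixing `ζ`
  have hsplit : ∀ (L : IntermediateField ℚ Qbar) [FiniteDimensional ℚ L] (g : GQ), c g = 1 →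
      ∃ (ℓ : ℕ) (σ : GQ), ℓ.Prime ∧ ℓ ∉ S ∧ c σ = 1 ∧ (ρ.trace σ = (ℓ : O) + 1) ∧
        LinearMap.det (ρ.ρ σ) = (ℓ : O) ∧ ∀ x ∈ L, σ x = g x := by
    intro L _ g hg
    have : FiniteDimensional ℚ ↥(L ⊔ IntermediateField.adjoin ℚ ({ζ} : Set Qbar)) :=
      IntermediateField.finiteDimensional_sup _ _
    obtain ⟨ℓ, hℓ, hℓS, A, hA, σ, hσ, hσL⟩ := Chebotarev.exists_isFrobeniusAt_eqOn
      (L ⊔ IntermediateField.adjoin ℚ ({ζ} : Set Qbar)) g (S ∪ m.primeFactors)
    rw [Finset.mem_union, not_or] at hℓS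
    have hσζ : σ ζ = ζ := by
      rw [hσL ζ (le_sup_right (α := IntermediateField ℚ Qbar)
        (IntermediateField.mem_adjoin_simple_self ℚ ζ))]
      exact ((hc.eq_one_iff hζ g).mp hg)
    have hℓm : (ℓ : ZMod m) = 1 := by
      let z : A := ⟨ζ, Frobenius.mem_of_isIntegral A (hζ.isIntegral hm)⟩
      have hz : z ^ m = 1 := Subtype.ext hζ.pow_eq_one
      have hd := hσ.mem_decompositionSubgroup
      have h1 := hσ.smul_residue_eq (IsLocalRing.residue A z)
      rw [← IsLocalRing.ResidueField.residue_smul,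
        show (⟨σ, hd⟩ : A.decompositionSubgroup ℚ) • z = z from Subtype.ext hσζ, ← map_pow] at h1
      have hchar := Frobenius.residueField_charP hℓ hA
      have hz0 : IsLocalRing.residue A z ≠ 0 := fun h0 => by
        have := congrArg (IsLocalRing.residue A) hz
        rw [map_pow, h0, zero_pow hm.ne', map_one] at this
        exact zero_ne_one this
      have h2 : IsLocalRing.residue A (z ^ (ℓ - 1)) = 1 := by
        refine mul_left_cancel₀ hz0 ?_
        rw [mul_one, ← map_mul, ← pow_succ', Nat.sub_add_cancel hℓ.one_le]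
        exact h1.symm
      have h3 : z ^ (ℓ - 1) = 1 := eq_one_of_residue_eq_one (m := m) (fun h0 => hℓS.2 (by
        rw [CharP.cast_eq_zero_iff (IsLocalRing.ResidueField A) ℓ] at h0
        exact Nat.mem_primeFactors.mpr ⟨hℓ, h0, hm.ne'⟩))
        (by rw [← pow_mul, mul_comm, pow_mul, hz, one_pow]) h2
      have h4 : m ∣ ℓ - 1 := hζ.dvd_of_pow_eq_one _ (congrArg Subtype.val h3)
      exact ((ZMod.natCast_eq_natCast_iff' 1 ℓ m).mpr
        ((Nat.modEq_iff_dvd' hℓ.one_le).mpr h4)).symm.trans Nat.cast_one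
    refine ⟨ℓ, σ, hℓ, hℓS.1, (hc.eq_one_iff hζ σ).mpr hσζ, ?_, ?_,
      fun x hx => hσL x (le_sup_left (α := IntermediateField ℚ Qbar) hx)⟩
    · rw [hfrob ℓ hℓ hℓS.1 A hA σ hσ, hcon ℓ hℓ hℓS.1 hℓm]
    · rw [det_eq_padicHom hdetc, epsilon_frobenius hℓ (fun e => hℓS.1 (by rw [e]; exact hpS)) hA hσ,
        map_natCast]
  have htr : ∀ g, c g = 1 → (R g).trace = 1 + (R g).det := fun g hg => by
    refine sub_eq_zero.mp (IsHausdorff.haus (I := maximalIdeal O) inferInstance _ fun n => ?_)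
    rw [SModEq.zero, smul_eq_mul, Ideal.mul_top, ← Ideal.Quotient.eq_zero_iff_mem]
    obtain ⟨L, hL, hfix⟩ := isCont_matrixRep ρ b n
    have := hL
    obtain ⟨ℓ, σ, -, -, -, h1, h2, hag⟩ := hsplit L g hg
    set q := Ideal.Quotient.mk (maximalIdeal O ^ n)
    have hm' : (R σ).map q = (R g).map q := by
      have h3 := hfix (g⁻¹ * σ) fun x hx => by
        rw [AlgEquiv.mul_apply, hag x hx]; exact g.symm_apply_apply x
      have h4 : (R (g⁻¹ * σ)).map q = 1 := by
        ext i j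
        have h5 := Ideal.Quotient.eq_zero_iff_mem.mpr (h3 i j)
        rw [Matrix.sub_apply, map_sub, sub_eq_zero] at h5
        rw [Matrix.map_apply, h5]
        rcases eq_or_ne i j with rfl | hij
        · simp
        · simp [hij]
      rw [show σ = g * (g⁻¹ * σ) from (mul_inv_cancel_left g σ).symm, map_mul, Matrix.map_mul, h4,
        mul_one]
    have hT : q (R σ).trace = q (R g).trace := by
      exact (AddMonoidHom.map_trace q.toAddMonoidHom _).trans ((congrArg Matrix.trace hm').trans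
        (AddMonoidHom.map_trace q.toAddMonoidHom _).symm)
    have hD : q (R σ).det = q (R g).det := by
      rw [RingHom.map_det, RingHom.map_det]; exact congrArg Matrix.det hm'
    rw [map_sub, map_add, ← hT, ← hD, hRtr, hRdet, h1, h2, map_one, map_add, map_one]
    ring
  obtain ⟨ℓ₀, σ₀, hℓ₀, -, hσ₀, -, hd₀, -⟩ := hsplit ⊥ 1 (map_one c)
  obtain ⟨v, hv0, hv⟩ := exists_common_eigenvector R c htr hσ₀ (by
    rw [hRdet, hd₀]; exact_mod_cast hℓ₀.ne_one)
  set x : ρ.V := b.equivFun.symm v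
  obtain ⟨σ, hσ⟩ := hirr x (fun e => hv0 (by
    rw [← b.equivFun.apply_symm_apply v]; exact (congrArg b.equivFun e).trans (map_zero _)))
  obtain ⟨y, z, hy, hyz⟩ := hv σ
  refine hy (hσ y z (b.equivFun.injective ?_))
  rw [map_smul, map_smul, show b.equivFun x = v from b.equivFun.apply_symm_apply v]
  refine (congrArg (y • ·) ?_).trans hyz
  show b.equivFun (ρ.ρ σ x) = LinearMap.toMatrix b b (ρ.ρ σ) *ᵥ v
  rw [← b.equivFun.apply_symm_apply v]
  exact (LinearMap.toMatrix_mulVec_repr b b (ρ.ρ σ) x).symm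

end Fermat.Agent.SquareOld

end
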