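import Fermat.Agent.SquareOld.Statement
import Fermat.Agent.SquareOld.NonEisenstein
import Fermat.Agent.EigenSystems.Points
import Fermat.Agent.EigenSystems.Parabolic
import Fermat.Agent.Engine.Lifting.NormMat
import Fermat.Agent.SemistableRed.AllFacts
import Fermat.Agent.TwoAdic.TSideTransfer

/-!
# A fixed vector at `w` makes a system of level `M w²` old

From `FixedKilledByNorms`: unless the system occurs at level `M w`, both norms vanish on its part
of the Tate module; on that part inertia at `w` acts by unipotents, so has a fixed vector, which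
would give torsion fixed by inertia and killed by both norms, of unbounded order.
-/

set_option autoImplicit false

noncomputable section

open IsLocalRing Matrix ModularCurve AlgebraicCurve

namespace Fermat.Agent.SquareOld

open EigenRep SemistableRed DefRing HeckeModule

local notation "Qbar" => AlgebraicClosure ℚ

/-- An eigen class which is not Eisenstein gives an eigenvector of the Hecke matrices. -/
theorem exists_mulVec_of_occurs {N : ℕ} [NeZero N] {K : Type} [Field K] [CharZero K]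
    {S : Finset ℕ} {lam : ℕ → K} (h : Engine.Occurs K N 1 S lam)
    (hne : EigenSystems.NonEisensteinSystem N S lam) :
    ∃ v : Fin (HeckeJ0.rk N) → K, v ≠ 0 ∧ ∀ ℓ : Nat.Primes, (ℓ : ℕ) ∉ S → ¬ (ℓ : ℕ) ∣ N →
      ((HeckeJ0.heckeMatAt N ℓ).map (Int.cast : ℤ → K)) *ᵥ v = lam ℓ • v := by
  obtain ⟨c, hc0, hc⟩ := h
  obtain ⟨z, rfl⟩ := toCoh_surjective _ c
  have hρ : ∀ u, scalarRep (1 : (ZMod N)ˣ →* K) K u = 1 := EigenSystems.scalarRep_one
  set ψ := EigenSystems.homOf hρ z with hψ
  have hgood : HeckeJ0.IsGoodHom N ψ := HeckeJ0.isGoodHom_of_parabolic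
    (EigenSystems.isParabolicHom_homOf hρ fun u v huv => EigenSystems.apply_parElt_eq_zero
      (fun t ht a ha => (smul_eq_zero.mp ha).resolve_left ht) (fun ℓ _ hS hN => hc ℓ hS hN) hne huv)
  refine ⟨HeckeJ0.coords N ψ, fun h0 => hc0 ?_, fun ℓ hS hN => ?_⟩
  · have h1 := XHLite.ofCoords_coords_field hgood
    rw [h0] at h1
    have h2 : ψ = 0 := by
      rw [← h1]; refine AddMonoidHom.ext fun g => ?_
      rw [HeckeJ0.ofCoords_apply]; simp
    rw [show z = 0 from Subtype.ext (funext fun γ =>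
      DFunLike.congr_fun h2 (Additive.ofMul γ)), map_zero]
  · have : Fact (ℓ : ℕ).Prime := ⟨ℓ.2⟩
    have : NeZero (ℓ : ℕ) := ⟨ℓ.2.ne_zero⟩
    have hraw := EigenSystems.raw_eq_of_eigen hρ (hc ℓ hS hN)
    have h1 : HeckeJ0.cohHecke (ℓ : ℕ) ψ = lam ℓ • ψ := by
      refine AddMonoidHom.ext fun γ => ?_
      obtain ⟨γ, rfl⟩ := Additive.ofMul.surjective γ
      show _ = lam ℓ • z.1 γ
      rw [← show (heckeData (scalarRep (1 : (ZMod N)ˣ →* K) K) (ℓ : ℕ)).raw z.1 γ = lam ℓ • z.1 γ
        from congrFun hraw γ, EigenSystems.raw_apply_trivial hρ, HeckeJ0.cohHecke_apply]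
      refine Finset.sum_congr rfl fun x _ => congrArg z.1 ?_
      exact ((heckeData (scalarRep (1 : (ZMod N)ˣ →* K) K) (ℓ : ℕ)).spec_unique toGL_injective
        (x := x) (y := HeckeJ0.permOf γ x) (γ := γ) (g := HeckeJ0.gOf x γ)
        (HeckeJ0.rep_mul x γ)).2.symm
    have h2 := congrArg (HeckeJ0.coords N) h1
    conv_lhs at h2 => rw [← XHLite.ofCoords_coords_field hgood, HeckeJ0.coords_cohHecke_ofCoords]
    exact h2

/-- Anticommuting square-zero displacements have a common fixed vector. -/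
theorem exists_fixed_of_inv {R V : Type*} [CommRing R] [AddCommGroup V] [Module R V] {G : Type*}
    [Group G] (π : G →* Module.End R V) (E : Set V) (hE : ∀ g, ∀ x ∈ E, π g x ∈ E)
    (hsub : ∀ g, ∀ x ∈ E, π g x - x ∈ E) (h2 : ∀ x : V, (2 : ℕ) • x = 0 → x = 0)
    (hrel : ∀ g, ∀ x ∈ E, π g x + π g⁻¹ x = (2 : ℕ) • x) {v : V} (hv : v ∈ E) (hv0 : v ≠ 0) :
    ∃ x ∈ E, x ≠ 0 ∧ ∀ g, π g x = x := by
  set D : G → V → V := fun g x => π g x - x
  have hmul : ∀ g h x, π (g * h) x = π g (π h x) := fun g h x => by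
    rw [map_mul, Module.End.mul_apply]
  have hanti : ∀ g h, ∀ x ∈ E, D g (D h x) + D h (D g x) = 0 := fun g h x hx => by
    have e1 := hrel (g * h) x hx
    have e2 := hrel g x hx
    have e3 := hrel h x hx
    have e7 := congrArg (π h) e2
    have e6 := hrel h _ (hE g⁻¹ x hx)
    rw [_root_.mul_inv_rev, hmul, hmul] at e1
    simp only [D, map_sub, map_add, two_nsmul] at *
    linear_combination (norm := module) e1 - e6 + e7 - e2 - e2
  have hthree : ∀ g h f, ∀ x ∈ E, D g (D h (D f x)) = 0 := fun g h f x hx => by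
    have hD : ∀ a, ∀ y ∈ E, D a y ∈ E := hsub
    have a1 := hanti (g * h) f x hx
    have hexp : ∀ y, D (g * h) y = D g y + D h y + D g (D h y) := fun y => by
      simp only [D, hmul, map_sub]; abel
    rw [hexp, hexp] at a1
    have b1 := hanti g f x hx
    have b2 := hanti h f x hx
    have b3 := hanti h f _ (hD g x hx)
    have b4 := hanti g f _ (hD h x hx)
    have b5 := congrArg (D g) b2
    simp only [D, map_add, map_sub, map_zero] at *
    refine h2 _ ?_
    rw [two_nsmul]
    linear_combination (norm := module) a1 - b1 - b2 - b4 + b5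
  by_cases h1 : ∀ g, D g v = 0
  · exact ⟨v, hv, hv0, fun g => sub_eq_zero.mp (h1 g)⟩
  push Not at h1
  obtain ⟨g, hg⟩ := h1
  by_cases h1 : ∀ h, D h (D g v) = 0
  · exact ⟨_, hsub g v hv, hg, fun h => sub_eq_zero.mp (h1 h)⟩
  push Not at h1
  obtain ⟨h, hh⟩ := h1
  exact ⟨_, hsub h _ (hsub g v hv), hh, fun f => sub_eq_zero.mp (hthree f h g v hv)⟩

/-- A linear system without non-zero solution over `ℤ_p` has none in an extension. -/
theorem exists_matrix_of_rows {p : ℕ} [Fact p.Prime] {d : ℕ} (rows : Set (Fin d → ℤ_[p]))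
    (h : ∀ x : Fin d → ℤ_[p], (∀ r ∈ rows, r ⬝ᵥ x = 0) → x = 0) {K : Type*} [Field K] [CharZero K]
    (ι : ℤ_[p] →+* K) {v : Fin d → K} (hv : ∀ r ∈ rows, (ι ∘ r) ⬝ᵥ v = 0) : v = 0 := by
  classical
  obtain ⟨g, hg⟩ := IsNoetherian.noetherian (Submodule.span ℤ_[p] rows)
  have hgv : ∀ r ∈ g, (ι ∘ r) ⬝ᵥ v = 0 := fun r hr => by
    have hr' : r ∈ Submodule.span ℤ_[p] rows := hg.le (Submodule.subset_span hr)
    clear hr
    induction hr' using Submodule.span_induction with
    | mem r hr => exact hv r hr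
    | zero => simp [dotProduct]
    | add r s _ _ h1 h2 =>
      rw [show ι ∘ (r + s) = ι ∘ r + ι ∘ s from funext fun i => map_add ι _ _, add_dotProduct,
        h1, h2, add_zero]
    | smul c r _ h1 =>
      rw [show ι ∘ (c • r) = ι c • (ι ∘ r) from funext fun i => map_mul ι _ _, smul_dotProduct,
        h1, smul_zero]
  let A : Matrix g (Fin d) ℤ_[p] := Matrix.of fun r j => (r : Fin d → ℤ_[p]) j
  obtain ⟨s, X, hs, hX⟩ := Engine.Lifting.exists_smul_eq_mul A
    (1 : Matrix (Fin d) (Fin d) ℤ_[p]) fun x hx => by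
    rw [one_mulVec]
    refine h x fun r hr => ?_
    have hr' : r ∈ Submodule.span ℤ_[p] (g : Set (Fin d → ℤ_[p])) :=
      hg.ge (Submodule.subset_span hr)
    clear hr
    induction hr' using Submodule.span_induction with
    | mem r hr => exact congrFun hx ⟨r, hr⟩
    | zero => simp [dotProduct]
    | add r s _ _ h1 h2 => rw [add_dotProduct, h1, h2, add_zero]
    | smul c r _ h1 => rw [smul_dotProduct, h1, smul_zero]
  have h0 := congrArg (fun Y => Y.map ι *ᵥ v) hX
  have hA : A.map ι *ᵥ v = 0 := funext fun r => hgv r.1 r.2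
  simp only [Matrix.map_mul, ← mulVec_mulVec, hA, mulVec_zero,
    Matrix.map_smul' ι _ _ (map_mul ι), Matrix.map_one _ (map_zero ι) (map_one ι),
    Matrix.smul_mulVec, one_mulVec] at h0
  exact (smul_eq_zero.mp h0).resolve_left fun e =>
    hs (Engine.Lifting.padicInt_hom_injective ι (e.trans (map_zero ι).symm))

/-- Fixed `p`-adic vectors killed by both norms vanish. -/
theorem eq_zero_of_fixed {M w : ℕ} [NeZero M] [NeZero w] {p : ℕ} [Fact p.Prime]
    (hgeo : FixedKilledByNorms M w) (hwp : p.Coprime w) (R : RepInputs (M * w * w) p)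
    (R' : RepInputs (M * w) p) {A : ValuationSubring Qbar} (hA : A.LiesOverPrime w)
    (x : Fin R.model.d → ℤ_[p])
    (hfix : ∀ σ ∈ A.inertiaSubgroupIn ℚ, galMat R.model σ *ᵥ x = x)
    (hnorm : ∀ b, Engine.Lifting.mapPadic R.model R'.model (normMaps (M * w) w b) *ᵥ x = 0) :
    x = 0 := by
  obtain ⟨B, hB0, hB⟩ := hgeo
  have hBx : ∀ (n : ℕ) i, PadicInt.toZModPow n ((B : ℤ_[p]) * x i) = 0 := fun n i => by
    obtain ⟨y, hy⟩ := (R.model.e n).surjective (PadicInt.toZModPow n ∘ x)
    have hσ : ∀ σ ∈ A.inertiaSubgroupIn ℚ, σ • (y : JZero (M * w * w)) = y := fun σ hσ => by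
      have h1 : levelMat R.model n σ *ᵥ R.model.e n y = R.model.e n y := by
        rw [hy, ← matMod_galMat R.model n σ]
        funext j
        show ((galMat R.model σ).map (PadicInt.toZModPow n) *ᵥ (PadicInt.toZModPow n ∘ x)) j = _
        rw [← RingHom.map_mulVec, hfix σ hσ]; rfl
      rw [levelMat_mulVec] at h1
      have h2 := congrArg Subtype.val ((R.model.e n).injective h1)
      rwa [JZero.coe_torsionGaloisRep_apply] at h2
    have hker : ∀ b, normMaps (M * w) w b (y : JZero (M * w * w)) = 0 := fun b => by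
      have h1 : mapMat R.model R'.model (normMaps (M * w) w b) n *ᵥ
          (PadicInt.toZModPow n ∘ x) = 0 := by
        funext j
        rw [← Engine.Lifting.mapPadic_mod, ← RingHom.map_mulVec, hnorm b]
        exact map_zero _
      rw [← hy, mapMat_mulVec] at h1
      exact congrArg Subtype.val ((R'.model.e n).injective (h1.trans (map_zero _).symm))
    obtain ⟨D, hD⟩ := Pic0.mk_surjective (y : JZero (M * w * w))
    have hn : p ^ n • Pic0.mk D = 0 := by
      rw [hD, ← natCast_zsmul]; exact Pic0.mem_torsion.mp y.2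
    have h := hB A hA (p ^ n) (hwp.pow_left n) (isIntegral_alpha (M * w) w)
      (isIntegral_beta (M * w) w) D hn (by rw [hD]; exact hσ)
      (pushTrivial_of_normMap (M * w) w _ (by rw [hD]; exact hker false))
      (pushTrivial_of_normMap (M * w) w _ (by rw [hD]; exact hker true))
    rw [hD] at h
    have h3 : B • y = 0 := Subtype.ext h
    have h4 := congrFun (congrArg (R.model.e n) h3) i
    rw [map_nsmul, map_zero, Pi.smul_apply, hy, Function.comp_apply, Pi.zero_apply,
      nsmul_eq_mul] at h4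
    rw [map_mul, map_natCast, h4]
  funext i
  have h := PadicInt.ext_of_toZModPow.mp fun n => (hBx n i).trans (map_zero _).symm
  exact (mul_eq_zero.mp h).resolve_left (Nat.cast_ne_zero.mpr hB0.ne')

/-- An integral eigenvector gives an eigen system. -/
theorem occurs_of_integral {O K : Type} [CommRing O] [Field K] [CharZero K] [Algebra O K]
    [FaithfulSMul O K] {N : ℕ} [NeZero N] {S : Finset ℕ} {a : ℕ → O}
    (x : Fin (HeckeJ0.rk N) → O) (hx : x ≠ 0)
    (h : ∀ ℓ : Nat.Primes, (ℓ : ℕ) ∉ S →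
      (HeckeJ0.heckeMatAt N ℓ).map (Int.cast : ℤ → O) *ᵥ x = a ℓ • x) :
    Engine.Occurs K N 1 S fun ℓ => algebraMap O K (a ℓ) := by
  refine EigenSystems.occurs_of_mulVec (v := algebraMap O K ∘ x)
    (fun h0 => hx (funext fun i => FaithfulSMul.algebraMap_injective O K
      ((congrFun h0 i).trans (map_zero _).symm))) fun ℓ hℓ _ => ?_
  have e : (algebraMap O K) ∘ ((HeckeJ0.heckeMatAt N ℓ).map (Int.cast : ℤ → O) *ᵥ x) =
      algebraMap O K ∘ (a ℓ • x) := by rw [h ℓ hℓ]
  funext i
  have e1 := congrFun e i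
  rw [Function.comp_apply, RingHom.map_mulVec, Function.comp_apply, Pi.smul_apply, smul_eq_mul,
    map_mul, show ((HeckeJ0.heckeMatAt N ℓ).map (Int.cast : ℤ → O)).map (algebraMap O K) =
      (HeckeJ0.heckeMatAt N ℓ).map (Int.cast : ℤ → K) by ext; simp] at e1
  exact e1

/-- **A fixed vector at `w` lowers level `M w²` to level `M w`.** -/
theorem squareLevelIsOld_of_fixedKilled {O : Type} [CommRing O] [IsDomain O]
    [IsDiscreteValuationRing O] [IsAdicComplete (maximalIdeal O) O] [CharZero O] {p M w : ℕ}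
    [NeZero M] [NeZero w] (hgeo : FixedKilledByNorms M w) : SquareLevelIsOld O p M w := by
  intro hp hw hwp _ _ S a ρ hwS hpS hMS hocc hatt hirr hfix
  classical
  have := Fact.mk hp
  have := Fact.mk hw
  set K := FractionRing O
  have : CharZero K := charZero_of_injective_algebraMap (IsFractionRing.injective O K)
  by_contra hnot
  have hp' : (p : O) ∈ maximalIdeal O := hatt.1.1
  have hS : ∀ ℓ : ℕ, ℓ.Prime → ℓ ∉ S → ¬ ℓ ∣ M * w * w ∧ ¬ ℓ ∣ M * w ∧
      ¬ ℓ ∣ M * w * w * p ∧ ¬ ℓ ∣ M * w * p := fun ℓ hℓ hS => by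
    have h1 : ¬ ℓ ∣ M := fun h => hS (hMS ℓ hℓ h)
    have h2 : ¬ ℓ ∣ w := fun h => hS ((Nat.prime_dvd_prime_iff_eq hℓ hw).mp h ▸ hwS)
    have h3 : ¬ ℓ ∣ p := fun h => hS ((Nat.prime_dvd_prime_iff_eq hℓ hp).mp h ▸ hpS)
    simp only [hℓ.dvd_mul]
    tauto
  let I := Engine.TRep.stdInputs (allRelations (M * w * w) p)
  let I' := Engine.TRep.stdInputs (allRelations (M * w) p)
  set ι := padicHom p hp'
  let ιK : ℤ_[p] →+* K := (algebraMap O K).comp ι
  let a' : Nat.Primes → O := fun l => a l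
  have hinj := IsFractionRing.injective O K
  -- an integral eigenvector
  obtain ⟨ℓ₁, hℓ₁, hℓ₁S, hℓ₁N, hℓ₁a⟩ :=
    exists_prime_eigen_ne hatt hirr hpS (M * w * w) (Nat.pos_of_ne_zero (NeZero.ne _))
  obtain ⟨vK, hvK0, hvK⟩ := exists_mulVec_of_occurs hocc ⟨ℓ₁, hℓ₁, hℓ₁S, hℓ₁N, fun e => hℓ₁a
    (hinj (by rw [map_add, map_natCast, map_one]; exact e))⟩
  obtain ⟨b, hb⟩ := IsLocalization.exist_integer_multiples_of_finite (nonZeroDivisors O) vK
  choose v hv using hb
  have hcv : algebraMap O K ∘ v = algebraMap O K b • vK := funext fun i => by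
    rw [Function.comp_apply, hv, Algebra.smul_def]; rfl
  have hv0 : v ≠ 0 := fun h => hvK0 (funext fun i => by
    have h1 := congrFun hcv i
    rw [h, Function.comp_apply, Pi.zero_apply, map_zero, Pi.smul_apply, smul_eq_mul, eq_comm,
      mul_eq_zero] at h1
    exact h1.resolve_left (IsFractionRing.to_map_ne_zero_of_mem_nonZeroDivisors b.2))
  have hmapT : ∀ {d : ℕ} (T : Matrix (Fin d) (Fin d) ℤ),
      (T.map (Int.cast : ℤ → O)).map (algebraMap O K) = T.map (Int.cast : ℤ → K) := fun T => by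
    ext; simp
  have hvE : v ∈ eigenSub I.model (↑S : Set ℕ) a' := (mem_eigenSub _).mpr fun l hl => by
    show (HeckeJ0.heckeMatAt (M * w * w) l).map (Int.cast : ℤ → O) *ᵥ v = a l • v
    refine funext fun i => hinj ?_
    rw [RingHom.map_mulVec, hmapT, Pi.smul_apply, smul_eq_mul, map_mul,
      show algebraMap O K (v i) = (algebraMap O K ∘ v) i from rfl, hcv, mulVec_smul,
      Pi.smul_apply, Pi.smul_apply, smul_eq_mul, smul_eq_mul, mul_left_comm]
    congr 1
    exact congrFun (hvK l hl (hS l l.2 hl).1) i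
  -- both norms vanish on it
  have hNE : ∀ u ∈ eigenSub I.model (↑S : Set ℕ) a', ∀ c,
      (Engine.Lifting.mapPadic I.model I'.model (normMaps (M * w) w c)).map ι *ᵥ u = 0 := by
    intro u hu c
    by_contra hne
    set P := Engine.Lifting.mapPadic I.model I'.model (normMaps (M * w) w c)
    set x := P.map ι *ᵥ u with hx
    refine hnot (occurs_of_integral (a := a) x hne fun l hl => ?_)
    have hc := Engine.Lifting.mapPadic_mul_heckeMat I I' (normMaps_equivariant (M * w) w c) l.2
      (hS l l.2 hl).2.2.1 (hS l l.2 hl).2.2.2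
    have e := congrArg (fun X : Matrix _ _ ℤ_[p] => X.map ι *ᵥ u) hc
    simp only [Matrix.map_mul, ← mulVec_mulVec] at e
    have hT : ∀ {N₀ : ℕ} [NeZero N₀] (R₀ : TorsionHeckeModel N₀ p) (l₀ : Nat.Primes),
        (heckeMat R₀ l₀).map ι = (R₀.T l₀).map (Int.cast : ℤ → O) := fun R₀ l₀ => by
      ext i j; simp [heckeMat]
    erw [hT I.model, hT I'.model] at e
    rw [show (I.model.T ⟨(l : ℕ), l.2⟩).map (Int.cast : ℤ → O) *ᵥ u = a' l • u from
      (mem_eigenSub _).mp hu l hl, mulVec_smul, ← hx] at e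
    exact e.symm
  -- inertia at `w`
  obtain ⟨A, hA⟩ := Frobenius.exists_liesOverPrime Qbar hw
  have hε : ∀ σ ∈ A.inertiaSubgroupIn ℚ, (epsilonPadic p σ : ℤ_[p]) = 1 := fun σ hσ => by
    rw [epsilon_inertia hw hwp hA hσ, Units.val_one]
  have htr : ∀ σ ∈ A.inertiaSubgroupIn ℚ, ρ.trace σ = 2 := fun σ hσ => by
    obtain ⟨x, hx0, hx⟩ := hfix A hA
    set bs := repBasis ρ
    set R := LinearMap.toMatrix bs bs (ρ.ρ σ)
    have hd : R.det = 1 := by
      rw [LinearMap.det_toMatrix, det_eq_padicHom hatt.1, hε σ hσ, map_one]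
    have h0 : (R - 1).det = 0 := by
      refine Matrix.exists_mulVec_eq_zero_iff.mp ⟨bs.repr x, ?_, ?_⟩
      · exact fun e => hx0 (bs.repr.injective (by ext i; simpa using congrFun e i))
      · rw [sub_mulVec, one_mulVec, LinearMap.toMatrix_mulVec_repr, hx σ hσ, sub_self]
    have ht : ρ.trace σ = R.trace := LinearMap.trace_eq_matrix_trace O bs _
    rw [Matrix.det_fin_two] at hd h0
    simp only [Matrix.sub_apply, Matrix.one_apply_eq, ne_eq, zero_ne_one, one_ne_zero,
      not_false_eq_true, Matrix.one_apply_ne, sub_zero] at h0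
    rw [ht, Matrix.trace_fin_two]
    linear_combination hd - h0
  let G := A.inertiaSubgroupIn ℚ
  obtain ⟨x, hxE, hx0, hxfix⟩ := exists_fixed_of_inv ((galEnd I.model ι).comp G.subtype)
    (eigenSub I.model (↑S : Set ℕ) a' : Set _)
    (fun g u hu => galEnd_mem_eigenSub I.model ι I.equivariant g hu)
    (fun g u hu => Submodule.sub_mem _ (galEnd_mem_eigenSub I.model ι I.equivariant g hu) hu)
    (fun u hu => funext fun i => by
      have := congrFun hu i
      rw [Pi.smul_apply, Pi.zero_apply, nsmul_eq_mul, mul_eq_zero] at this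
      exact this.resolve_left (by norm_num))
    (fun g u hu => by
      have h := TwoAdic.quadratic_of_trace I hp' S a' ρ
        (fun ℓ hℓ hℓS P hP τ hτ => hatt.2 ℓ hℓ hℓS P hP τ hτ) g hu
      rw [hε g g.2, htr g g.2, map_one, one_smul] at h
      rw [two_smul] at h
      rw [two_nsmul]
      exact h)
    hvE hv0
  -- a non-zero solution of the fixed point equations over `K`
  refine hx0 (funext fun i => hinj ?_)
  have hzero := exists_matrix_of_rows (d := I.model.d)
    ({r | ∃ σ ∈ G, ∃ j, r = fun l => (galMat I.model σ - 1) j l} ∪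
      {r | ∃ c j, r = fun l =>
        Engine.Lifting.mapPadic I.model I'.model (normMaps (M * w) w c) j l})
    (fun z hz => eq_zero_of_fixed hgeo ((Nat.coprime_primes hp hw).mpr hwp.symm) I I' hA z
      (fun σ hσ => sub_eq_zero.mp (funext fun j => by
        have h' : ((galMat I.model σ - 1) *ᵥ z) j = 0 := hz _ (Or.inl ⟨σ, hσ, j, rfl⟩)
        rw [sub_mulVec, one_mulVec] at h'
        exact h'))
      (fun c => funext fun j => hz _ (Or.inr ⟨c, j, rfl⟩)))
    ιK (v := algebraMap O K ∘ x) (by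
      rintro r (⟨σ, hσ, j, rfl⟩ | ⟨c, j, rfl⟩)
      · have h := congrFun (hxfix ⟨σ, hσ⟩) j
        have h' : (((galMat I.model σ - 1).map ι) *ᵥ x) j = 0 := by
          rw [Matrix.map_sub _ (map_sub ι), Matrix.map_one _ (map_zero ι) (map_one ι), sub_mulVec,
            one_mulVec, Pi.sub_apply]
          exact sub_eq_zero.mpr h
        have := congrArg (algebraMap O K) h'
        rw [RingHom.map_mulVec, map_zero, Matrix.map_map] at this
        exact this
      · have := congrArg (algebraMap O K) (congrFun (hNE x hxE c) j)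
        rw [RingHom.map_mulVec, Pi.zero_apply, map_zero, Matrix.map_map] at this
        exact this)
  exact (congrFun hzero i).trans (map_zero _).symm

end Fermat.Agent.SquareOld

end
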