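import Fermat.Agent.SquareOld.Interface
import Fermat.Agent.SquareOld.Geom.Norms
import Fermat.Agent.TwoAdic.Geometry.NormIdentities
import Fermat.Agent.RowS36.Levels
import Mathlib.FieldTheory.IntermediateField.Adjoin.Basic
import Mathlib.NumberTheory.LSeries.PrimesInAP

/-!
# Pulling the bound back from a larger level

The two squares of levels `M w ∣ M r w` and `M w² ∣ M r w²` are linearly disjoint, so a class killed
by both norms stays so after pullback; the pullback followed by the push forward is the degree.  With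
a prime `r ≡ 11 (mod 12)` the larger level has no elliptic points.
-/

set_option autoImplicit false
set_option linter.unusedSectionVars false

noncomputable section

open AlgebraicCurve ModularCurve

namespace Fermat.Agent.SquareOld

open TwoAdic.Geometry (inclBar coe_inclBar inclBar_galois pullPic pullPic_mk pullPic_smul pullDiv
  ord_pullDiv pushPic'_pullPic pushPic')

local notation "Qbar" => AlgebraicClosure ℚ

section Generic

variable {K E F E' F' : Type*} [Field K] [Field E] [Field F] [Field E'] [Field F'] [Algebra K E]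
  [Algebra K F] [Algebra K E'] [Algebra K F']

/-- In a square of prime degree which is not contained in its base, norms commute. -/
theorem norm_of_square (φ : E →ₐ[K] F) (φ' : E' →ₐ[K] F') (i : E →ₐ[K] E') (j : F →ₐ[K] F')
    (hc : ∀ x, φ' (i x) = j (φ x)) {n : ℕ} (hn : n.Prime) (hd : finrankAlong K φ = n)
    (hd' : finrankAlong K φ' = n) {f₀ : F} (hf₀ : ∀ y, φ' y ≠ j f₀) (f : F) :
    (letI := algebraAlong φ'; Algebra.norm E' (j f)) =
      i (letI := algebraAlong φ; Algebra.norm E f) := by
  classical
  let := algebraAlong φ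
  let := algebraAlong φ'
  have : Module.Finite E F := Module.finite_of_finrank_pos (lt_of_lt_of_eq hn.pos (show n = Module.finrank E F from hd.symm))
  have : Module.Finite E' F' := Module.finite_of_finrank_pos (lt_of_lt_of_eq hn.pos (show n = Module.finrank E' F' from hd'.symm))
  let b := Module.finBasisOfFinrankEq E F hd
  have hexp : ∀ x : F, j x = ∑ a, i (b.repr x a) • j (b a) := fun x => by
    conv_lhs => rw [← b.sum_repr x]
    rw [map_sum]
    refine Finset.sum_congr rfl fun a _ => ?_
    rw [Algebra.smul_def, Algebra.smul_def, map_mul]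
    exact congrArg (· * _) (hc _).symm
  set W : Submodule E' F' := Submodule.span E' (Set.range fun a => j (b a)) with hW
  have hjW : ∀ x : F, j x ∈ W := fun x => by
    rw [hexp x]
    exact sum_mem fun a _ => W.smul_mem _ (Submodule.subset_span ⟨a, rfl⟩)
  have hmul : ∀ x y : F', x ∈ W → y ∈ W → x * y ∈ W := by
    intro x y hx hy
    induction hx using Submodule.span_induction with
    | zero => rw [zero_mul]; exact zero_mem _
    | add x x' _ _ h h' => rw [add_mul]; exact add_mem h h'
    | smul c x _ h => rw [smul_mul_assoc]; exact W.smul_mem c h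
    | mem x hx =>
      obtain ⟨a, rfl⟩ := hx
      induction hy using Submodule.span_induction with
      | zero => rw [mul_zero]; exact zero_mem _
      | add y y' _ _ h h' => rw [mul_add]; exact add_mem h h'
      | smul c y _ h => rw [mul_smul_comm]; exact W.smul_mem c h
      | mem y hy =>
        obtain ⟨a', rfl⟩ := hy
        show j (b a) * j (b a') ∈ W
        rw [← map_mul]
        exact hjW _
  let SA : Subalgebra E' F' :=
    { carrier := W
      mul_mem' := fun {x y} hx hy => hmul x y hx hy
      one_mem' := by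
        have := hjW 1
        rwa [map_one] at this
      add_mem' := fun hx hy => W.add_mem hx hy
      zero_mem' := W.zero_mem
      algebraMap_mem' := fun c => by
        have := W.smul_mem c (hjW 1)
        rwa [map_one, Algebra.smul_def, mul_one] at this }
  have htop : SA = ⊤ := by
    refine ((Subalgebra.isSimpleOrder_of_finrank_prime E' F'
      ((show n = Module.finrank E' F' from hd'.symm) ▸ hn)).eq_bot_or_eq_top SA).resolve_left
      fun hb => ?_
    have hmem : j f₀ ∈ SA := hjW f₀
    rw [hb, Algebra.mem_bot] at hmem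
    obtain ⟨y, hy⟩ := hmem
    exact hf₀ y hy
  have hspan : ⊤ ≤ Submodule.span E' (Set.range fun a => j (b a)) := fun x _ =>
    show x ∈ SA from htop ▸ Algebra.mem_top
  let b' : Module.Basis (Fin n) E' F' := basisOfTopLeSpanOfCardEqFinrank (fun a => j (b a)) hspan
    ((Fintype.card_fin n).trans hd'.symm)
  have hb' : ∀ a, b' a = j (b a) := fun a => by simp [b']
  rw [Algebra.norm_eq_matrix_det b', Algebra.norm_eq_matrix_det b, AlgHom.map_det]
  refine congrArg Matrix.det (Matrix.ext fun a a' => ?_)
  rw [AlgHom.mapMatrix_apply, Matrix.map_apply, Algebra.leftMulMatrix_eq_repr_mul,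
    Algebra.leftMulMatrix_eq_repr_mul, hb', ← map_mul, hexp (f * b a')]
  simp only [← hb']
  rw [map_sum, Finsupp.finsetSum_apply, Finset.sum_eq_single a]
  · simp
  · intro c _ hc'
    simp [Finsupp.single_eq_of_ne hc'.symm, map_smul]
  · exact fun h => absurd (Finset.mem_univ a) h

variable [IsAlgClosed K] [FunctionFieldRR.IsFunctionField K E]
  [FunctionFieldRR.IsFunctionField K E'] [FunctionFieldRR.IsFunctionField K F]
  [FunctionFieldRR.IsFunctionField K F']

/-- A trivial push forward of a class of finite order stays trivial after pullback. -/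
theorem pushTrivial_pullDiv (φ : E →ₐ[K] F) (φ' : E' →ₐ[K] F') (i : E →ₐ[K] E') (j : F →ₐ[K] F')
    (hφ : φ.toRingHom.IsIntegral) (hφ' : φ'.toRingHom.IsIntegral)
    (hnorm : ∀ f, (letI := algebraAlong φ'; Algebra.norm E' (j f)) =
      i (letI := algebraAlong φ; Algebra.norm E f))
    {D : Divisor.degZero (K := K) (F := F)} {n : ℕ} (hn : n ≠ 0) (hD : n • Pic0.mk D = 0)
    (hpush : SemistableRed.PushTrivial φ hφ (D : Divisor K F)) :
    SemistableRed.PushTrivial φ' hφ' (pullDiv j D : Divisor K F') := by
  obtain ⟨g, hg, hgv⟩ := hpush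
  change Pic0.mk (n • D) = 0 at hD
  obtain ⟨f, hf, hfv⟩ := (QuotientAddGroup.eq_zero_iff _).mp hD
  have hfv' : ∀ v : Place K F, (n : ℤ) * (D : Divisor K F) v = v.ord f := fun v => by
    rw [← hfv v]; simp
  have h2 : ∀ v : Place K E, v.ord (let := algebraAlong φ; Algebra.norm E f) = (n : ℤ) * v.ord g :=
    fun v => by
    rw [← Congruence.pushforwardAlong_eq_ord φ hφ (FunctionFieldRR.finiteAlong φ)
      (FunctionFieldRR.normFormulaAlong φ _) hf (E := (n : ℤ) • (D : Divisor K F))
      (fun w => by rw [Finsupp.smul_apply, smul_eq_mul]; exact hfv' w) v, map_zsmul,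
      Finsupp.smul_apply, smul_eq_mul, hgv]
  refine ⟨i g, (map_ne_zero i).mpr hg, fun v' => mul_left_cancel₀
    (Int.natCast_ne_zero.mpr hn) ?_⟩
  have h3 := Congruence.pushforwardAlong_eq_ord φ' hφ' (FunctionFieldRR.finiteAlong φ')
    (FunctionFieldRR.normFormulaAlong φ' _) ((map_ne_zero j).mpr hf)
    (E := (n : ℤ) • (pullDiv j D : Divisor K F'))
    (fun w => by rw [Finsupp.smul_apply, smul_eq_mul]; exact ord_pullDiv j D hfv' w) v'
  rw [map_zsmul, Finsupp.smul_apply, smul_eq_mul, hnorm] at h3
  rw [h3, Place.ord_restrictAlong i (HeckeJ0.isIntegral_of_isFunctionField i),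
    Place.ord_restrictAlong i (HeckeJ0.isIntegral_of_isFunctionField i), h2]
  ring

end Generic

section Levels

open Geom

attribute [local instance] SemistableRed.isFunctionField_bar

variable {M r w : ℕ} [NeZero M] [NeZero r] [NeZero w]

theorem dvd_low : M * w ∣ M * r * w := ⟨r, by ring⟩

theorem dvd_top : M * w * w ∣ M * r * w * w := ⟨r, by ring⟩

theorem alpha_square (x : ↥(modularFunctionFieldBar (M * w))) :
    heckeAlphaBar Qbar (M * r * w) w (inclBar (dvd_low (r := r)) x) =
      inclBar (dvd_top (r := r)) (heckeAlphaBar Qbar (M * w) w x) := by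
  refine Subtype.ext ?_
  rw [coe_heckeAlphaBar, coe_inclBar, coe_inclBar, coe_heckeAlphaBar]

theorem beta_square (x : ↥(modularFunctionFieldBar (M * w))) :
    heckeBetaBar Qbar (M * r * w) w (inclBar (dvd_low (r := r)) x) =
      inclBar (dvd_top (r := r)) (heckeBetaBar Qbar (M * w) w x) := by
  refine Subtype.ext ?_
  rw [coe_heckeBetaBar, coe_inclBar, coe_inclBar, coe_heckeBetaBar]

theorem alpha_ne (hw : w.Prime) (hwM : ¬ w ∣ M * r) (y : ↥(modularFunctionFieldBar (M * r * w))) :
    heckeAlphaBar Qbar (M * r * w) w y ≠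
      inclBar (dvd_top (r := r)) (jAt (M * w * w) (1 * w * w) (dvd_top2 (one_dvd M))) := by
  intro e
  have e1 : heckeAlphaBar Qbar (M * r * w) w y =
      jAt (M * r * w * w) (1 * w * w) (dvd_top2 (one_dvd (M * r))) :=
    e.trans (Subtype.ext (by rw [coe_inclBar, coe_jAt', coe_jAt']))
  have ht : ¬ w ∣ 1 := hw.not_dvd_one
  have e2 := congrArg (mid hw hwM 1 ht) e1
  rw [mid_alpha, (mid_gen hw hwM ht 1 (one_dvd _)).2.2] at e2
  have e3 : (y : LaurentSeries Qbar) = jSer (1 * w * w) := by
    rw [← coe_heckeAlphaBar (L := Qbar) (N := M * r * w) (ℓ := w) (x := y), e1, coe_jAt']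
  rw [e3] at e2
  have e4 := congrArg (fun z : LaurentSeries Qbar => z.coeff (-((1 : ℕ) : ℤ))) e2
  rw [Congruence.twist_coeff, jSer_coeff_neg, mul_one, jSer_coeff_of_not_dvd _ (by
    rw [Nat.cast_one, one_mul]
    exact not_dvd_neg_one (by have := hw.two_le; nlinarith))] at e4
  exact Units.ne_zero _ e4.symm

theorem beta_ne (hw : w.Prime) (y : ↥(modularFunctionFieldBar (M * r * w))) :
    heckeBetaBar Qbar (M * r * w) w y ≠
      inclBar (dvd_top (r := r)) (jAt (M * w * w) 1 (dvd_top0 (one_dvd M))) := by
  intro e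
  have e1 := congrArg (fun z : ↥(modularFunctionFieldBar (M * r * w * w)) =>
    (z : LaurentSeries Qbar).coeff (-((1 : ℕ) : ℤ))) e
  rw [coe_heckeBetaBar, coe_inclBar, coe_jAt', jSer_coeff_neg, qExpand_coeff_of_not_dvd _ _ (by
    rw [Nat.cast_one]; exact not_dvd_neg_one hw.one_lt)] at e1
  exact zero_ne_one e1

/-- **The bound descends to a divisor of the level.** -/
theorem fixedKilledByNorms_of_mul (hw : w.Prime) (hwM : ¬ w ∣ M * r)
    (h : FixedKilledByNorms (M * r) w) : FixedKilledByNorms M w := by
  have hwM' : ¬ w ∣ M := fun h' => hwM (h'.mul_right r)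
  obtain ⟨C, hC, hb⟩ := h
  set ι₁ : ↥(modularFunctionFieldBar (M * w * w)) →ₐ[Qbar]
    ↥(modularFunctionFieldBar (M * r * w * w)) := inclBar (dvd_top (r := r))
  have hdeg : 0 < finrankAlong Qbar ι₁ := by
    let := algebraAlong ι₁
    have : Module.Finite _ _ := FunctionFieldRR.finiteAlong ι₁
    exact Module.finrank_pos
  refine ⟨finrankAlong Qbar ι₁ * C, Nat.mul_pos hdeg hC, fun A hA n hn hα hβ D hD hfix hpa hpb => ?_⟩
  have hn0 : n ≠ 0 := fun e => hw.ne_one (by simpa [e] using hn)
  have key := hb A hA n hn (SemistableRed.isIntegral_alpha (M * r * w) w)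
    (SemistableRed.isIntegral_beta (M * r * w) w) (pullDiv ι₁ D)
    (by rw [← pullPic_mk, ← map_nsmul, hD, map_zero])
    (fun σ hσ => by
      rw [← pullPic_mk]
      conv_rhs => rw [← hfix σ hσ]
      exact (pullPic_smul (fun x => (inclBar_galois _ σ x).symm) _).symm)
    (pushTrivial_pullDiv _ _ (inclBar (dvd_low (r := r))) ι₁ hα _
      (norm_of_square _ _ _ _ alpha_square hw (finrankAlong_alpha_eq hw)
        (finrankAlong_alpha_eq hw) (alpha_ne hw hwM)) hn0 hD hpa)
    (pushTrivial_pullDiv _ _ (inclBar (dvd_low (r := r))) ι₁ hβ _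
      (norm_of_square _ _ _ _ beta_square hw (finrankAlong_beta_eq hw hwM')
        (finrankAlong_beta_eq hw hwM) (beta_ne hw)) hn0 hD hpb)
  have := congrArg (pushPic' ι₁) key
  rw [map_nsmul, ← pullPic_mk, pushPic'_pullPic, map_zero] at this
  exact (mul_nsmul' _ _ _).trans ((nsmul_left_comm _ _ _).trans this)

/-- **The bound at all levels, from the levels without elliptic points.** -/
theorem fixedKilledByNorms_of_forall_noElliptic
    (hgeo : ∀ (N w : ℕ) [NeZero N] [NeZero w], w.Prime → ¬ w ∣ N → nuTwo N = 0 → nuThree N = 0 →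
      FixedKilledByNorms N w)
    (hw : w.Prime) (hwM : ¬ w ∣ M) : FixedKilledByNorms M w := by
  have : NeZero (12 : ℕ) := ⟨by norm_num⟩
  have h11 : IsUnit ((11 : ℕ) : ZMod 12) := (ZMod.isUnit_iff_coprime 11 12).mpr (by norm_num)
  obtain ⟨r, hr, hrp, hr12⟩ := Nat.forall_exists_prime_gt_and_eq_mod h11 w
  have := Fact.mk hrp
  have : NeZero r := ⟨hrp.ne_zero⟩
  have hmod := (ZMod.natCast_eq_natCast_iff' r 11 12).mp hr12
  have hwMr : ¬ w ∣ M * r := fun h => (hw.dvd_mul.mp h).elim hwM fun h' => by
    have := (Nat.prime_dvd_prime_iff_eq hw hrp).mp h'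
    omega
  exact fixedKilledByNorms_of_mul hw hwMr (hgeo (M * r) w hw hwMr
    (RowS36.nuTwo_eq_zero_of_prime_dvd (dvd_mul_left r M) (by omega))
    (RowS36.nuThree_eq_zero_of_prime_dvd (dvd_mul_left r M) (by omega)))

end Levels

end Fermat.Agent.SquareOld

end
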