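import Fermat.Agent.SquareOld.Geom.Final
import Fermat.Agent.SquareOld.Geom.PairThick
import Fermat.Agent.SquareOld.Geom.ThetaCusp
import Fermat.Agent.SquareOld.Geom.ThetaOrd
import Fermat.Agent.SquareOld.Bridge
import Fermat.Agent.SquareOld.Eigen
import Fermat.Agent.SquareOld.LevelUp

/-!
# The bound on fixed classes killed by both norms

First at levels without elliptic points, then at every level.
-/

set_option autoImplicit false

noncomputable section

open IsLocalRing ModularCurve AlgebraicCurve Fermat.Agent.SemistableRed
  Fermat.Agent.FunctionFieldRR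

namespace Fermat.Agent.SquareOld

set_option synthInstance.maxHeartbeats 400000 in
set_option maxHeartbeats 1000000 in
/-- The inputs of regularity hold without elliptic points. -/
theorem Geom.regularInputs {A : ValuationSubring (AlgebraicClosure ℚ)} {M w : ℕ} [NeZero M]
    [NeZero w] [Fact w.Prime] [CharP (ResidueField A) w] [IsAlgClosed (ResidueField A)]
    (S : Setting A M w)
    [IsFunctionField (AlgebraicClosure ℚ) ↥(modularFunctionFieldBar (M * w))]
    [IsFunctionField (ResidueField A) ↥(modularFunctionFieldFullC (ResidueField A) M)]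
    [CharP ↥(modularFunctionFieldFullC (ResidueField A) M) w]
    (hν : nuTwo M = 0 ∧ nuThree M = 0) : Geom.RegularInputs S where
  pair_params x hx := by
    obtain ⟨a, ha, b, hb, hab, h1, h2, -, h4⟩ := Geom.exists_pair_params S hν hx
    exact ⟨a, ha, b, hb, hab, h1, h2, h4⟩
  theta_unif P hC hP hdiv hpow g h hg hh := by
    have : HasPrincipalDivisors (ResidueField A) ↥(modularFunctionFieldFullC (ResidueField A) M) :=
      hasPrincipalDivisors
    exact Geom.ord_theta_unif S hν P hC hP hdiv hpow g h hg hh
  theta_cusp P hC h hh := Geom.ord_theta_cusp S P hC h hh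

/-- Without elliptic points, classes fixed by inertia and killed by both norms have bounded
exponent. -/
theorem fixedKilledByNorms_of_noElliptic (M w : ℕ) [NeZero M] [NeZero w] (hw : w.Prime)
    (hwM : ¬ w ∣ M) (h2 : nuTwo M = 0) (h3 : nuThree M = 0) : FixedKilledByNorms M w := by
  have := Fact.mk hw
  exact fixedKilledByNorms_of_data hw
    (Geom.hasLevelData_of_regular hwM fun A _ _ S => Geom.regularInputs S ⟨h2, h3⟩)

/-- Classes fixed by inertia and killed by both norms have bounded exponent at every level. -/
theorem fixedKilledByNorms (M w : ℕ) [NeZero M] [NeZero w] (hw : w.Prime) (hwM : ¬ w ∣ M) :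
    FixedKilledByNorms M w :=
  fixedKilledByNorms_of_forall_noElliptic (fun N v _ _ => fixedKilledByNorms_of_noElliptic N v) hw hwM

/-- An eigen system of level `M w²` with a vector fixed by inertia at `w` is old. -/
theorem squareLevelIsOld {O : Type} [CommRing O] [IsDomain O] [IsDiscreteValuationRing O]
    [IsAdicComplete (maximalIdeal O) O] [CharZero O] (p M w : ℕ) : SquareLevelIsOld O p M w := by
  intro hp hw hwp hwM hM
  have : NeZero M := ⟨hM.ne'⟩
  have : NeZero w := ⟨hw.ne_zero⟩
  exact squareLevelIsOld_of_fixedKilled (fixedKilledByNorms M w hw hwM) hp hw hwp hwM hM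

end Fermat.Agent.SquareOld

end
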