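import Fermat.Agent.Engine.TSide
import Fermat.Agent.SquareOld.Interface

/-!
# A representation with an inertia-fixed vector comes from level `M w`

`SquareLevelIsOld` is the consequence of `FixedKilledByNorms` (see `SquareOld/Interface`) for eigen
systems.

The geometric half (`SquareOld/Geom`).  `u` with `n D = div u` is rational over the fixed field of
inertia.  The three Gauss valuations over `j(w z)` have residue field `F̄_M`; the two norms force
their values, then their reductions, to be `n`-th powers up to a bounded factor.  Over
`W[(-w)^(1/(w-1))]` the local rings over smooth points of the component at `∞` of level `M w`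
are etale; over glued pairs the extension is Eisenstein; both are regular.  So `u` is locally an
`n`-th power, the norms make the choices of roots compatible, and a Nakayama argument on the two
charts `W[j(w z)]`, `W[1/j(w z)]` gives a global root.
-/

set_option autoImplicit false

noncomputable section

open AlgebraicCurve ModularCurve

namespace Fermat.Agent.SquareOld

local notation "Qbar" => AlgebraicClosure ℚ

variable (O : Type) [CommRing O] [IsDomain O] [IsDiscreteValuationRing O]
  [IsAdicComplete (IsLocalRing.maximalIdeal O) O]

/-- An eigen system of level `M w²` whose representation has a vector fixed by inertia at `w`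
occurs at level `M w`. -/
def SquareLevelIsOld (p M w : ℕ) : Prop :=
  p.Prime → w.Prime → w ≠ p → ¬ w ∣ M → 0 < M →
    ∀ (S : Finset ℕ) (a : ℕ → O) (ρ : GaloisRepAdic O), w ∈ S → p ∈ S →
      (∀ r : ℕ, r.Prime → r ∣ M → r ∈ S) →
      Engine.Occurs (FractionRing O) (M * w * w) 1 S
        (fun ℓ => algebraMap O (FractionRing O) (a ℓ)) →
      Engine.IsAttachedSystem O p ρ S a →
      (∀ v : ρ.V, v ≠ 0 → ∃ σ, ∀ c d : O, c • ρ.ρ σ v = d • v → c = 0) →
      (∀ A : ValuationSubring Qbar, A.LiesOverPrime w →
        ∃ v : ρ.V, v ≠ 0 ∧ ∀ σ ∈ A.inertiaSubgroupIn ℚ, ρ.ρ σ v = v) →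
      Engine.Occurs (FractionRing O) (M * w) 1 S
        (fun ℓ => algebraMap O (FractionRing O) (a ℓ))

end Fermat.Agent.SquareOld

end
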