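import Fermat.Agent.SquareOld.AllLevels
import Fermat.Agent.TwoAdic.Route.Inputs

/-!
# The square input of the 2-adic route
-/

set_option autoImplicit false

noncomputable section

namespace Fermat.Agent.SquareOld

/-- Square levels are old at residue characteristic two. -/
theorem squareInput : TwoAdic.TopDown.SquareInput := fun _ _ _ _ _ _ M w => squareLevelIsOld 2 M w

end Fermat.Agent.SquareOld

end
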