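import Fermat.Agent.SquareOld.Data

/-!
# Elementary properties of charts
-/

set_option autoImplicit false

noncomputable section

open Polynomial

namespace Fermat.Agent.SquareOld

variable {k : Type*} [Field k] {F : Type*} [Field F] {G : Type*} [Field G]

namespace Comp

variable (C : Comp F G)

theorem ord_one : C.ord 1 = 0 := by
  have := C.ord_mul 1 1 one_ne_zero one_ne_zero
  rw [one_mul] at this
  omega

theorem ord_inv {x : F} (hx : x ≠ 0) : C.ord x⁻¹ = -C.ord x := by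
  have := C.ord_mul x x⁻¹ hx (inv_ne_zero hx)
  rw [mul_inv_cancel₀ hx, C.ord_one] at this
  omega

theorem ord_div {x y : F} (hx : x ≠ 0) (hy : y ≠ 0) : C.ord (x / y) = C.ord x - C.ord y := by
  rw [div_eq_mul_inv, C.ord_mul x _ hx (inv_ne_zero hy), C.ord_inv hy]; ring

theorem ord_pow {x : F} (hx : x ≠ 0) (m : ℕ) : C.ord (x ^ m) = m * C.ord x := by
  induction m with
  | zero => simp [C.ord_one]
  | succ m ih => rw [pow_succ, C.ord_mul _ _ (pow_ne_zero _ hx) hx, ih]; push_cast; ring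

theorem ord_neg (x : F) : C.ord (-x) = C.ord x := by
  have h : C.ord (-1 : F) = 0 := by
    have := C.ord_mul (-1) (-1) (by simp) (by simp)
    rw [neg_mul_neg, one_mul, C.ord_one] at this
    omega
  rcases eq_or_ne x 0 with rfl | hx
  · rw [neg_zero]
  · rw [← neg_one_mul, C.ord_mul _ _ (by simp) hx, h, zero_add]

/-- `x` vanishes to order at least `m`. -/
def AtLeast (m : ℤ) (x : F) : Prop := x = 0 ∨ m ≤ C.ord x

theorem atLeast_zero_iff {x : F} : C.AtLeast 0 x ↔ x ∈ C.V := by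
  rcases eq_or_ne x 0 with rfl | hx
  · simp [AtLeast, zero_mem]
  · simp [AtLeast, hx, C.mem_iff x hx]

variable {C}

theorem AtLeast.mono {m m' : ℤ} {x : F} (h : C.AtLeast m x) (hm : m' ≤ m) : C.AtLeast m' x :=
  h.imp id fun h => hm.trans h

theorem AtLeast.mul {m m' : ℤ} {x y : F} (hx : C.AtLeast m x) (hy : C.AtLeast m' y) :
    C.AtLeast (m + m') (x * y) := by
  rcases eq_or_ne x 0 with rfl | hx0
  · exact Or.inl (zero_mul y)
  rcases eq_or_ne y 0 with rfl | hy0
  · exact Or.inl (mul_zero x)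
  exact Or.inr (by
    rw [C.ord_mul x y hx0 hy0]
    exact add_le_add (hx.resolve_left hx0) (hy.resolve_left hy0))

theorem AtLeast.mul_mem {m : ℤ} {x y : F} (hx : C.AtLeast m x) (hy : y ∈ C.V) :
    C.AtLeast m (x * y) := by
  simpa using hx.mul (C.atLeast_zero_iff.mpr hy)

theorem AtLeast.neg {m : ℤ} {x : F} (hx : C.AtLeast m x) : C.AtLeast m (-x) := by
  rcases hx with rfl | hx
  · exact Or.inl neg_zero
  · exact Or.inr (by rwa [C.ord_neg])

theorem AtLeast.add {m : ℤ} {x y : F} (hx : C.AtLeast m x) (hy : C.AtLeast m y) :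
    C.AtLeast m (x + y) := by
  rcases eq_or_ne x 0 with rfl | hx0
  · simpa using hy
  rcases eq_or_ne y 0 with rfl | hy0
  · simpa using hx
  rcases eq_or_ne (x + y) 0 with h | h
  · exact Or.inl h
  refine Or.inr ?_
  have hx' := hx.resolve_left hx0
  have hy' := hy.resolve_left hy0
  rcases C.V.mem_or_inv_mem (y / x) with hm | hm
  · have h1 : (x + y) / x ∈ C.V := by
      rw [add_div, div_self hx0]; exact add_mem (one_mem _) hm
    have := (C.mem_iff _ (div_ne_zero h hx0)).mp h1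
    rw [C.ord_div h hx0] at this
    omega
  · rw [inv_div] at hm
    have h1 : (x + y) / y ∈ C.V := by
      rw [add_div, div_self hy0]; exact add_mem hm (one_mem _)
    have := (C.mem_iff _ (div_ne_zero h hy0)).mp h1
    rw [C.ord_div h hy0] at this
    omega

theorem AtLeast.sub {m : ℤ} {x y : F} (hx : C.AtLeast m x) (hy : C.AtLeast m y) :
    C.AtLeast m (x - y) := by
  rw [sub_eq_add_neg]; exact hx.add hy.neg

theorem AtLeast.sum {m : ℤ} {J : Type*} (s : Finset J) {f : J → F}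
    (h : ∀ j ∈ s, C.AtLeast m (f j)) : C.AtLeast m (∑ j ∈ s, f j) := by
  classical
  induction s using Finset.induction with
  | empty => exact Or.inl Finset.sum_empty
  | insert j t hj ih =>
    rw [Finset.sum_insert hj]
    exact (h j (Finset.mem_insert_self _ _)).add (ih fun a ha => h a (Finset.mem_insert_of_mem ha))

theorem AtLeast.pow {x : F} (h : C.AtLeast 1 x) : ∀ m : ℕ, C.AtLeast (m : ℤ) (x ^ m)
  | 0 => Or.inr (by simp [C.ord_one])
  | m + 1 => by rw [pow_succ]; simpa using (h.pow m).mul h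

theorem AtLeast.prod {m : ℤ} {J : Type*} [Fintype J] {x : J → F} {i : J} (h : C.AtLeast m (x i))
    (hx : ∀ j, x j ∈ C.V) : C.AtLeast m (∏ j, x j) := by
  classical
  rw [← Finset.mul_prod_erase _ x (Finset.mem_univ i)]
  exact h.mul_mem (prod_mem fun j _ => hx j)

theorem redF_of_mem {x : F} (h : x ∈ C.V) : C.redF x = C.red ⟨x, h⟩ := by
  rw [redF]; exact dif_pos h

theorem redF_one : C.redF 1 = 1 := by
  rw [redF_of_mem (one_mem _), show (⟨1, one_mem _⟩ : C.V) = 1 from rfl, map_one]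

theorem redF_mul {x y : F} (hx : x ∈ C.V) (hy : y ∈ C.V) :
    C.redF (x * y) = C.redF x * C.redF y := by
  rw [redF_of_mem hx, redF_of_mem hy, redF_of_mem (mul_mem hx hy), ← map_mul]; rfl

theorem redF_add {x y : F} (hx : x ∈ C.V) (hy : y ∈ C.V) :
    C.redF (x + y) = C.redF x + C.redF y := by
  rw [redF_of_mem hx, redF_of_mem hy, redF_of_mem (add_mem hx hy), ← map_add]; rfl

theorem redF_sub {x y : F} (hx : x ∈ C.V) (hy : y ∈ C.V) :
    C.redF (x - y) = C.redF x - C.redF y := by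
  rw [redF_of_mem hx, redF_of_mem hy, redF_of_mem (sub_mem hx hy), ← map_sub]; rfl

theorem redF_pow {x : F} (hx : x ∈ C.V) (m : ℕ) : C.redF (x ^ m) = C.redF x ^ m := by
  rw [redF_of_mem hx, redF_of_mem (pow_mem hx m), ← map_pow]; rfl

theorem redF_eq_zero {x : F} (hx : x ∈ C.V) : C.redF x = 0 ↔ C.AtLeast 1 x := by
  rw [redF_of_mem hx, C.red_eq_zero]; rfl

theorem Unit.mem {x : F} (h : C.Unit x) : x ∈ C.V := (C.mem_iff x h.1).mpr h.2.ge

theorem Unit.redF_ne {x : F} (h : C.Unit x) : C.redF x ≠ 0 := fun e => by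
  rcases (redF_eq_zero h.mem).mp e with h0 | h0
  · exact h.1 h0
  · rw [h.2] at h0; omega

theorem unit_of_redF_ne {x : F} (hx : x ∈ C.V) (h : C.redF x ≠ 0) : C.Unit x := by
  have hx0 : x ≠ 0 := fun e => h ((redF_eq_zero hx).mpr (Or.inl e))
  refine ⟨hx0, ?_⟩
  have h0 := (C.mem_iff x hx0).mp hx
  by_contra hne
  exact h ((redF_eq_zero hx).mpr (Or.inr (by omega)))

theorem Unit.inv {x : F} (h : C.Unit x) : C.Unit x⁻¹ :=
  ⟨inv_ne_zero h.1, by rw [C.ord_inv h.1, h.2, neg_zero]⟩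

theorem Unit.mul {x y : F} (hx : C.Unit x) (hy : C.Unit y) : C.Unit (x * y) :=
  ⟨mul_ne_zero hx.1 hy.1, by rw [C.ord_mul x y hx.1 hy.1, hx.2, hy.2, add_zero]⟩

theorem Unit.div {x y : F} (hx : C.Unit x) (hy : C.Unit y) : C.Unit (x / y) := by
  rw [div_eq_mul_inv]; exact hx.mul hy.inv

theorem Unit.pow {x : F} (hx : C.Unit x) (m : ℕ) : C.Unit (x ^ m) :=
  ⟨pow_ne_zero _ hx.1, by rw [C.ord_pow hx.1, hx.2, mul_zero]⟩

theorem Unit.redF_inv {x : F} (h : C.Unit x) : C.redF x⁻¹ = (C.redF x)⁻¹ := by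
  refine eq_inv_of_mul_eq_one_left ?_
  rw [← redF_mul h.inv.mem h.mem, inv_mul_cancel₀ h.1, redF_one]

theorem Unit.redF_div {x y : F} (hx : C.Unit x) (hy : C.Unit y) :
    C.redF (x / y) = C.redF x / C.redF y := by
  rw [div_eq_mul_inv, redF_mul hx.mem hy.inv.mem, hy.redF_inv, div_eq_mul_inv]

theorem redF_natCast (m : ℕ) : C.redF (m : F) = (m : G) := by
  rw [redF_of_mem (natCast_mem C.V m), show (⟨(m : F), natCast_mem C.V m⟩ : C.V) = (m : C.V) from
    Subtype.ext (map_natCast C.V.subtype m).symm, map_natCast]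

end Comp

namespace Chart

variable [Algebra k G] (X : Chart k F G)

theorem mem_R {b : Bool} {x : F} :
    x ∈ X.R b ↔ ∀ V : ValuationSubring F, (∀ y ∈ X.W, y ∈ V) → X.par b ∈ V → x ∈ V := by
  simp only [R, Subring.mem_iInf]
  constructor
  · intro h V hW hT
    exact h ⟨V, Set.union_subset (fun y hy => hW y hy) (by simpa using hT)⟩
  · rintro h ⟨V, hV⟩
    exact h V (fun y hy => hV (Or.inl hy)) (hV (Or.inr rfl))

theorem W_le_R (b : Bool) {x : F} (hx : x ∈ X.W) : x ∈ X.R b :=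
  X.mem_R.mpr fun _ hW _ => hW x hx

theorem par_mem_R (b : Bool) : X.par b ∈ X.R b := X.mem_R.mpr fun _ _ h => h

theorem natCast_mem_R (b : Bool) (m : ℕ) : (m : F) ∈ X.R b := natCast_mem _ m

theorem w_mem_W : (X.w : F) ∈ X.W := natCast_mem _ _

/-- `X` as a primitive polynomial. -/
theorem T_unit (i : Fin 3) : (X.comp i).Unit X.T := by
  have h := X.gauss i Polynomial.X ⟨1, by simp⟩
  rwa [Polynomial.eval₂_X] at h

theorem T_ne : X.T ≠ 0 := (X.T_unit 0).1

theorem par_mem_comp (b : Bool) (i : Fin 3) : X.par b ∈ (X.comp i).V := by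
  cases b
  · exact X.T_mem i
  · exact (X.T_unit i).inv.mem

theorem R_le_comp (b : Bool) (i : Fin 3) {x : F} (hx : x ∈ X.R b) : x ∈ (X.comp i).V :=
  X.mem_R.mp hx _ (X.W_le i) (X.par_mem_comp b i)

theorem resW_eq_zero {x : X.W} (hx : (X.comp 0).redF x = 0) : X.resW x = 0 := by
  rw [X.red_W, map_eq_zero] at hx
  exact hx

theorem cast_w_eq_zero : (X.w : k) = 0 := by
  have h : X.resW ⟨(X.w : F), X.w_mem_W⟩ = 0 := X.resW_eq_zero
    ((Comp.redF_eq_zero (X.W_le 0 _ X.w_mem_W)).mpr (Or.inr (X.ord_w 0)))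
  rwa [show (⟨(X.w : F), X.w_mem_W⟩ : X.W) = (X.w : X.W) from
    Subtype.ext (map_natCast X.W.subtype X.w).symm, map_natCast] at h

theorem charP : CharP k X.w :=
  have := Fact.mk X.w_prime
  (CharP.charP_iff_prime_eq_zero X.w_prime).mpr X.cast_w_eq_zero

/-- The residue characteristic is prime to `n`. -/
theorem coprime {n : ℕ} (hn : (n : k) ≠ 0) : X.w.Coprime n :=
  (Nat.Prime.coprime_iff_not_dvd X.w_prime).mpr fun ⟨c, hc⟩ => hn (by
    rw [hc, Nat.cast_mul, X.cast_w_eq_zero, zero_mul])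

theorem natCast_unit (i : Fin 3) {n : ℕ} (hn : (n : k) ≠ 0) : (X.comp i).Unit (n : F) := by
  refine Comp.unit_of_redF_ne (natCast_mem _ n) ?_
  rw [Comp.redF_natCast, ← map_natCast (algebraMap k G), ne_eq, map_eq_zero]
  exact hn

include X in
theorem charZero : CharZero F := by
  obtain ⟨p, hp⟩ := CharP.exists F
  rcases CharP.char_is_prime_or_zero F p with h | h
  · exfalso
    have h1 : ((p : ℕ) : F) = 0 := CharP.cast_eq_zero F p
    have h2 : (p : k) = 0 := by
      by_contra hne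
      exact (X.natCast_unit 0 hne).1 h1
    have := X.charP
    have h3 := (CharP.cast_eq_zero_iff k X.w p).mp h2
    rw [← (Nat.prime_dvd_prime_iff_eq X.w_prime h).mp h3] at h1
    exact X.w_ne h1
  · subst h
    exact CharP.charP_to_charZero F

theorem w_ne_unit : ¬ IsUnit (⟨(X.w : F), X.w_mem_W⟩ : X.W) := fun h => by
  obtain ⟨u, hu⟩ := h
  have h1 : (X.comp 0).ord (X.w : F) + (X.comp 0).ord (((u⁻¹ : X.Wˣ) : X.W) : F) = 0 := by
    have e : (X.w : F) * (((u⁻¹ : X.Wˣ) : X.W) : F) = 1 := by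
      rw [← show ((u : X.W) : F) = X.w from congrArg Subtype.val hu]
      exact congrArg Subtype.val u.mul_inv
    rw [← (X.comp 0).ord_mul _ _ X.w_ne (right_ne_zero_of_mul_eq_one e), e, Comp.ord_one]
  have h2 : 0 ≤ (X.comp 0).ord (((u⁻¹ : X.Wˣ) : X.W) : F) :=
    ((X.comp 0).mem_iff _ (by
      intro e
      exact u⁻¹.ne_zero (Subtype.ext e))).mp (X.W_le 0 _ (SetLike.coe_mem _))
  have := X.ord_w 0
  omega

end Chart

end Fermat.Agent.SquareOld

end
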