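import Fermat.Agent.SquareOld.Globalize
import Fermat.Agent.LevelP.Inst.Affine

/-!
# Charts: the other chart, membership, branches, local rings

The two charts are exchanged by `T ↦ T⁻¹`; membership in either is tested at the three components
and on the generic fibre. Every closed point of the closed fibre lies on a branch.
-/

set_option autoImplicit false

noncomputable section

open Polynomial

namespace Fermat.Agent.SquareOld

variable {k : Type*} [Field k] {F : Type*} [Field F] {G : Type*} [Field G]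

namespace Comp

variable (C : Comp F G)

/-- The valuation ring refining `C` by a valuation ring of its residue field. -/
def composite (O : ValuationSubring G) : ValuationSubring F where
  carrier := {x | x ∈ C.V ∧ C.redF x ∈ O}
  zero_mem' := ⟨zero_mem _, by rw [(Comp.redF_eq_zero (zero_mem _)).mpr (Or.inl rfl)]; exact zero_mem O⟩
  one_mem' := ⟨one_mem _, by rw [Comp.redF_one]; exact one_mem O⟩
  add_mem' := fun {x y} hx hy =>
    ⟨add_mem hx.1 hy.1, by rw [Comp.redF_add hx.1 hy.1]; exact add_mem hx.2 hy.2⟩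
  mul_mem' := fun {x y} hx hy =>
    ⟨mul_mem hx.1 hy.1, by rw [Comp.redF_mul hx.1 hy.1]; exact mul_mem hx.2 hy.2⟩
  neg_mem' := fun {x} hx => by
    refine ⟨neg_mem hx.1, ?_⟩
    rw [← zero_sub x, Comp.redF_sub (zero_mem _) hx.1,
      (Comp.redF_eq_zero (zero_mem _)).mpr (Or.inl rfl), zero_sub]
    exact neg_mem hx.2
  mem_or_inv_mem' := fun x => by
    by_cases hx : x ∈ C.V
    · by_cases hO : C.redF x ∈ O
      · exact Or.inl ⟨hx, hO⟩
      · have hu : C.Unit x := Comp.unit_of_redF_ne hx fun e => hO (e ▸ zero_mem O)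
        exact Or.inr ⟨hu.inv.mem, by
          rw [hu.redF_inv]; exact (O.mem_or_inv_mem _).resolve_left hO⟩
    · refine Or.inr ⟨(C.V.mem_or_inv_mem x).resolve_left hx, ?_⟩
      have hx0 : x ≠ 0 := fun e => hx (e ▸ zero_mem _)
      rw [(Comp.redF_eq_zero ((C.V.mem_or_inv_mem x).resolve_left hx)).mpr (Or.inr ?_)]
      · exact zero_mem O
      · have h1 : ¬ 0 ≤ C.ord x := fun h => hx ((C.mem_iff x hx0).mpr h)
        rw [C.ord_inv hx0]; omega

end Comp

variable [Algebra k G]

namespace Chart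

variable (X : Chart k F G)

theorem eval_inv (P : X.W[X]) :
    eval₂ X.W.subtype X.T⁻¹ P = X.evT P.reverse * X.T⁻¹ ^ P.natDegree := by
  have : Invertible (X.T⁻¹) := invertibleOfNonzero (inv_ne_zero X.T_ne)
  rw [← eval₂_reverse_mul_pow X.W.subtype X.T⁻¹ P, invOf_eq_inv, inv_inv]
  rfl

theorem prim_reverse {P : X.W[X]} (h : X.Prim P) : X.Prim P.reverse := by
  obtain ⟨l, hl⟩ := h
  refine ⟨Polynomial.revAt P.natDegree l, ?_⟩
  rwa [coeff_reverse, revAt_invol]

theorem closure_inv_eq :
    Subfield.closure ((X.W : Set F) ∪ {X.T⁻¹}) = Subfield.closure ((X.W : Set F) ∪ {X.T}) := by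
  refine le_antisymm (Subfield.closure_le.mpr ?_) (Subfield.closure_le.mpr ?_)
  · rintro x (hx | rfl)
    · exact Subfield.subset_closure (Or.inl hx)
    · exact inv_mem (Subfield.subset_closure (Or.inr rfl))
  · rintro x (hx | rfl)
    · exact Subfield.subset_closure (Or.inl hx)
    · have : X.T⁻¹⁻¹ ∈ Subfield.closure ((X.W : Set F) ∪ {X.T⁻¹}) :=
        inv_mem (Subfield.subset_closure (Or.inr rfl))
      rwa [inv_inv] at this

theorem prim_X : X.Prim Polynomial.X := ⟨1, by simp⟩

/-- The chart at infinity. -/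
def flip : Chart k F G :=
  { X with
    T := X.T⁻¹
    T_transcendental := fun P hP => by
      rw [X.eval_inv, mul_eq_zero, or_iff_left (pow_ne_zero _ (inv_ne_zero X.T_ne))] at hP
      by_contra h
      exact h (reverse_eq_zero.mp (X.T_transcendental _ hP))
    finite := by rw [X.closure_inv_eq]; exact X.finite
    T_mem := fun i => (X.T_unit i).inv.mem
    gauss := fun i P h => by
      rw [X.eval_inv]
      exact (X.gauss i _ (X.prim_reverse h)).mul ((X.T_unit i).inv.pow _)
    ext_gauss := fun V hW hT hw hP => by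
      have hT' : X.T ∈ V := by
        have h := hP Polynomial.X X.prim_X
        rwa [eval₂_X, inv_inv] at h
      refine X.ext_gauss V hW hT' hw fun P h => ?_
      have h2 := hP P.reverse (X.prim_reverse h)
      have : Invertible X.T := invertibleOfNonzero X.T_ne
      have e := eval₂_reverse_mul_pow X.W.subtype X.T P
      rw [invOf_eq_inv] at e
      rw [← e, mul_inv]
      exact mul_mem h2 (by rw [← inv_pow]; exact pow_mem hT _) }

theorem flip_R {x : F} : x ∈ X.flip.R false ↔ x ∈ X.R true := by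
  rw [mem_R, mem_R]
  exact Iff.rfl

/-- Integral on the chart away from the closed fibre. -/
def Horiz (b : Bool) (x : F) : Prop :=
  ∀ V : ValuationSubring F, (∀ y ∈ X.W, y ∈ V) → X.par b ∈ V → (X.w : F)⁻¹ ∈ V → x ∈ V

theorem exists_w_pow_mul_mem {b : Bool} {x : F} (hx : X.Horiz b x) :
    ∃ N : ℕ, (X.w : F) ^ N * x ∈ X.R b := by
  let S : Subring F :=
    { carrier := {y | ∃ j : ℕ, (X.w : F) ^ j * y ∈ X.R b}
      zero_mem' := ⟨0, by simp [zero_mem]⟩
      one_mem' := ⟨0, by simp [one_mem]⟩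
      add_mem' := by
        rintro y z ⟨i, hi⟩ ⟨j, hj⟩
        refine ⟨i + j, ?_⟩
        rw [show (X.w : F) ^ (i + j) * (y + z) =
          (X.w : F) ^ j * ((X.w : F) ^ i * y) + (X.w : F) ^ i * ((X.w : F) ^ j * z) by ring]
        exact add_mem (mul_mem (pow_mem (natCast_mem _ _) _) hi)
          (mul_mem (pow_mem (natCast_mem _ _) _) hj)
      mul_mem' := by
        rintro y z ⟨i, hi⟩ ⟨j, hj⟩
        refine ⟨i + j, ?_⟩
        rw [show (X.w : F) ^ (i + j) * (y * z) =
          ((X.w : F) ^ i * y) * ((X.w : F) ^ j * z) by ring]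
        exact mul_mem hi hj
      neg_mem' := by
        rintro y ⟨i, hi⟩
        exact ⟨i, by rw [mul_neg]; exact neg_mem hi⟩ }
  have hS : Subring.closure ((X.W : Set F) ∪ {X.par b, (X.w : F)⁻¹}) ≤ S := by
    refine Subring.closure_le.mpr (Set.union_subset
      (fun y hy => ⟨0, by simpa using X.W_le_R b hy⟩) ?_)
    rintro y (rfl | rfl)
    · exact ⟨0, by simpa using X.par_mem_R b⟩
    · exact ⟨1, by rw [pow_one, mul_inv_cancel₀ X.w_ne]; exact one_mem _⟩
  obtain ⟨d, c, hc, hrel⟩ := exists_relation (isIntegral_closure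
    (s := (X.W : Set F) ∪ {X.par b, (X.w : F)⁻¹}) fun V hV =>
      hx V (fun y hy => hV (Or.inl hy)) (hV (Or.inr (Or.inl rfl))) (hV (Or.inr (Or.inr rfl))))
  exact exists_clear_root (fun j : ℕ => (X.w : F) ^ j) (· + ·) (fun a a' => pow_add _ a a') 0
    (X.R b) (fun a => pow_mem (natCast_mem _ _) a) (X.R_closed b) c
    (fun i hi => hS (hc i hi)) hrel

/-- Normality on either chart. -/
theorem mem_R_of_comps {b : Bool} {x : F} (hx : ∀ i, x ∈ (X.comp i).V) (N : ℕ)
    (hN : (X.w : F) ^ N * x ∈ X.R b) : x ∈ X.R b := by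
  cases b
  · exact X.mem_R_of_mul_mem hx N hN
  · rw [← flip_R] at hN ⊢
    exact X.flip.mem_R_of_mul_mem hx N hN

theorem mem_R_of_horiz {b : Bool} {x : F} (hx : ∀ i, x ∈ (X.comp i).V) (h : X.Horiz b x) :
    x ∈ X.R b := by
  obtain ⟨N, hN⟩ := X.exists_w_pow_mul_mem h
  exact X.mem_R_of_comps hx N hN

theorem red_par (b : Bool) (i : Fin 3) :
    (X.comp i).redF (X.par b) = if b then ((X.comp i).redF X.T)⁻¹ else (X.comp i).redF X.T := by
  cases b
  · rfl
  · exact (X.T_unit i).redF_inv

/-- Reductions of chart elements are regular where the reduced parameter is. -/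
theorem red_R_mem {b : Bool} {i : Fin 3} {O : ValuationSubring G}
    (hk : ∀ c, algebraMap k G c ∈ O) (hp : (X.comp i).redF (X.par b) ∈ O) {x : F}
    (hx : x ∈ X.R b) : (X.comp i).redF x ∈ O :=
  ((X.mem_R.mp hx ((X.comp i).composite O) (fun y hy => ⟨X.W_le i y hy, by
    rw [show y = ((⟨y, hy⟩ : X.W) : F) from rfl, X.red_W]; exact hk _⟩)
    ⟨X.par_mem_comp b i, hp⟩) : _ ∧ _).2

theorem isNoetherianRing_R_false : IsNoetherianRing (X.R false) := by
  obtain ⟨s, hs, hgen⟩ := X.exists_gens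
  have := X.W_isDVR
  have : IsNoetherianRing X.W := inferInstance
  let g : Option s → F := fun o => o.elim X.T fun y => (y : F)
  have e : X.R false = Subring.closure ((X.W : Set F) ∪ Set.range g) := by
    refine le_antisymm (fun x hx => ?_) (Subring.closure_le.mpr (Set.union_subset
      (fun y hy => X.W_le_R false hy) ?_))
    · obtain ⟨c, rfl⟩ := hgen x hx
      refine sum_mem fun y hy => mul_mem ?_ (Subring.subset_closure (Or.inr ⟨some ⟨y, hy⟩, rfl⟩))
      show eval₂ X.W.subtype X.T (c y) ∈ _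
      rw [eval₂_eq_sum_range]
      refine sum_mem fun l _ => mul_mem ?_ (pow_mem ?_ _)
      · exact Subring.subset_closure (Or.inl (SetLike.coe_mem ((c y).coeff l)))
      · exact Subring.subset_closure (Or.inr ⟨none, rfl⟩)
    · rintro y ⟨_ | ⟨z, hz⟩, rfl⟩
      · exact X.par_mem_R false
      · exact hs z hz
  rw [e]
  exact LevelP.isNoetherianRing_closure X.W g

theorem isNoetherianRing_R (b : Bool) : IsNoetherianRing (X.R b) := by
  cases b
  · exact X.isNoetherianRing_R_false
  · have e : X.flip.R false = X.R true := SetLike.ext fun x => X.flip_R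
    exact e ▸ X.flip.isNoetherianRing_R_false

variable {X} {b : Bool} {Q : Ideal (X.R b)}

theorem ClosedPoint.w_mem (hQ : X.ClosedPoint b Q) :
    (⟨(X.w : F), X.natCast_mem_R b X.w⟩ : X.R b) ∈ Q := by
  obtain ⟨x, hx, e⟩ := hQ.2
  rwa [show (⟨(X.w : F), X.natCast_mem_R b X.w⟩ : X.R b) = x from Subtype.ext e.symm]

/-- A closed point lies on a component. -/
theorem exists_through (hQ : X.ClosedPoint b Q) : ∃ i, X.Through Q i := by
  classical
  by_contra hcon
  simp only [Through, not_exists, not_forall] at hcon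
  choose x hx0 hxQ using hcon
  have := hQ.1
  have hy : (∏ i, x i) ∉ Q := fun h => by
    obtain ⟨i, -, hi⟩ := (Ideal.IsPrime.prod_mem_iff (p := Q)).mp h
    exact hxQ i hi
  set y : F := ∏ i, ((x i : X.R b) : F)
  have hyR : y ∈ X.R b := prod_mem fun i _ => (x i).2
  set K : ℕ := ∑ i : Fin 3, ((X.comp i).ord (X.w : F)).toNat
  have hdiv : y ^ K / (X.w : F) ∈ X.R b := by
    refine X.mem_R_of_comps (fun i => ?_) 1 (by
      rw [pow_one, mul_div_cancel₀ _ X.w_ne]; exact pow_mem hyR K)
    have h1 : (X.comp i).AtLeast 1 y := ((Comp.redF_eq_zero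
      (X.R_le_comp b i (x i).2)).mp (hx0 i)).prod (x := fun j => ((x j : X.R b) : F))
      fun j => X.R_le_comp b i (x j).2
    rcases h1.pow K with h2 | h2
    · rw [h2, zero_div]; exact zero_mem _
    rcases eq_or_ne (y ^ K) 0 with h0 | h0
    · rw [h0, zero_div]; exact zero_mem _
    refine ((X.comp i).mem_iff _ (div_ne_zero h0 X.w_ne)).mpr ?_
    rw [(X.comp i).ord_div h0 X.w_ne]
    have h3 : ((X.comp i).ord (X.w : F)).toNat ≤ K :=
      Finset.single_le_sum (f := fun i : Fin 3 => ((X.comp i).ord (X.w : F)).toNat)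
        (fun _ _ => Nat.zero_le _) (Finset.mem_univ i)
    have h4 : (((X.comp i).ord (X.w : F)).toNat : ℤ) ≤ (K : ℤ) := by exact_mod_cast h3
    rw [Int.toNat_of_nonneg (X.ord_w i).le] at h4
    omega
  refine hy (hQ.1.isPrime.mem_of_pow_mem K ?_)
  have e : (∏ i, x i) ^ K = ⟨(X.w : F), X.natCast_mem_R b X.w⟩ * ⟨_, hdiv⟩ := Subtype.ext (by
    push_cast
    rw [mul_div_cancel₀ _ X.w_ne])
  rw [e]
  exact Q.mul_mem_right _ hQ.w_mem

/-- A component through a closed point carries a branch there. -/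
theorem exists_branch (hQ : X.ClosedPoint b Q) {i : Fin 3} (hi : X.Through Q i) :
    ∃ O, X.Centred b Q i O := by
  let φ : X.R b →+* G :=
    { toFun := fun x => (X.comp i).redF (x : F)
      map_one' := Comp.redF_one
      map_mul' := fun x y => Comp.redF_mul (X.R_le_comp b i x.2) (X.R_le_comp b i y.2)
      map_zero' := (Comp.redF_eq_zero (zero_mem _)).mpr (Or.inl rfl)
      map_add' := fun x y => Comp.redF_add (X.R_le_comp b i x.2) (X.R_le_comp b i y.2) }
  have hkp : RingHom.ker φ.rangeRestrict ≤ Q := fun x hx =>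
    hi x (congrArg Subtype.val (RingHom.mem_ker.mp hx))
  have := hQ.1
  set I := Q.map φ.rangeRestrict
  have hI : ∀ x, φ.rangeRestrict x ∈ I ↔ x ∈ Q := fun x => by
    rw [← Ideal.mem_comap, Ideal.comap_map_of_surjective' _ φ.rangeRestrict_surjective,
      sup_eq_left.mpr hkp]
  have hImax : I.IsMaximal :=
    Ideal.IsMaximal.map_of_surjective_of_ker_le φ.rangeRestrict_surjective hkp
  obtain ⟨O, hO1, hO2⟩ := Ideal.image_subset_nonunits_valuationSubring I hImax.ne_top
  refine ⟨O, fun c => ?_, fun x => X.R_le_comp b i x.2, fun x => hO1 ⟨x, rfl⟩, fun x =>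
    ⟨fun hx => hO2 ⟨_, (hI x).mpr hx, rfl⟩, fun hx => by_contra fun hxQ => ?_⟩⟩
  · obtain ⟨y, hy⟩ := X.redF_resW (b := b) i c
    rw [← hy]; exact hO1 ⟨y, rfl⟩
  · obtain ⟨r, q, hq, e⟩ := hQ.1.exists_inv hxQ
    have h1 := congrArg φ e
    rw [map_add, map_mul, map_one] at h1
    have hq' : φ q ∈ O.nonunits := hO2 ⟨_, (hI q).mpr hq, rfl⟩
    rw [ValuationSubring.mem_nonunits_iff] at hx hq'
    have h2 : O.valuation (φ r * φ x + φ q) < 1 := by
      refine (Valuation.map_add _ _ _).trans_lt (max_lt ?_ hq')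
      rw [map_mul]
      exact lt_of_le_of_lt
        (mul_le_of_le_one_left' ((O.valuation_le_one_iff _).mpr (hO1 ⟨r, rfl⟩))) hx
    rw [h1, map_one] at h2
    exact lt_irrefl _ h2

theorem through_centred {i : Fin 3} {O : ValuationSubring G} (h : X.Centred b Q i O) :
    X.Through Q i := fun x hx => (h.2.2.2 x).mpr (hx ▸ O.nonunits.zero_mem)

/-- The components missing a closed point are killed away from it. -/
theorem exists_kill (hQ : X.ClosedPoint b Q) :
    ∃ d : X.R b, d ∉ Q ∧ ∀ j, ¬ X.Through Q j → (X.comp j).redF (d : F) = 0 := by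
  classical
  have := hQ.1
  have h : ∀ j, ∃ d : X.R b, d ∉ Q ∧ (¬ X.Through Q j → (X.comp j).redF (d : F) = 0) := fun j => by
    by_cases hj : X.Through Q j
    · exact ⟨1, hQ.1.isPrime.one_notMem, fun h => absurd hj h⟩
    · simp only [Through, not_forall] at hj
      obtain ⟨d, hd, hdQ⟩ := hj
      exact ⟨d, hdQ, fun _ => hd⟩
  choose d hdQ hd using h
  refine ⟨∏ j, d j, fun h => ?_, fun j hj => ?_⟩
  · obtain ⟨j, -, hj⟩ := (Ideal.IsPrime.prod_mem_iff (p := Q)).mp h
    exact hdQ j hj
  · refine (Comp.redF_eq_zero (X.R_le_comp b j (SetLike.coe_mem _))).mpr ?_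
    push_cast
    exact ((Comp.redF_eq_zero (X.R_le_comp b j (d j).2)).mp (hd j hj)).prod
      (x := fun l => ((d l : X.R b) : F)) fun l => X.R_le_comp b j (d l).2

variable [Q.IsPrime]

/-- Membership in a local ring: on the generic fibre and at the components through the point. -/
theorem mem_localAt_of (hQ : X.ClosedPoint b Q) {x : F} (N : ℕ)
    (hN : (X.w : F) ^ N * x ∈ localAt b Q) (hx : ∀ i, X.Through Q i → x ∈ (X.comp i).V) :
    x ∈ localAt b Q := by
  classical
  obtain ⟨c, d, hd, e⟩ := hN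
  obtain ⟨d', hd', hkill⟩ := exists_kill hQ
  rcases eq_or_ne x 0 with rfl | hx0
  · exact zero_mem _
  set K : ℕ := ∑ j : Fin 3, (-(X.comp j).ord x).toNat
  have hd0 : ((d' : X.R b) : F) ≠ 0 := fun h => hd' (by
    rw [show d' = 0 from Subtype.ext h]; exact zero_mem Q)
  have hm : x * ((d : F) * (d' : F) ^ K) ∈ X.R b := by
    refine X.mem_R_of_comps (fun j => ?_) N ?_
    · rw [show x * ((d : F) * (d' : F) ^ K) = (x * (d' : F) ^ K) * d by ring]
      refine mul_mem ?_ (X.R_le_comp b j d.2)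
      by_cases hj : X.Through Q j
      · exact mul_mem (hx j hj) (pow_mem (X.R_le_comp b j d'.2) _)
      · have h1 := ((Comp.redF_eq_zero (X.R_le_comp b j d'.2)).mp (hkill j hj)).resolve_left hd0
        refine ((X.comp j).mem_iff _ (mul_ne_zero hx0 (pow_ne_zero _ hd0))).mpr ?_
        rw [(X.comp j).ord_mul _ _ hx0 (pow_ne_zero _ hd0), (X.comp j).ord_pow hd0]
        have h2 : (-(X.comp j).ord x).toNat ≤ K :=
          Finset.single_le_sum (f := fun j => (-(X.comp j).ord x).toNat)
            (fun _ _ => Nat.zero_le _) (Finset.mem_univ j)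
        have h3 : ((-(X.comp j).ord x).toNat : ℤ) ≤ (K : ℤ) := by exact_mod_cast h2
        have h4 := Int.self_le_toNat (-(X.comp j).ord x)
        nlinarith
    · rw [show (X.w : F) ^ N * (x * ((d : F) * (d' : F) ^ K)) =
        (X.w : F) ^ N * x * d * (d' : F) ^ K by ring, e]
      exact mul_mem c.2 (pow_mem d'.2 _)
  refine ⟨⟨_, hm⟩, d * d' ^ K, fun h => ?_, by push_cast; rfl⟩
  rcases (Ideal.IsPrime.mem_or_mem ‹Q.IsPrime› h) with h | h
  · exact hd h
  · exact hd' ((‹Q.IsPrime›).mem_of_pow_mem K h)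

variable (Q) in
theorem isNoetherianRing_localAt : IsNoetherianRing (localAt b Q) := by
  have := X.isNoetherianRing_R b
  refine LevelP.isNoetherianRing_of_fractions (fun x hx => mem_localAt ⟨x, hx⟩) fun f hf => ?_
  obtain ⟨c, d, hd, e⟩ := hf
  have hd0 : (d : F) ≠ 0 := fun h => hd (by rw [show d = 0 from Subtype.ext h]; exact zero_mem Q)
  exact ⟨_, c.2, _, d.2, hd0, ⟨1, d, hd, by rw [inv_mul_cancel₀ hd0]; rfl⟩, e⟩

theorem red_localAt_mem {i : Fin 3} {O : ValuationSubring G} (h : X.Centred b Q i O) {x : F}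
    (hx : x ∈ localAt b Q) : x ∈ (X.comp i).V ∧ (X.comp i).redF x ∈ O := by
  refine ⟨localAt_le (through_centred h) hx, ?_⟩
  obtain ⟨c, d, hd, e⟩ := hx
  have hdu := unit_of_notMem (through_centred h) hd
  rw [show x = (c : F) * (d : F)⁻¹ by rw [← e, mul_assoc, mul_inv_cancel₀ hdu.1, mul_one],
    Comp.redF_mul (X.R_le_comp b i c.2) hdu.inv.mem, hdu.redF_inv]
  refine mul_mem (h.2.2.1 c) ?_
  by_contra hn
  exact hd ((h.2.2.2 d).mpr (by simpa using O.inv_mem_nonunits_iff.mpr (Or.inr hn)))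

theorem red_nonunit_iff {i : Fin 3} {O : ValuationSubring G} (h : X.Centred b Q i O)
    (x : localAt b Q) : ¬ IsUnit x ↔ (X.comp i).redF (x : F) ∈ O.nonunits := by
  obtain ⟨c, d, hd, e⟩ := x.2
  have hdu := unit_of_notMem (through_centred h) hd
  have hval : O.valuation ((X.comp i).redF (d : F)) = 1 :=
    (((O.valuation_le_one_iff _).mpr (h.2.2.1 d)).lt_or_eq).resolve_left fun hlt =>
      hd ((h.2.2.2 d).mpr hlt)
  have hc : O.valuation ((X.comp i).redF (x : F)) = O.valuation ((X.comp i).redF (c : F)) := by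
    rw [← e, Comp.redF_mul (localAt_le (through_centred h) x.2) (X.R_le_comp b i d.2), map_mul,
      hval, mul_one]
  rw [ValuationSubring.mem_nonunits_iff, hc, ← ValuationSubring.mem_nonunits_iff, ← h.2.2.2]
  exact ⟨fun hx => mem_Q_of_not_isUnit hd e hx, fun hx => not_isUnit_localAt hx hd e⟩

end Chart

end Fermat.Agent.SquareOld

end
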