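import Mathlib

/-!
# What the geometry of level `M w²` supplies

Everything takes place over the fixed field of inertia: `F` is the field of fixed functions of level
`M w²`, `E` the one of level `M w`, `W` the fixed constants in the place, `T = j(w τ)`.
-/

set_option autoImplicit false

noncomputable section

open Polynomial

namespace Fermat.Agent.SquareOld

variable (k : Type*) [Field k] (F : Type*) [Field F] (G : Type*) [Field G] [Algebra k G]

/-- A discrete valuation with residue field `G`: integral elements, order, reduction. -/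
structure Comp where
  V : ValuationSubring F
  ord : F → ℤ
  ord_mul : ∀ x y, x ≠ 0 → y ≠ 0 → ord (x * y) = ord x + ord y
  mem_iff : ∀ x, x ≠ 0 → (x ∈ V ↔ 0 ≤ ord x)
  exists_ord_one : ∃ x, x ≠ 0 ∧ ord x = 1
  red : V →+* G
  red_surjective : Function.Surjective red
  red_eq_zero : ∀ x : V, red x = 0 ↔ ((x : F) = 0 ∨ 0 < ord x)

variable {k F G}

namespace Comp

variable (C : Comp F G)

/-- The reduction, extended by zero. -/
def redF (x : F) : G := by
  classical
  exact if h : x ∈ C.V then C.red ⟨x, h⟩ else 0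

/-- `x` is a unit of the valuation ring. -/
def Unit (x : F) : Prop := x ≠ 0 ∧ C.ord x = 0

end Comp

variable (k F G)

/-- The field with its constants, its rational parameter and its three valuations. -/
structure Chart where
  W : Subring F
  /-- the residue characteristic, a uniformiser of `W` -/
  w : ℕ
  w_prime : w.Prime
  w_ne : (w : F) ≠ 0
  W_isDVR : IsDiscreteValuationRing W
  W_maximal : ∀ x : W, ¬ IsUnit x ↔ ∃ y : W, x = w * y
  T : F
  T_transcendental : ∀ P : Polynomial W, P.eval₂ W.subtype T = 0 → P = 0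
  finite : Module.Finite (Subfield.closure ((W : Set F) ∪ {T})) F
  resW : W →+* k
  resW_surjective : Function.Surjective resW
  root : ∀ (n : ℕ) (c : W), (n : k) ≠ 0 → IsUnit c → ∃ d : W, IsUnit d ∧ d ^ n = c
  /-- `0` is the component of `∞`, `1` the middle one, `2` the other end -/
  comp : Fin 3 → Comp F G
  W_le : ∀ i, ∀ x ∈ W, x ∈ (comp i).V
  red_W : ∀ i (x : W), (comp i).redF x = algebraMap k G (resW x)
  T_mem : ∀ i, T ∈ (comp i).V
  ord_w : ∀ i, 0 < (comp i).ord (w : F)
  /-- the three valuations restrict to the Gauss valuation of `W[T]` -/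
  gauss : ∀ i (P : Polynomial W), (∃ l, IsUnit (P.coeff l)) →
    (comp i).Unit (P.eval₂ W.subtype T)
  /-- and are all the extensions of it -/
  ext_gauss : ∀ V : ValuationSubring F, (∀ x ∈ W, x ∈ V) → T ∈ V → (w : F) ∈ V.nonunits →
    (∀ P : Polynomial W, (∃ l, IsUnit (P.coeff l)) → (P.eval₂ W.subtype T)⁻¹ ∈ V) →
    ∃ i, (comp i).V ≤ V
  /-- simultaneous lifts of reductions -/
  approx : ∀ z : Fin 3 → G, ∃ f : F, ∀ i, f ∈ (comp i).V ∧ (comp i).redF f = z i
  /-- independent orders -/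
  indep : ∀ d : Fin 3 → ℤ, ∃ f : F, f ≠ 0 ∧ ∀ i, (comp i).ord f = d i

variable {k F G}

namespace Chart

variable (X : Chart k F G)

/-- The parameter of each chart. -/
def par (b : Bool) : F := if b then X.T⁻¹ else X.T

/-- The integral closure of `W[par b]`. -/
def R (b : Bool) : Subring F :=
  (⨅ V : {V : ValuationSubring F // ((X.W : Set F) ∪ {X.par b}) ⊆ V.toSubring},
    V.1.toSubring)

/-- A unit of the localisation at `Q`. -/
def LocalUnit (b : Bool) (Q : Ideal (X.R b)) (x : F) : Prop :=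
  ∃ c d : X.R b, c ∉ Q ∧ d ∉ Q ∧ x * d = c

/-- The branch `(i, O)` passes through `Q`. -/
def Centred (b : Bool) (Q : Ideal (X.R b)) (i : Fin 3) (O : ValuationSubring G) : Prop :=
  (∀ c, algebraMap k G c ∈ O) ∧ (∀ x : X.R b, (x : F) ∈ (X.comp i).V) ∧
    (∀ x : X.R b, (X.comp i).redF x ∈ O) ∧
      ∀ x : X.R b, x ∈ Q ↔ (X.comp i).redF x ∈ O.nonunits

/-- `u` is an `n`-th power up to units away from the closed fibre. -/
def HorizPow (n : ℕ) (u : F) : Prop :=
  ∀ V : ValuationSubring F, (∀ x ∈ X.W, x ∈ V) → (X.w : F)⁻¹ ∈ V →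
    ∃ f : F, f ≠ 0 ∧ f ^ n * u⁻¹ ∈ V ∧ u * (f ^ n)⁻¹ ∈ V

/-- `Q` is a closed point of the closed fibre. -/
def ClosedPoint (b : Bool) (Q : Ideal (X.R b)) : Prop :=
  Q.IsMaximal ∧ ∃ x ∈ Q, (x : F) = (X.w : F)

/-- The branches through `Q` are `(0, O 0), (1, O 1), (2, O 2)`. -/
def IsPair (b : Bool) (Q : Ideal (X.R b)) (O : Fin 3 → ValuationSubring G) : Prop :=
  (∀ i, X.Centred b Q i (O i)) ∧ ∀ i O', X.Centred b Q i O' → O' = O i

/-- `x` takes the value `c` at the branch `(i, O)`. -/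
def HasValue (i : Fin 3) (O : ValuationSubring G) (x : F) (c : k) : Prop :=
  x ∈ (X.comp i).V ∧ (X.comp i).redF x - algebraMap k G c ∈ O.nonunits

end Chart

variable (k F G)

/-- The complete data: local rings, and the two norms to level `M w`. -/
structure Data (E : Type*) [Field E] extends Chart k F G where
  /-- the exponent lost at a smooth point -/
  B₀ : ℕ
  B₀_pos : 0 < B₀
  /-- locally on the model, a horizontal `n`-th power is an `n`-th power up to a unit -/
  loc : ∀ (b : Bool) (Q : Ideal (toChart.R b)), toChart.ClosedPoint b Q →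
    ∀ (n : ℕ), (n : k) ≠ 0 → ∀ u : F, u ≠ 0 → toChart.HorizPow n u →
      (∀ i, (n : ℤ) ∣ (toChart.comp i).ord u) →
      ∃ h : F, h ≠ 0 ∧ toChart.LocalUnit b Q (h ^ n * u ^ B₀)
  /-- a closed point has one branch, or is a pair -/
  points : ∀ (b : Bool) (Q : Ideal (toChart.R b)), toChart.ClosedPoint b Q →
    (∀ i i' O O', toChart.Centred b Q i O → toChart.Centred b Q i' O' → i = i' ∧ O = O') ∨
      ∃ O, toChart.IsPair b Q O
  /-- residues at the branches are constants -/
  res : ∀ (b : Bool) (Q : Ideal (toChart.R b)), toChart.ClosedPoint b Q →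
    ∀ i O, toChart.Centred b Q i O → ∀ x ∈ O, ∃ c : k, x - algebraMap k G c ∈ O.nonunits
  low : Fin 2 → Comp E G
  ιE : W →+* E
  low_const : ∀ j (x : W), ιE x ∈ (low j).V ∧ (low j).redF (ιE x) = algebraMap k G (toChart.resW x)
  low_w : ∀ j, (low j).ord (w : E) = 1
  /-- `Nm 0` is the norm along `α`, `Nm 1` the one along `β`; `φ` is the substitution `q ↦ q ^ w` -/
  Nm : Fin 2 → F →* E
  φ : G →ₐ[k] G
  Nm_w : ∀ t, Nm t (w : F) = (w : E) ^ w
  ord_norm : ∀ x, x ≠ 0 →
    (∀ t, Nm t x ≠ 0) ∧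
    (low 0).ord (Nm 0 x) = (toChart.comp 0).ord x + (toChart.comp 1).ord x ∧
    (low 1).ord (Nm 0 x) = w * (toChart.comp 2).ord x ∧
    (low 0).ord (Nm 1 x) = w * (toChart.comp 0).ord x ∧
    (low 1).ord (Nm 1 x) = (toChart.comp 2).ord x + (toChart.comp 1).ord x
  red_norm : ∀ x, (∀ i, (toChart.comp i).Unit x) →
    (low 0).redF (Nm 0 x) =
        (toChart.comp 0).redF x * (toChart.comp 1).redF x ^ (w - 1) ∧
    φ ((low 1).redF (Nm 0 x)) = (toChart.comp 2).redF x ^ w ∧
    φ ((low 0).redF (Nm 1 x)) = (toChart.comp 0).redF x ^ w ∧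
    (low 1).redF (Nm 1 x) =
        (toChart.comp 2).redF x * (toChart.comp 1).redF x ^ (w - 1)
  /-- at a pair a root of the norm of a local unit takes one value on both components -/
  glue : ∀ (b : Bool) (Q : Ideal (toChart.R b)) O, toChart.ClosedPoint b Q → toChart.IsPair b Q O →
    ∀ (n : ℕ), (n : k) ≠ 0 → ∀ (ε f : F) (c : Fin 3 → k), toChart.LocalUnit b Q ε →
      (∀ i, (toChart.comp i).Unit f ∧ c i ≠ 0 ∧ toChart.HasValue i (O i) f (c i)) →
      ∀ (t : Fin 2) (y : E) (ζ : Fin 2 → k), y ^ n = Nm t ε →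
        (∀ j, (low j).redF y = algebraMap k G (ζ j) * (low j).redF (Nm t f)) →
        (t = 0 → ζ 0 * (c 0 * c 1 ^ (w - 1)) = ζ 1 * c 2 ^ w) ∧
          (t = 1 → ζ 0 * c 0 ^ w = ζ 1 * (c 2 * c 1 ^ (w - 1)))

end Fermat.Agent.SquareOld

end
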