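import Fermat.Agent.SquareOld.Criterion
import Mathlib.RingTheory.UniqueFactorizationDomain.Basic
import Mathlib.RingTheory.Ideal.GoingUp

/-!
# Factorial local rings give local roots

In a factorial local ring at a closed point a horizontal `n`-th power whose orders at the components
are divisible by `n` is an `n`-th power up to a unit.
-/

set_option autoImplicit false

noncomputable section

open Polynomial

namespace Fermat.Agent.SquareOld

section Frac

variable {F : Type*} [Field F] {S : Subring F}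

theorem exp_eq_of_not_dvd {p A B : S} (hp : Prime p) (hA : ¬ p ∣ A) (hB : ¬ p ∣ B) {x y : ℕ}
    (h : p ^ x * A = p ^ y * B) : x = y := by
  wlog hxy : x ≤ y generalizing A B x y
  · exact (this hB hA h.symm (by omega)).symm
  by_contra hne
  refine hA ⟨p ^ (y - x - 1) * B, mul_left_cancel₀ (pow_ne_zero x hp.ne_zero) ?_⟩
  rw [h, ← mul_assoc, ← mul_assoc, ← pow_succ, ← pow_add, show x + 1 + (y - x - 1) = y by omega]

theorem exists_frac_of_prime [UniqueFactorizationMonoid S] {p : S} (hp : Prime p) {c : S}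
    (hc : c ≠ 0) : ∃ (e : ℕ) (c' : S), ¬ p ∣ c' ∧ c = p ^ e * c' :=
  WfDvdMonoid.max_power_factor hc hp.irreducible

/-- The valuation ring of a prime element. -/
def primeVal [UniqueFactorizationMonoid S] (hfrac : ∀ z : F, ∃ a b : S, b ≠ 0 ∧ z * b = a)
    {p : S} (hp : Prime p) : ValuationSubring F where
  carrier := {z | ∃ a b : S, ¬ p ∣ b ∧ z * b = a}
  zero_mem' := ⟨0, 1, hp.not_dvd_one, by simp⟩
  one_mem' := ⟨1, 1, hp.not_dvd_one, by simp⟩
  add_mem' := by
    rintro x y ⟨a, b, hb, e⟩ ⟨a', b', hb', e'⟩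
    refine ⟨a * b' + a' * b, b * b', fun h => (hp.dvd_or_dvd h).elim hb hb', ?_⟩
    push_cast; rw [← e, ← e']; ring
  mul_mem' := by
    rintro x y ⟨a, b, hb, e⟩ ⟨a', b', hb', e'⟩
    refine ⟨a * a', b * b', fun h => (hp.dvd_or_dvd h).elim hb hb', ?_⟩
    push_cast; rw [← e, ← e']; ring
  neg_mem' := by
    rintro x ⟨a, b, hb, e⟩
    exact ⟨-a, b, hb, by push_cast; rw [← e]; ring⟩
  mem_or_inv_mem' := fun z => by
    obtain ⟨a, b, hb, e⟩ := hfrac z
    rcases eq_or_ne z 0 with rfl | hz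
    · exact Or.inl ⟨0, 1, hp.not_dvd_one, by simp⟩
    have hb' : (b : F) ≠ 0 := fun h => hb (Subtype.ext h)
    have ha : a ≠ 0 := fun h => mul_ne_zero hz hb' (by rw [e, h]; rfl)
    obtain ⟨i, a', ha', rfl⟩ := exists_frac_of_prime hp ha
    obtain ⟨j, b'', hb'', rfl⟩ := exists_frac_of_prime hp hb
    have hp0 : (p : F) ≠ 0 := fun h => hp.ne_zero (Subtype.ext h)
    push_cast at e
    rcases le_total j i with hij | hij
    · refine Or.inl ⟨p ^ (i - j) * a', b'', hb'', mul_left_cancel₀ (pow_ne_zero j hp0) ?_⟩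
      push_cast
      rw [← mul_assoc ((p : F) ^ j) ((p : F) ^ (i - j)), ← pow_add, Nat.add_sub_cancel' hij, ← e]
      ring
    · refine Or.inr ⟨p ^ (j - i) * b'', a', ha', mul_left_cancel₀ (pow_ne_zero i hp0) ?_⟩
      push_cast
      rw [← mul_assoc ((p : F) ^ i) ((p : F) ^ (j - i)), ← pow_add, Nat.add_sub_cancel' hij,
        mul_left_comm, ← e]
      field_simp

theorem mem_primeVal_of_mem [UniqueFactorizationMonoid S]
    (hfrac : ∀ z : F, ∃ a b : S, b ≠ 0 ∧ z * b = a) {p : S} (hp : Prime p) (x : S) :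
    (x : F) ∈ primeVal hfrac hp := ⟨x, 1, hp.not_dvd_one, by simp⟩

/-- Every prime sees an `n`-th power, so it is one up to a unit. -/
theorem exists_root_unit [UniqueFactorizationMonoid S]
    (hfrac : ∀ z : F, ∃ a b : S, b ≠ 0 ∧ z * b = a) {n : ℕ} (hn : 0 < n) {u : F} (hu : u ≠ 0)
    (h : ∀ (p : S) (hp : Prime p), ∃ f : F, f ≠ 0 ∧ f ^ n * u⁻¹ ∈ primeVal hfrac hp ∧
      u * (f ^ n)⁻¹ ∈ primeVal hfrac hp) :
    ∃ (g : F) (ε : S), g ≠ 0 ∧ IsUnit ε ∧ g ^ n * u = (ε : F) := by
  obtain ⟨c₀, d, hd, e₀⟩ := hfrac u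
  set c : S := c₀ * d ^ (n - 1) with hc
  have hd' : (d : F) ≠ 0 := fun h => hd (Subtype.ext h)
  have hcu : (c : F) = u * (d : F) ^ n := by
    rw [hc]; push_cast
    rw [← e₀, mul_assoc, ← pow_succ', Nat.sub_add_cancel hn]
  have hc0 : c ≠ 0 := fun h => mul_ne_zero hu (pow_ne_zero n hd') (by rw [← hcu, h]; rfl)
  have good : ∀ p : S, Prime p → ∀ (e : ℕ) (c' : S), ¬ p ∣ c' → c = p ^ e * c' → n ∣ e := by
    intro p hp e c' hc' hce
    obtain ⟨f, hf, ⟨a, b, hb, hab⟩, a₂, b₂, hb₂, hab₂⟩ := h p hp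
    obtain ⟨r, s, hs, hrs⟩ := hfrac (f * d)
    have hs' : (s : F) ≠ 0 := fun h => hs (Subtype.ext h)
    have hr : r ≠ 0 := fun h => mul_ne_zero (mul_ne_zero hf hd') hs' (by rw [hrs, h]; rfl)
    have ha : ¬ p ∣ a := by
      intro hpa
      obtain ⟨a', rfl⟩ := hpa
      have h1 : ((b : F) * b₂) = ((p * a') * a₂ : S) := by
        push_cast at hab ⊢
        rw [← hab, ← hab₂]; field_simp
      exact (hp.dvd_or_dvd (show p ∣ b * b₂ from ⟨a' * a₂, Subtype.ext (by
        push_cast at h1 ⊢; rw [h1]; ring)⟩)).elim hb hb₂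
    obtain ⟨i, r', hr', rfl⟩ := exists_frac_of_prime hp hr
    obtain ⟨j, s', hs'', rfl⟩ := exists_frac_of_prime hp hs
    have heq : p ^ (i * n) * (r' ^ n * b) = p ^ (e + j * n) * (c' * s' ^ n * a) := by
      refine Subtype.ext ?_
      have h2 : ((c : S) : F) = (p : F) ^ e * c' := by rw [hce]; push_cast; rfl
      push_cast at hrs ⊢
      rw [pow_mul, pow_add, pow_mul, ← mul_assoc, ← mul_pow, ← hrs]
      rw [hcu] at h2
      calc (f * d * ((p : F) ^ j * s')) ^ n * b
          = (f ^ n * u⁻¹ * b) * (u * (d : F) ^ n) * ((p : F) ^ j) ^ n * (s' : F) ^ n := by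
            simp only [mul_pow]
            field_simp
        _ = _ := by rw [hab, h2]; ring
    have hne : ∀ {x : S} (m : ℕ), ¬ p ∣ x → ¬ p ∣ x ^ m := fun m hx hh => hx (hp.dvd_of_dvd_pow hh)
    have := exp_eq_of_not_dvd hp
      (fun hh => (hp.dvd_or_dvd hh).elim (hne n hr') hb)
      (fun hh => (hp.dvd_or_dvd hh).elim (fun hh => (hp.dvd_or_dvd hh).elim hc' (hne n hs'')) ha) heq
    exact (Nat.dvd_add_left (dvd_mul_left n j)).mp (this ▸ dvd_mul_left n i)
  suffices key : ∀ x : S, x ≠ 0 → (∀ p : S, Prime p → ∀ (e : ℕ) (x' : S), ¬ p ∣ x' →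
      x = p ^ e * x' → n ∣ e) → ∃ (g : S) (ε : S), IsUnit ε ∧ x = g ^ n * ε by
    obtain ⟨g, ε, hε, hg⟩ := key c hc0 good
    have hg0 : (g : F) ≠ 0 := fun h => hc0 (by
      rw [hg, show g = 0 from Subtype.ext h, zero_pow hn.ne', zero_mul])
    refine ⟨(d : F) / g, ε, div_ne_zero hd' hg0, hε, ?_⟩
    rw [div_pow, div_mul_eq_mul_div, mul_comm, ← hcu, hg]
    push_cast
    rw [mul_div_cancel_left₀ _ (pow_ne_zero _ hg0)]
  intro x
  induction x using WellFounded.induction (wellFounded_dvdNotUnit (α := S)) with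
  | _ x ih =>
    intro hx hgood
    by_cases hxu : IsUnit x
    · exact ⟨1, x, hxu, by simp⟩
    obtain ⟨p, hp, hpx⟩ := UniqueFactorizationMonoid.exists_mem_factors hx hxu |>.elim
      fun p hp => (⟨p, UniqueFactorizationMonoid.prime_of_factor p hp,
        UniqueFactorizationMonoid.dvd_of_mem_factors hp⟩ : ∃ p, Prime p ∧ p ∣ x)
    obtain ⟨e, x', hx', rfl⟩ := exists_frac_of_prime hp hx
    obtain ⟨i, rfl⟩ := hgood p hp e x' hx' rfl
    have hi : n * i ≠ 0 := fun h0 => hx' (by simpa [h0] using hpx)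
    have hx'0 : x' ≠ 0 := right_ne_zero_of_mul hx
    have hlt : DvdNotUnit x' (p ^ (n * i) * x') :=
      ⟨hx'0, p ^ (n * i), fun hu => hp.not_isUnit (isUnit_pow_iff hi |>.mp hu), mul_comm _ _⟩
    obtain ⟨g, ε, hε, hg⟩ := ih x' hlt hx'0 fun q hq e' x'' hx'' he => by
      rcases Nat.eq_zero_or_pos e' with rfl | he'
      · exact dvd_zero n
      refine hgood q hq e' (p ^ (n * i) * x'') (fun hh => (hq.dvd_or_dvd hh).elim (fun hh => ?_) hx'')
        (by rw [he]; ring)
      have hass : Associated q p := hq.associated_of_dvd hp (hq.dvd_of_dvd_pow hh)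
      exact hx' (hass.dvd_iff_dvd_left.mp (he ▸ (dvd_pow_self q he'.ne').mul_right _))
    exact ⟨p ^ i * g, ε, hε, by rw [hg]; ring⟩

end Frac

namespace Chart

variable {k : Type*} [Field k] {F : Type*} [Field F] {G : Type*} [Field G] [Algebra k G]
  {X : Chart k F G} {b : Bool} {Q : Ideal (X.R b)}

theorem exists_frac_R (X : Chart k F G) (b : Bool) (z : F) :
    ∃ d : F, d ≠ 0 ∧ d ∈ X.R b ∧ d * z ∈ X.R b := by
  cases b
  · exact X.exists_mul_mem z
  · obtain ⟨d, hd, h1, h2⟩ := X.flip.exists_mul_mem z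
    exact ⟨d, hd, X.flip_R.mp h1, X.flip_R.mp h2⟩

theorem exists_frac_localAt [Q.IsPrime] (z : F) :
    ∃ a c : localAt b Q, c ≠ 0 ∧ z * c = a := by
  obtain ⟨d, hd, h1, h2⟩ := X.exists_frac_R b z
  exact ⟨⟨_, mem_localAt ⟨_, h2⟩⟩, ⟨d, mem_localAt ⟨_, h1⟩⟩, fun h => hd (congrArg Subtype.val h),
    mul_comm _ _⟩

/-- A prime containing `w` and a primitive polynomial in the parameter is maximal. -/
theorem isMaximal_of_prim (Y : Chart k F G) {q : Ideal (Y.R false)} [q.IsPrime]
    (hw : (⟨(Y.w : F), Y.natCast_mem_R false Y.w⟩ : Y.R false) ∈ q) {P : Y.W[X]} (hP : Y.Prim P)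
    (hPq : (⟨Y.evT P, Y.evT_mem_R P⟩ : Y.R false) ∈ q) : q.IsMaximal := by
  let f : Y.W[X] →+* Y.R false := Y.evT.codRestrict _ Y.evT_mem_R
  let := f.toAlgebra
  have : Algebra.IsIntegral Y.W[X] (Y.R false) := ⟨fun x => by
    obtain ⟨p, hp, hpx⟩ := Y.isIntegral_iff.mp x.2
    refine ⟨p, hp, Subtype.ext ?_⟩
    have := Polynomial.hom_eval₂ p f (Y.R false).subtype x
    simp only [Subring.subtype_apply] at this
    rw [ZeroMemClass.coe_zero, ← hpx]
    exact this⟩
  refine Ideal.isMaximal_of_isIntegral_of_isMaximal_comap (R := Y.W[X]) q ?_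
  let π : Y.W[X] →+* k[X] := Polynomial.mapRingHom Y.resW
  have hπ : Function.Surjective π := Polynomial.map_surjective _ Y.resW_surjective
  set q₀ := q.comap (algebraMap Y.W[X] (Y.R false))
  have hker : RingHom.ker π ≤ q₀ := by
    intro R hR
    have hn : ∀ l, ¬ IsUnit (R.coeff l) := fun l hl => by
      have h := congrArg (fun r => Polynomial.coeff r l) (RingHom.mem_ker.mp hR)
      simp only [π, coe_mapRingHom, coeff_map, coeff_zero] at h
      exact (hl.map Y.resW).ne_zero h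
    have hdvd : C Y.wW ∣ R := by
      by_contra h
      obtain ⟨l, hl⟩ := (Y.prim_iff R).mpr h
      exact hn l hl
    obtain ⟨R', rfl⟩ := hdvd
    refine q₀.mul_mem_right _ ?_
    rw [Ideal.mem_comap]
    convert hw using 1
    exact Subtype.ext (Y.evT_C _)
  have : q₀.IsPrime := Ideal.comap_isPrime _ q
  have hp' : (q₀.map π).IsPrime := Ideal.map_isPrime_of_surjective hπ hker
  have hne : q₀.map π ≠ ⊥ := fun h => by
    have h1 : π P ∈ q₀.map π := Ideal.mem_map_of_mem π hPq
    rw [h, Ideal.mem_bot] at h1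
    obtain ⟨l, hl⟩ := hP
    have h2 := congrArg (fun r => Polynomial.coeff r l) h1
    simp only [π, coe_mapRingHom, coeff_map, coeff_zero] at h2
    exact (hl.map Y.resW).ne_zero h2
  have : (q₀.map π).IsMaximal := hp'.isMaximal hne
  have e : (q₀.map π).comap π = q₀ := by
    rw [Ideal.comap_map_of_surjective' π hπ, sup_eq_left.mpr hker]
  exact e ▸ Ideal.comap_isMaximal_of_surjective π hπ

/-- The chart in which `b` is the first one. -/
def base (X : Chart k F G) (b : Bool) : Chart k F G := if b then X.flip else X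

theorem base_comp (X : Chart k F G) (b : Bool) : (X.base b).comp = X.comp := by
  cases b <;> rfl

theorem mem_base_R (X : Chart k F G) (b : Bool) {x : F} : x ∈ (X.base b).R false ↔ x ∈ X.R b := by
  cases b
  · exact Iff.rfl
  · exact X.flip_R

theorem base_W (X : Chart k F G) (b : Bool) : (X.base b).W = X.W := by cases b <;> rfl

theorem base_w (X : Chart k F G) (b : Bool) : (X.base b).w = X.w := by cases b <;> rfl

theorem base_T (X : Chart k F G) (b : Bool) : (X.base b).T = X.par b := by cases b <;> rfl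

variable [Q.IsPrime]

/-- **Local roots at a factorial closed point.** -/
theorem loc_of_ufd (hQ : X.ClosedPoint b Q) (hbr : ∀ i O, X.Centred b Q i O → O ≠ ⊤)
    [UniqueFactorizationMonoid (localAt b Q)] {n : ℕ} (hn : (n : k) ≠ 0) {u : F} (hu : u ≠ 0)
    (hH : X.HorizPow n u) (hdiv : ∀ i, (n : ℤ) ∣ (X.comp i).ord u) :
    ∃ h : F, h ≠ 0 ∧ X.LocalUnit b Q (h ^ n * u ^ 1) := by
  classical
  have hn0 : 0 < n := Nat.pos_of_ne_zero fun e => hn (by rw [e, Nat.cast_zero])
  set hfrac := exists_frac_localAt (X := X) (Q := Q)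
  obtain ⟨g, ε, hg, hε, hgu⟩ := exists_root_unit hfrac hn0 hu fun p hp => by
    set V := primeVal hfrac hp
    have hle : ∀ x : localAt b Q, (x : F) ∈ V := mem_primeVal_of_mem hfrac hp
    have hRV : ∀ x ∈ X.R b, x ∈ V := fun x hx => hle ⟨x, mem_localAt ⟨x, hx⟩⟩
    have hW : ∀ x ∈ X.W, x ∈ V := fun x hx => hRV x (X.W_le_R b hx)
    by_cases hwp : (X.w : F)⁻¹ ∈ V
    · exact hH V hW hwp
    have hwn : (X.w : F) ∈ V.nonunits := by
      simpa using V.inv_mem_nonunits_iff.mpr (Or.inr hwp)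
    have hdvdw : p ∣ ⟨(X.w : F), mem_localAt ⟨_, X.natCast_mem_R b X.w⟩⟩ := by
      by_contra h
      exact hwp ⟨1, _, h, by simp [inv_mul_cancel₀ X.w_ne]⟩
    by_cases hprim : ∀ P : (X.base b).W[X], (X.base b).Prim P → ((X.base b).evT P)⁻¹ ∈ V
    · obtain ⟨i, hi⟩ := (X.base b).ext_gauss V (by rw [base_W]; exact hW)
        (by rw [base_T]; exact hRV _ (X.par_mem_R b)) (by rwa [base_w]) hprim
      rw [base_comp] at hi
      obtain ⟨m, hm⟩ := hdiv i
      obtain ⟨π, hπ0, hπ⟩ := (X.comp i).exists_ord_one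
      have hz : ∀ z : F, z ≠ 0 → (X.comp i).ord z = 0 → z ∈ V := fun z hz0 hz =>
        hi (((X.comp i).mem_iff z hz0).mpr hz.ge)
      have hord : ∀ a : ℤ, (X.comp i).ord (π ^ a) = a := by
        intro a
        rcases a with a | a
        · rw [Int.ofNat_eq_natCast, zpow_natCast, Comp.ord_pow _ hπ0, hπ, mul_one]
        · rw [zpow_negSucc, Comp.ord_inv _ (pow_ne_zero _ hπ0), Comp.ord_pow _ hπ0, hπ,
            Int.negSucc_eq, mul_one]
          push_cast; ring
      have hfn : (π ^ m) ^ n = π ^ ((X.comp i).ord u) := by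
        rw [← zpow_natCast, ← zpow_mul, hm, mul_comm]
      have hp0 : π ^ (X.comp i).ord u ≠ 0 := zpow_ne_zero _ hπ0
      refine ⟨π ^ m, zpow_ne_zero m hπ0, hz _ ?_ ?_, hz _ ?_ ?_⟩
      · exact mul_ne_zero (pow_ne_zero _ (zpow_ne_zero m hπ0)) (inv_ne_zero hu)
      · rw [hfn, (X.comp i).ord_mul _ _ hp0 (inv_ne_zero hu), hord, Comp.ord_inv _ hu]; ring
      · exact mul_ne_zero hu (inv_ne_zero (pow_ne_zero _ (zpow_ne_zero m hπ0)))
      · rw [hfn, (X.comp i).ord_mul _ _ hu (inv_ne_zero hp0), Comp.ord_inv _ hp0, hord]; ring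
    -- otherwise the maximal ideal is generated by `p`
    push Not at hprim
    obtain ⟨P, hP, hPV⟩ := hprim
    exfalso
    let q : Ideal ((X.base b).R false) :=
      { carrier := {x | p ∣ ⟨(x : F), mem_localAt ⟨_, (X.mem_base_R b).mp x.2⟩⟩}
        zero_mem' := dvd_zero p
        add_mem' := fun hx hy => dvd_add hx hy
        smul_mem' := fun c x hx => dvd_mul_of_dvd_right hx ⟨_, mem_localAt ⟨_, (X.mem_base_R b).mp c.2⟩⟩ }
    have hqp : q.IsPrime := ⟨(Ideal.ne_top_iff_one q).mpr fun h => hp.not_dvd_one h,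
      fun {x y} h => hp.dvd_or_dvd
        (a := ⟨(x : F), mem_localAt ⟨_, (X.mem_base_R b).mp x.2⟩⟩)
        (b := ⟨(y : F), mem_localAt ⟨_, (X.mem_base_R b).mp y.2⟩⟩) h⟩
    have hqmax : q.IsMaximal := isMaximal_of_prim (X.base b) (q := q)
      (by show p ∣ _; simpa only [base_w] using hdvdw)
      hP (by
        show p ∣ _
        by_contra h
        refine hPV ⟨1, _, h, ?_⟩
        show ((X.base b).evT P)⁻¹ * (X.base b).evT P = _
        rw [OneMemClass.coe_one]
        exact inv_mul_cancel₀ ((X.base b).gauss 0 P hP).1)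
    have hall : ∀ x : localAt b Q, ¬ IsUnit x → p ∣ x := by
      intro x hx
      obtain ⟨c, d, hd, e⟩ := x.2
      have hcQ := mem_Q_of_not_isUnit hd e hx
      let c' : (X.base b).R false := ⟨(c : F), (X.mem_base_R b).mpr c.2⟩
      have hc' : c' ∈ q := by
        by_contra hc'
        obtain ⟨r, s, hs, ers⟩ := hqmax.exists_inv hc'
        have hs' : (⟨(s : F), (X.mem_base_R b).mp s.2⟩ : X.R b) ∈ Q := by
          by_contra hs'
          exact hp.not_isUnit (isUnit_of_dvd_unit hs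
            (isUnit_localAt hs' Q.one_notMem (x := ⟨(s : F), mem_localAt ⟨_, (X.mem_base_R b).mp s.2⟩⟩) (by simp)))
        refine hQ.1.isPrime.ne_top ((Ideal.eq_top_iff_one _).mpr ?_)
        have e1 : (1 : X.R b) = ⟨(r : F), (X.mem_base_R b).mp r.2⟩ * c +
            ⟨(s : F), (X.mem_base_R b).mp s.2⟩ := Subtype.ext (by
          have := congrArg Subtype.val ers
          push_cast at this ⊢
          exact this.symm)
        rw [e1]
        exact add_mem (Q.mul_mem_left _ hcQ) hs'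
      have hdu : IsUnit (⟨(d : F), mem_localAt d⟩ : localAt b Q) :=
        isUnit_localAt hd Q.one_notMem (by simp)
      have e' : x * ⟨(d : F), mem_localAt d⟩ = ⟨(c : F), mem_localAt c⟩ := Subtype.ext e
      exact (IsUnit.dvd_mul_right hdu).mp (e' ▸ hc')
    obtain ⟨i, hi⟩ := exists_through hQ
    obtain ⟨O, hO⟩ := exists_branch hQ hi
    obtain ⟨z, hz⟩ : ∃ z, z ∉ O := by
      by_contra! h
      exact hbr i O hO (top_unique fun z _ => h z)
    obtain ⟨⟨f, hf⟩, hfz⟩ := (X.comp i).red_surjective z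
    have hfz' : (X.comp i).redF f = z := by rw [Comp.redF_of_mem hf]; exact hfz
    obtain ⟨a, c, hc, e⟩ := hfrac f
    obtain ⟨m, c', hc', rfl⟩ := exists_frac_of_prime hp hc
    have hc'u : IsUnit c' := by_contra fun h => hc' (hall c' h)
    obtain ⟨m', a', ha', rfl⟩ := exists_frac_of_prime hp (c := a) (fun h => by
      subst h
      refine hz (hfz' ▸ ?_)
      rw [ZeroMemClass.coe_zero, mul_eq_zero,
        or_iff_left (fun h0 : ((p ^ m * c' : localAt b Q) : F) = 0 => hc (Subtype.ext h0))] at e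
      rw [e, (Comp.redF_eq_zero (zero_mem _)).mpr (Or.inl rfl)]
      exact zero_mem O)
    have ha'u : IsUnit a' := by_contra fun h => ha' (hall a' h)
    have hpi : (X.comp i).redF (p : F) = 0 := by
      have hw0' : (⟨(X.w : F), mem_localAt ⟨_, X.natCast_mem_R b X.w⟩⟩ : localAt b Q) ≠ 0 :=
        fun h => X.w_ne (congrArg Subtype.val h)
      obtain ⟨l, v, hv, hlv⟩ := exists_frac_of_prime hp hw0'
      have hvu : IsUnit v := by_contra fun h => hv (hall v h)
      have h2 : (X.comp i).redF (X.w : F) = 0 :=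
        (Comp.redF_eq_zero (natCast_mem _ _)).mpr (Or.inr (X.ord_w i))
      have h3 := congrArg Subtype.val hlv
      push_cast at h3
      rw [h3, Comp.redF_mul (pow_mem (localAt_le hi p.2) _) (localAt_le hi v.2),
        Comp.redF_pow (localAt_le hi p.2), mul_eq_zero] at h2
      rcases h2 with h2 | h2
      · exact (pow_eq_zero_iff'.mp h2).1
      · exact absurd hvu ((red_nonunit_iff hO v).mpr (h2 ▸ O.nonunits.zero_mem))
    have hredu : ∀ v : localAt b Q, IsUnit v → (X.comp i).redF (v : F) ≠ 0 := fun v hv h =>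
      (red_nonunit_iff hO v).mpr (h ▸ O.nonunits.zero_mem) hv
    have hmem := fun v : localAt b Q => red_localAt_mem hO v.2
    rcases Nat.lt_or_ge m' m with hlt | hge
    · refine hredu a' ha'u ?_
      have h4 : (p : F) ^ (m - m') * f * c' = a' := by
        have hp0 : (p : F) ≠ 0 := fun h => hp.ne_zero (Subtype.ext h)
        refine mul_left_cancel₀ (pow_ne_zero m' hp0) ?_
        push_cast at e
        rw [← e, ← mul_assoc, ← mul_assoc, ← pow_add, Nat.add_sub_cancel' hlt.le]; ring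
      rw [← h4, Comp.redF_mul (mul_mem (pow_mem (hmem p).1 _) hf) (hmem c').1,
        Comp.redF_mul (pow_mem (hmem p).1 _) hf, Comp.redF_pow (hmem p).1, hpi,
        zero_pow (by omega), zero_mul, zero_mul]
    · refine hz (hfz' ▸ (red_localAt_mem hO (x := f) ?_).2)
      obtain ⟨v, hv⟩ := hc'u.exists_right_inv
      have h5 : f = ((p ^ (m' - m) * a' * v : localAt b Q) : F) := by
        have hp0 : (p : F) ≠ 0 := fun h => hp.ne_zero (Subtype.ext h)
        have hv' : (c' : F) * v = 1 := congrArg Subtype.val hv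
        refine mul_left_cancel₀ (pow_ne_zero m hp0) ?_
        push_cast at e ⊢
        rw [← mul_assoc ((p : F) ^ m), ← mul_assoc ((p : F) ^ m), ← pow_add,
          Nat.add_sub_cancel' hge, ← e]
        linear_combination (-((p : F) ^ m * f)) * hv'
      rw [h5]; exact SetLike.coe_mem _
  obtain ⟨c, d, hd, e⟩ := ε.2
  refine ⟨g, hg, c, d, fun hc => ?_, hd, by rw [pow_one, hgu]; exact e⟩
  exact not_isUnit_localAt hc hd e hε

end Chart

end Fermat.Agent.SquareOld

end
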