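import Fermat.Agent.ToricRows.FixedRep
import Fermat.Agent.LevelP.Inst.Concrete
import Fermat.Agent.SemistableRed.Toric

/-!
# Inertia-fixed functions: prescribed orders, fixed multiples, horizontal powers

At an arbitrary level.
-/

set_option autoImplicit false
set_option linter.unusedSectionVars false
set_option synthInstance.maxHeartbeats 400000

noncomputable section

open AlgebraicCurve ModularCurve Fermat.Agent.FunctionFieldRR Fermat.Agent.SemistableRed
  Fermat.Agent.LevelP

namespace Fermat.Agent.SquareOld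

local notation "Qbar" => AlgebraicClosure ℚ

attribute [local instance] HeckeJ0.hasPrincipalDivisors_bar

variable {A : ValuationSubring (AlgebraicClosure ℚ)} {M q : ℕ} [NeZero M] [NeZero q]

local notation "gal" => arithmeticGalois (modularFunctionFieldFull (M * q))
local notation "FF" => modularFunctionFieldBar (M * q)

variable (A M q) in
/-- The field of functions fixed by inertia. -/
abbrev Fixed : Subfield FF := fixedSubfield (inertiaAct A M q)

theorem galois_const (σ : Qbar ≃ₐ[ℚ] Qbar) (c : Qbar) :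
    gal σ • algebraMap Qbar FF c = algebraMap Qbar FF (σ c) :=
  Subtype.ext (by
    rw [coe_arithmeticGalois_smul, IntermediateField.coe_algebraMap_apply,
      IntermediateField.coe_algebraMap_apply]
    exact coeffMap_algebraMap _ c)

theorem mem_fixed_of_galois {f : FF} (h : ∀ σ ∈ A.inertiaSubgroupIn ℚ, gal σ • f = f) :
    f ∈ Fixed A M q := by
  rintro _ ⟨σ, hσ, rfl⟩
  exact h σ hσ

theorem galois_of_mem_fixed {f : FF} (hf : f ∈ Fixed A M q) {σ : Qbar ≃ₐ[ℚ] Qbar}
    (hσ : σ ∈ A.inertiaSubgroupIn ℚ) : gal σ • f = f :=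
  hf _ ⟨σ, hσ, rfl⟩

/-- A function whose divisor is fixed has a fixed scalar multiple. -/
theorem exists_fixed_scale {v : FF} (hv : v ≠ 0)
    (h : ∀ σ ∈ A.inertiaSubgroupIn ℚ, ∀ P : Place Qbar FF, P.ord (gal σ • v) = P.ord v) :
    ∃ c : Qbar, c ≠ 0 ∧ algebraMap Qbar FF c * v ∈ Fixed A M q := by
  have := SemistableRed.isFunctionField_level (M * q)
  have hus : (v : LaurentSeries Qbar) ≠ 0 := fun h => hv (Subtype.ext h)
  set o := (v : LaurentSeries Qbar).order
  set l := (v : LaurentSeries Qbar).coeff o with hl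
  have hl0 : l ≠ 0 := mt HahnSeries.coeff_order_eq_zero.mp hus
  set v' : FF := algebraMap Qbar FF l⁻¹ * v with hv'
  have hv'0 : v' ≠ 0 := mul_ne_zero ((map_ne_zero _).mpr (inv_ne_zero hl0)) hv
  have hlead : ∀ c : Qbar,
      ((algebraMap Qbar FF c * v : FF) : LaurentSeries Qbar).coeff o = c * l := fun c => by
    rw [MulMemClass.coe_mul, IntermediateField.coe_algebraMap_apply,
      algebraMap_laurentSeries_eq_single, HahnSeries.coeff_single_zero_mul]
  refine ⟨l⁻¹, inv_ne_zero hl0, mem_fixed_of_galois fun σ hσ => ?_⟩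
  obtain ⟨c, hc⟩ := exists_algebraMap_eq_of_forall_ord_nonneg (K := Qbar)
    (f := (gal σ • v') / v') fun P => by
      have hne : gal σ • v ≠ 0 := (smul_ne_zero_iff_ne _).mpr hv
      rw [ord_div P ((smul_ne_zero_iff_ne _).mpr hv'0) hv'0, hv', smul_mul',
        galois_const, P.ord_mul ((map_ne_zero _).mpr ((map_ne_zero σ).mpr (inv_ne_zero hl0))) hne,
        P.ord_mul ((map_ne_zero _).mpr (inv_ne_zero hl0)) hv, ord_algebraMap, ord_algebraMap,
        h σ hσ P, sub_self]
  rw [div_eq_iff hv'0] at hc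
  have hcoeff := congrArg (fun z : FF => (z : LaurentSeries Qbar).coeff o) hc
  simp only [coe_arithmeticGalois_smul, coeffMap_coeff] at hcoeff
  rw [hv', ← mul_assoc, ← map_mul, hlead, hlead, inv_mul_cancel₀ hl0, map_one, mul_assoc,
    inv_mul_cancel₀ hl0, mul_one] at hcoeff
  rw [← hv', hc, ← hcoeff, map_one, one_mul]

/-- The spaces of stable divisors are spanned by fixed functions. -/
theorem rrs_le_span_fixed {E : Divisor Qbar FF}
    (hE : ∀ σ ∈ A.inertiaSubgroupIn ℚ, ∀ P, E (gal σ • P) = E P)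
    [FiniteDimensional Qbar (riemannRochSpace E)] :
    riemannRochSpace E ≤ Submodule.span Qbar {f | f ∈ riemannRochSpace E ∧ f ∈ Fixed A M q} := by
  refine (LevelP.le_span_fixed (A := A) (riemannRochSpace E) fun σ hσ v hv =>
    ⟨gal σ • v, ?_, fun n => rfl⟩).trans (Submodule.span_mono ?_)
  · rw [SemistableRed.mem_rrs_iff] at hv ⊢
    refine hv.imp (fun e => by rw [e, smul_zero]) fun h P => ?_
    obtain ⟨P', rfl⟩ := MulAction.surjective (gal σ) P
    rw [SemilinearAut.ord_smul, hE σ hσ]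
    exact h P'
  · exact fun v hv => ⟨hv.1, mem_fixed_of_galois fun σ hσ =>
      Subtype.ext (LevelP.inertiaFixedSeries_iff.mp hv.2 σ hσ)⟩

/-- An element with exact order at `P` in a large stable space. -/
theorem exists_fixed_exact' : ∃ g : ℕ, ∀ E : Divisor Qbar FF,
    (∀ σ ∈ A.inertiaSubgroupIn ℚ, ∀ P, E (gal σ • P) = E P) →
    2 * (g : ℤ) < Divisor.degree E →
      ∀ P : Place Qbar FF, ∃ f ∈ Fixed A M q, f ≠ 0 ∧ P.ord f = -E P := by
  classical
  have := SemistableRed.isFunctionField_level (M * q)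
  have := Reduction.finiteDimensional_jBar (M * q)
  have := Reduction.isSeparable_jBar (M * q)
  refine ⟨genusOf (Reduction.transcendental_jBar (M * q)), fun E hE hdeg P => ?_⟩
  set g := genusOf (Reduction.transcendental_jBar (M * q))
  have hd : Divisor.degree (E - Finsupp.single P 1) = Divisor.degree E - 1 := by
    rw [map_sub, Divisor.degree_single, deg_eq_one, Nat.cast_one, mul_one]
  have h1 := finrank_eq_of_degree_gt (Reduction.transcendental_jBar (M * q)) (D := E) (by omega)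
  have h2 := finrank_eq_of_degree_gt (Reduction.transcendental_jBar (M * q))
    (D := E - Finsupp.single P 1) (by omega)
  have : FiniteDimensional Qbar (riemannRochSpace E) := Module.finite_of_finrank_pos (by omega)
  have hnle : ¬ riemannRochSpace E ≤ riemannRochSpace (E - Finsupp.single P 1) := fun hle => by
    have := Module.finite_of_finrank_pos
      (show 0 < Module.finrank Qbar (riemannRochSpace (E - Finsupp.single P 1)) by omega)
    have := Submodule.finrank_mono hle
    omega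
  obtain ⟨f, ⟨hf, hfix⟩, hf'⟩ : ∃ f, (f ∈ riemannRochSpace E ∧ f ∈ Fixed A M q) ∧
      f ∉ riemannRochSpace (E - Finsupp.single P 1) := by
    by_contra hcon
    push Not at hcon
    exact hnle ((rrs_le_span_fixed hE).trans (Submodule.span_le.mpr fun x hx => hcon x hx))
  have hf0 : f ≠ 0 := fun h => hf' (h ▸ Submodule.zero_mem _)
  have hb := (SemistableRed.mem_rrs_iff.mp hf).resolve_left hf0
  refine ⟨f, hfix, hf0, le_antisymm ?_ (hb P)⟩
  by_contra hlt
  refine hf' (SemistableRed.mem_rrs_iff.mpr (Or.inr fun Q => ?_))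
  have := hb Q
  rcases eq_or_ne P Q with rfl | hPQ
  · simp only [Finsupp.sub_apply, Finsupp.single_eq_same]; omega
  · simpa [Finsupp.single_eq_of_ne' hPQ] using this

/-- A fixed function with the order of a stable divisor at a given place. -/
theorem exists_fixed_ord' {D : Divisor Qbar FF}
    (hD : ∀ σ ∈ A.inertiaSubgroupIn ℚ, ∀ P, D (gal σ • P) = D P) (P : Place Qbar FF) :
    ∃ f ∈ Fixed A M q, f ≠ 0 ∧ P.ord f = D P := by
  have := SemistableRed.isFunctionField_level (M * q)
  set o : Place Qbar FF := (MWJ0.modularSetup (M * q)).inf Qbar with hodef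
  have ho : ∀ (σ : Qbar ≃ₐ[ℚ] Qbar), gal σ • o = o :=
    fun σ => (MWJ0.modularSetup (M * q)).gal_smul_inf Qbar σ
  obtain ⟨g, hg⟩ := exists_fixed_exact' (A := A) (M := M) (q := q)
  set m : ℤ := 2 * (g : ℤ) + |Divisor.degree D| + 1
  have hodeg : Divisor.degree (Finsupp.single o m) = m := by
    rw [Divisor.degree_single, deg_eq_one, Nat.cast_one, mul_one]
  have hst : ∀ σ ∈ A.inertiaSubgroupIn ℚ, ∀ Q,
      (Finsupp.single o m : Divisor Qbar FF) (gal σ • Q) = Finsupp.single o m Q := fun σ _ Q => by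
    classical
    simp only [Finsupp.single_apply]
    exact if_congr ⟨fun h => MulAction.injective (gal σ) ((ho σ).trans h),
      fun h => (ho σ).symm.trans (congrArg _ h)⟩ rfl rfl
  obtain ⟨f, hf, hf0, hfo⟩ := hg (Finsupp.single o m - D)
    (fun σ hσ Q => by rw [Finsupp.sub_apply, Finsupp.sub_apply, hst σ hσ Q, hD σ hσ Q])
    (by rw [map_sub, hodeg]; have := le_abs_self (Divisor.degree D); omega) P
  obtain ⟨h, hh, hh0, hho⟩ := hg (Finsupp.single o m) hst
    (by rw [hodeg]; have := abs_nonneg (Divisor.degree D); omega) P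
  refine ⟨f / h, div_mem hf hh, div_ne_zero hf0 hh0, ?_⟩
  rw [ord_div P hf0 hh0, hfo, hho, Finsupp.sub_apply]
  ring

set_option maxHeartbeats 1000000 in
/-- A fixed function with divisor `n D` is an `n`-th power at the horizontal valuations. -/
theorem exists_horiz_root {w : ℕ} (hw : w.Prime) (hA : A.LiesOverPrime w) {n : ℕ} (hn : n ≠ 0)
    {u : Fixed A M q} (hu : u ≠ 0) (D : Divisor Qbar FF)
    (hdiv : ∀ P : Place Qbar FF, P.ord (u : FF) = (n : ℤ) * D P)
    (O : ValuationSubring (Fixed A M q))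
    (hW : ∀ (c : Qbar) (hc : algebraMap Qbar FF c ∈ Fixed A M q), c ∈ A →
      (⟨_, hc⟩ : Fixed A M q) ∈ O)
    (hinv : ((w : Fixed A M q))⁻¹ ∈ O) :
    ∃ f : Fixed A M q, f ≠ 0 ∧ f ^ n * u⁻¹ ∈ O ∧ u * (f ^ n)⁻¹ ∈ O := by
  have := SemistableRed.isFunctionField_level (M * q)
  have : Algebra.IsAlgebraic ℚ Qbar := AlgebraicClosure.isAlgebraic ℚ
  have hw0 : (w : Qbar) ≠ 0 := Nat.cast_ne_zero.mpr hw.ne_zero
  have hD : ∀ σ ∈ A.inertiaSubgroupIn ℚ, ∀ P, D (gal σ • P) = D P := fun σ hσ P => by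
    have h1 := SemilinearAut.ord_smul (gal σ) P (u : FF)
    rw [galois_of_mem_fixed u.2 hσ, hdiv, hdiv] at h1
    exact mul_left_cancel₀ (Int.natCast_ne_zero.mpr hn) h1
  -- fixed constants lie in `O`
  have hconst : ∀ (c : Qbar) (hc : algebraMap Qbar FF c ∈ Fixed A M q),
      (⟨algebraMap Qbar FF c, hc⟩ : Fixed A M q) ∈ O := by
    intro c hc
    rcases eq_or_ne c 0 with rfl | hc0
    · convert O.zero_mem
      exact map_zero _
    have hfixc : ∀ σ ∈ A.inertiaSubgroupIn ℚ, σ c = c := fun σ hσ =>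
      (algebraMap Qbar FF).injective ((galois_const σ c).symm.trans (galois_of_mem_fixed hc hσ))
    obtain ⟨k, hk⟩ := FlatJ0.exists_valuation_eq_zpow_of_fixed hw hA hc0 hfixc
    have hm : c * (w : Qbar) ^ (-k) ∈ A := by
      refine (A.valuation_le_one_iff _).mp (le_of_eq ?_)
      rw [map_mul, map_zpow₀, hk, ← zpow_add₀ (A.valuation.ne_zero_iff.mpr hw0), add_neg_cancel,
        zpow_zero]
    have hfix : algebraMap Qbar FF (c * (w : Qbar) ^ (-k)) ∈ Fixed A M q := by
      rw [map_mul, map_zpow₀, map_natCast]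
      exact mul_mem hc (zpow_mem (natCast_mem _ w) _)
    have hpO : ∀ j : ℤ, (w : Fixed A M q) ^ j ∈ O := fun j => by
      obtain ⟨i, rfl | rfl⟩ := j.eq_nat_or_neg
      · rw [zpow_natCast]; exact pow_mem (natCast_mem _ w) _
      · rw [zpow_neg, zpow_natCast, ← inv_pow]; exact pow_mem hinv _
    convert O.mul_mem _ _ (hW _ hfix hm) (hpO k) using 1
    refine Subtype.ext ?_
    show algebraMap Qbar FF c = algebraMap Qbar FF (c * (w : Qbar) ^ (-k)) *
      (((w : Fixed A M q) ^ k : Fixed A M q) : FF)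
    rw [show (((w : Fixed A M q) ^ k : Fixed A M q) : FF) = algebraMap Qbar FF ((w : Qbar) ^ k) by
      rw [map_zpow₀, map_natCast, show ∀ z : Fixed A M q, (z : FF) = (Fixed A M q).subtype z
        from fun _ => rfl, map_zpow₀, map_natCast],
      ← map_mul, mul_assoc, ← zpow_add₀ hw0, neg_add_cancel, zpow_zero, mul_one]
  -- a valuation ring of the whole field dominating `O`
  obtain ⟨B, hle, hloc⟩ :=
    LocalSubring.exists_le_valuationSubring (LocalSubring.range ((Fixed A M q).subtype.comp O.subtype))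
  have hBmem : ∀ x : Fixed A M q, x ∈ O → (x : FF) ∈ B := fun x hx => hle ⟨⟨x, hx⟩, rfl⟩
  have hdom : ∀ x : Fixed A M q, (x : FF) ∈ B → (x : FF)⁻¹ ∈ B → x ∈ O := by
    intro x hx hx'
    refine (O.mem_or_inv_mem x).elim id fun hinvO => ?_
    rcases eq_or_ne x 0 with rfl | hx0
    · exact O.zero_mem
    have hxF : (x : FF) ≠ 0 := fun e => hx0 (Subtype.ext e)
    set a : (LocalSubring.range ((Fixed A M q).subtype.comp O.subtype)).toSubring :=
      ⟨(x : FF)⁻¹, ⟨⟨x⁻¹, hinvO⟩, by simp⟩⟩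
    have hua : IsUnit a := by
      refine hloc.map_nonunit a ?_
      refine IsUnit.of_mul_eq_one ⟨(x : FF), hx⟩ (Subtype.ext ?_)
      exact inv_mul_cancel₀ hxF
    obtain ⟨b, hb⟩ := hua.exists_right_inv
    obtain ⟨⟨y, hy⟩, hy'⟩ := b.2
    have h1 : (x : FF)⁻¹ * (b : FF) = 1 := congrArg Subtype.val hb
    rw [inv_mul_eq_one₀ hxF, ← hy'] at h1
    have h2 : x = y := Subtype.ext h1
    exact h2 ▸ hy
  have hL : ∀ c : Qbar, algebraMap Qbar FF c ∈ B := by
    intro c
    obtain ⟨y, d, hd, hyd⟩ : ∃ (y : Qbar) (d : ℤ), d ≠ 0 ∧ IsIntegral ℤ y ∧ y = c * d := by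
      have : Algebra.IsAlgebraic ℤ Qbar :=
        (IsFractionRing.comap_isAlgebraic_iff (A := ℤ) (K := ℚ) (C := Qbar)).mpr ‹_›
      obtain ⟨d, hd, hint⟩ := (Algebra.IsAlgebraic.isAlgebraic (R := ℤ) c).exists_integral_multiple
      exact ⟨c * d, d, hd, by rw [zsmul_eq_mul, mul_comm] at hint; exact hint, rfl⟩
    have hyB : algebraMap Qbar FF y ∈ B := by
      have hint : IsIntegral B (algebraMap Qbar FF y) :=
        (hyd.1.map (algebraMap Qbar FF).toIntAlgHom).tower_top
      obtain ⟨z, hz⟩ := IsIntegrallyClosed.isIntegral_iff.mp hint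
      exact hz ▸ z.2
    have hdfix : algebraMap Qbar FF ((d : Qbar)⁻¹) ∈ Fixed A M q := by
      rw [map_inv₀, map_intCast]; exact inv_mem (intCast_mem _ d)
    have hdB := hBmem _ (hconst _ hdfix)
    have := B.mul_mem _ _ hyB hdB
    rw [show ((⟨algebraMap Qbar FF ((d : Qbar)⁻¹), hdfix⟩ : Fixed A M q) : FF) =
      algebraMap Qbar FF ((d : Qbar)⁻¹) from rfl, ← map_mul, hyd.2, mul_assoc,
      mul_inv_cancel₀ (Int.cast_ne_zero.mpr hd), mul_one] at this
    exact this
  have huF : (u : FF) ≠ 0 := fun e => hu (Subtype.ext e)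
  by_cases htop : B = ⊤
  · have hall : ∀ x : FF, x ∈ B := fun x => htop ▸ ValuationSubring.mem_top x
    exact ⟨1, one_ne_zero, hdom _ (hall _) (hall _), hdom _ (hall _) (hall _)⟩
  set P := placeOfValuationSubring B hL htop
  obtain ⟨f, hf, hf0, hfo⟩ := exists_fixed_ord' hD P
  have hzero : P.ord (f ^ n * (u : FF)⁻¹) = 0 := by
    rw [P.ord_mul (pow_ne_zero _ hf0) (inv_ne_zero huF), FunctionFieldRR.ord_pow, P.ord_inv, hfo,
      hdiv]
    ring
  have hmem : ∀ x : FF, P.ord x = 0 → x ∈ B := fun x hx => (ord_nonneg_iff P x).mp hx.ge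
  refine ⟨⟨f, hf⟩, fun e => hf0 (congrArg Subtype.val e), hdom _ ?_ ?_, hdom _ ?_ ?_⟩ <;>
    refine hmem _ ?_ <;> push_cast
  · exact hzero
  · rw [P.ord_inv, hzero, neg_zero]
  · rw [← neg_eq_zero, ← P.ord_inv, mul_inv, inv_inv, mul_comm _ (f ^ n)]; exact hzero
  · rw [mul_inv, inv_inv, mul_comm _ (f ^ n)]; exact hzero

end Fermat.Agent.SquareOld

end
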