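import Fermat.Agent.SquareOld.Integral

/-!
# From local roots to a global root

If `u` is an `n`-th power up to a unit at every closed point of the closed fibre, with roots
compatible with a root `s₀` on the three components, then `u` is an `n`-th power up to a function
without zeros or poles on the generic fibre.
-/

set_option autoImplicit false

noncomputable section

open Polynomial

namespace Fermat.Agent.SquareOld

variable {k : Type*} [Field k] {F : Type*} [Field F] {G : Type*} [Field G] [Algebra k G]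

theorem exists_one_add_pow {R : Type*} [CommRing R] (x : R) :
    ∀ m : ℕ, ∃ z : R, (1 + x) ^ m = 1 + (m : R) * x + x ^ 2 * z
  | 0 => ⟨0, by simp⟩
  | m + 1 => by
    obtain ⟨z, hz⟩ := exists_one_add_pow x m
    refine ⟨z + (m : R) + x * z, ?_⟩
    rw [pow_succ, hz]; push_cast; ring

namespace Chart

variable (X : Chart k F G)

/-- Local roots of `u` compatible with `s₀`. -/
structure LocalRoots (n : ℕ) (u s₀ : F) : Prop where
  n_ne : (n : k) ≠ 0
  u_ne : u ≠ 0
  s_ne : s₀ ≠ 0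
  unit : ∀ i, (X.comp i).Unit (s₀ ^ n * u)
  red : ∀ i, (X.comp i).redF (s₀ ^ n * u) = 1
  loc : ∀ (b : Bool) (Q : Ideal (X.R b)), X.ClosedPoint b Q →
    ∃ h : F, h ≠ 0 ∧ X.LocalUnit b Q (h ^ n * u) ∧
      ∀ i O, X.Centred b Q i O → (X.comp i).redF (h / s₀) - 1 ∈ O.nonunits

variable {X} {n : ℕ} {u s₀ : F} (H : X.LocalRoots n u s₀)

theorem LocalRoots.n_pos (H : X.LocalRoots n u s₀) : 0 < n :=
  Nat.pos_of_ne_zero fun h => H.n_ne (by rw [h, Nat.cast_zero])

include H in
theorem LocalRoots.ord_s (i : Fin 3) :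
    (n : ℤ) * (X.comp i).ord s₀ + (X.comp i).ord u = 0 := by
  have h := (H.unit i).2
  rwa [(X.comp i).ord_mul _ _ (pow_ne_zero _ H.s_ne) H.u_ne, (X.comp i).ord_pow H.s_ne] at h

include H in
/-- An approximate root of any precision. -/
theorem LocalRoots.exists_root (K : ℕ) : ∃ s : F, s ≠ 0 ∧ ∀ i,
    (X.comp i).AtLeast K (s ^ n * u - 1) ∧ (X.comp i).Unit (s / s₀) ∧
      (X.comp i).redF (s / s₀) = 1 := by
  suffices h : ∀ K : ℕ, ∃ s : F, s ≠ 0 ∧ ∀ i,
      (X.comp i).AtLeast ((K : ℤ) + 1) (s ^ n * u - 1) ∧ (X.comp i).Unit (s / s₀) ∧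
        (X.comp i).redF (s / s₀) = 1 by
    obtain ⟨s, hs, h'⟩ := h K
    exact ⟨s, hs, fun i => ⟨(h' i).1.mono (by omega), (h' i).2⟩⟩
  intro K
  induction K with
  | zero =>
    refine ⟨s₀, H.s_ne, fun i => ⟨?_, ?_, ?_⟩⟩
    · rw [Nat.cast_zero, zero_add]
      refine (Comp.redF_eq_zero (sub_mem (H.unit i).mem (one_mem _))).mp ?_
      rw [Comp.redF_sub (H.unit i).mem (one_mem _), H.red i, Comp.redF_one, sub_self]
    · rw [div_self H.s_ne]; exact ⟨one_ne_zero, Comp.ord_one _⟩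
    · rw [div_self H.s_ne, Comp.redF_one]
  | succ K ih =>
    obtain ⟨s, hs, h⟩ := ih
    set e := 1 - s ^ n * u with he
    set t := 1 + e / (n : F) with ht
    have hn : ∀ i, (X.comp i).Unit (n : F) := fun i => X.natCast_unit i H.n_ne
    have he1 : ∀ i, (X.comp i).AtLeast ((K : ℤ) + 1) (e / (n : F)) := fun i => by
      rw [he, ← neg_sub, neg_div, div_eq_mul_inv]
      exact ((h i).1.mul_mem (hn i).inv.mem).neg
    have htu : ∀ i, (X.comp i).Unit t ∧ (X.comp i).redF t = 1 := fun i => by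
      have hm : e / (n : F) ∈ (X.comp i).V :=
        Comp.atLeast_zero_iff _ |>.mp ((he1 i).mono (by omega))
      have hr : (X.comp i).redF t = 1 := by
        rw [ht, Comp.redF_add (one_mem _) hm, Comp.redF_one,
          (Comp.redF_eq_zero hm).mpr ((he1 i).mono (by omega)), add_zero]
      exact ⟨Comp.unit_of_redF_ne (add_mem (one_mem _) hm) (hr ▸ one_ne_zero), hr⟩
    refine ⟨s * t, mul_ne_zero hs (htu 0).1.1, fun i => ?_⟩
    obtain ⟨htui, htr⟩ := htu i
    refine ⟨?_, ?_, ?_⟩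
    · have hem : (e / (n : F)) ∈ (X.comp i).V :=
        Comp.atLeast_zero_iff _ |>.mp ((he1 i).mono (by omega))
      obtain ⟨z, hz⟩ := exists_one_add_pow (⟨e / (n : F), hem⟩ : (X.comp i).V) n
      have hz' : t ^ n = 1 + (n : F) * (e / (n : F)) + (e / (n : F)) ^ 2 * (z : F) := by
        have h1 := congrArg (fun x : (X.comp i).V => (x : F)) hz
        simpa [ht] using h1
      have hid : (s * t) ^ n * u - 1 =
          (e / (n : F)) ^ 2 * ((1 - e) * (z : F) - (n : F) * (n : F)) := by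
        rw [mul_pow, hz', mul_div_cancel₀ _ (hn i).1]
        have h2 : e = (n : F) * (e / (n : F)) := (mul_div_cancel₀ _ (hn i).1).symm
        have h3 : s ^ n * u = 1 - e := by rw [he]; ring
        calc s ^ n * (1 + e + (e / (n : F)) ^ 2 * (z : F)) * u - 1
            = (s ^ n * u) * (1 + e + (e / (n : F)) ^ 2 * (z : F)) - 1 := by ring
          _ = -(e * e) + (1 - e) * (e / (n : F)) ^ 2 * (z : F) := by rw [h3]; ring
          _ = _ := by
            conv_lhs => arg 1; rw [h2]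
            ring
      rw [hid, pow_two]
      have he0 : e ∈ (X.comp i).V := sub_mem (one_mem _)
        (by simpa using add_mem ((Comp.atLeast_zero_iff _).mp ((h i).1.mono (by omega))) (one_mem _))
      refine (((he1 i).mul (he1 i)).mul_mem ?_).mono (by push_cast; omega)
      exact sub_mem (mul_mem (sub_mem (one_mem _) he0) (SetLike.coe_mem _))
        (mul_mem (natCast_mem _ n) (natCast_mem _ n))
    · rw [mul_div_right_comm]; exact (h i).2.1.mul htui
    · rw [mul_div_right_comm, Comp.redF_mul (h i).2.1.mem htui.mem, (h i).2.2, htr, one_mul]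

/-- The local ring of `R b` at `Q`, inside `F`. -/
def localAt (b : Bool) (Q : Ideal (X.R b)) [Q.IsPrime] : Subring F where
  carrier := {x | ∃ c d : X.R b, d ∉ Q ∧ x * d = c}
  zero_mem' := ⟨0, 1, Q.one_notMem, by simp⟩
  one_mem' := ⟨1, 1, Q.one_notMem, by simp⟩
  add_mem' := by
    rintro x y ⟨c, d, hd, e⟩ ⟨c', d', hd', e'⟩
    refine ⟨c * d' + c' * d, d * d', fun h => (Ideal.IsPrime.mem_or_mem ‹_› h).elim hd hd', ?_⟩
    push_cast; rw [← e, ← e']; ring
  mul_mem' := by
    rintro x y ⟨c, d, hd, e⟩ ⟨c', d', hd', e'⟩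
    refine ⟨c * c', d * d', fun h => (Ideal.IsPrime.mem_or_mem ‹_› h).elim hd hd', ?_⟩
    push_cast; rw [← e, ← e']; ring
  neg_mem' := by
    rintro x ⟨c, d, hd, e⟩
    exact ⟨-c, d, hd, by push_cast; rw [← e]; ring⟩

theorem mem_localAt {b : Bool} {Q : Ideal (X.R b)} [Q.IsPrime] (x : X.R b) :
    (x : F) ∈ localAt b Q := ⟨x, 1, Q.one_notMem, by simp⟩

theorem isUnit_localAt {b : Bool} {Q : Ideal (X.R b)} [Q.IsPrime] {c d : X.R b} (hc : c ∉ Q)
    (hd : d ∉ Q) {x : localAt b Q} (h : (x : F) * d = c) : IsUnit x := by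
  have hc0 : (c : F) ≠ 0 := fun e => hc (by rw [show c = 0 from Subtype.ext e]; exact zero_mem Q)
  have hd0 : (d : F) ≠ 0 := fun e => hd (by rw [show d = 0 from Subtype.ext e]; exact zero_mem Q)
  refine IsUnit.of_mul_eq_one ⟨(d : F) / c, d, c, hc, by rw [div_mul_cancel₀ _ hc0]⟩ (Subtype.ext ?_)
  show (x : F) * ((d : F) / c) = 1
  rw [← mul_div_assoc, h, div_self hc0]

theorem mem_Q_of_not_isUnit {b : Bool} {Q : Ideal (X.R b)} [Q.IsPrime] {c d : X.R b}
    (hd : d ∉ Q) {x : localAt b Q} (h : (x : F) * d = c) (hx : ¬ IsUnit x) : c ∈ Q :=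
  by_contra fun hc => hx (isUnit_localAt hc hd h)

theorem not_isUnit_localAt {b : Bool} {Q : Ideal (X.R b)} [Q.IsPrime] {c d : X.R b} (hc : c ∈ Q)
    (hd : d ∉ Q) {x : localAt b Q} (h : (x : F) * d = c) : ¬ IsUnit x := by
  intro hu
  obtain ⟨y, hy⟩ := hu.exists_right_inv
  obtain ⟨c', d', hd', e'⟩ := y.2
  have h1 : (x : F) * (y : F) = 1 := congrArg Subtype.val hy
  have h2 : (c : F) * c' = d * d' := by
    rw [← h, ← e']; linear_combination (d : F) * d' * h1
  exact (Ideal.IsPrime.mem_or_mem ‹_› (show d * d' ∈ Q by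
    rw [← show c * c' = d * d' from Subtype.ext h2]; exact Q.mul_mem_right _ hc)).elim hd hd'

instance isLocalRing_localAt (b : Bool) (Q : Ideal (X.R b)) [Q.IsPrime] :
    IsLocalRing (localAt b Q) := by
  refine IsLocalRing.of_nonunits_add fun {x y} hx hy => ?_
  obtain ⟨c, d, hd, e⟩ := x.2
  obtain ⟨c', d', hd', e'⟩ := y.2
  refine not_isUnit_localAt (c := c * d' + c' * d) (d := d * d') ?_
    (fun h => (Ideal.IsPrime.mem_or_mem ‹_› h).elim hd hd') ?_
  · exact add_mem (Q.mul_mem_right _ (mem_Q_of_not_isUnit hd e hx))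
      (Q.mul_mem_right _ (mem_Q_of_not_isUnit hd' e' hy))
  · push_cast; rw [← e, ← e']; ring

section Local

variable {b : Bool} {Q : Ideal (X.R b)}

/-- The components through `Q`. -/
def Through (Q : Ideal (X.R b)) (i : Fin 3) : Prop :=
  ∀ x : X.R b, (X.comp i).redF x = 0 → x ∈ Q

theorem unit_of_notMem {i : Fin 3} (hi : X.Through Q i) {x : X.R b} (hx : x ∉ Q) :
    (X.comp i).Unit (x : F) :=
  Comp.unit_of_redF_ne (X.R_le_comp b i x.2) fun h => hx (hi x h)

theorem redF_resW (i : Fin 3) (c : k) :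
    ∃ x : X.R b, (X.comp i).redF (x : F) = algebraMap k G c := by
  obtain ⟨x, rfl⟩ := X.resW_surjective c
  exact ⟨⟨x, X.W_le_R b x.2⟩, X.red_W i x⟩

variable [Q.IsPrime]

theorem localAt_le {i : Fin 3} (hi : X.Through Q i) {x : F} (hx : x ∈ localAt b Q) :
    x ∈ (X.comp i).V := by
  obtain ⟨c, d, hd, e⟩ := hx
  have hdu := unit_of_notMem hi hd
  rw [show x = (c : F) * (d : F)⁻¹ by rw [← e, mul_assoc, mul_inv_cancel₀ hdu.1, mul_one]]
  exact mul_mem (X.R_le_comp b i c.2) hdu.inv.mem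

include H in
/-- The formal root lies in the local ring, modulo any power of the components through `Q`. -/
theorem LocalRoots.exists_local (hQ : X.ClosedPoint b Q) {h : F} (h0 : h ≠ 0)
    (hu : X.LocalUnit b Q (h ^ n * u))
    (hval : ∀ i O, X.Centred b Q i O → (X.comp i).redF (h / s₀) - 1 ∈ O.nonunits)
    {K : ℕ} {s : F} (hs0 : s ≠ 0) (hs : ∀ i, (X.comp i).AtLeast K (s ^ n * u - 1) ∧
      (X.comp i).Unit (s / s₀) ∧ (X.comp i).redF (s / s₀) = 1) :
    ∃ a ∈ localAt b Q, ∀ i, X.Through Q i → (X.comp i).AtLeast K (a - s / h) := by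
  classical
  have := hQ.1
  obtain ⟨c, d, hcQ, hdQ, hcd⟩ := hu
  set r := s / h
  have hc0 : ∀ i, X.Through Q i → (X.comp i).Unit (c : F) := fun i hi => unit_of_notMem hi hcQ
  have hd0 : ∀ i, X.Through Q i → (X.comp i).Unit (d : F) := fun i hi => unit_of_notMem hi hdQ
  have hhs : ∀ i, X.Through Q i → (X.comp i).Unit (h / s₀) := by
    intro i hi
    refine ⟨div_ne_zero h0 H.s_ne, ?_⟩
    have h1 : (X.comp i).ord (h ^ n * u * d) = 0 := by rw [hcd]; exact (hc0 i hi).2
    rw [(X.comp i).ord_mul _ _ (mul_ne_zero (pow_ne_zero _ h0) H.u_ne) (hd0 i hi).1,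
      (X.comp i).ord_mul _ _ (pow_ne_zero _ h0) H.u_ne, (X.comp i).ord_pow h0, (hd0 i hi).2] at h1
    have h2 := H.ord_s i
    rw [(X.comp i).ord_div h0 H.s_ne]
    have h3 : (n : ℤ) * ((X.comp i).ord h - (X.comp i).ord s₀) = 0 := by linear_combination h1 - h2
    exact (mul_eq_zero.mp h3).resolve_left (by exact_mod_cast H.n_pos.ne')
  have hru : ∀ i, X.Through Q i → (X.comp i).Unit r := fun i hi => by
    rw [show r = (s / s₀) / (h / s₀) by rw [div_div_div_cancel_right₀ H.s_ne]]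
    exact (hs i).2.1.div (hhs i hi)
  set A := localAt b Q
  let R2 : Subring F := Subring.closure ((A : Set F) ∪ {r})
  have hR2 : ∀ i, X.Through Q i → ∀ x ∈ R2, x ∈ (X.comp i).V := fun i hi x hx =>
    (Subring.closure_le.mpr (Set.union_subset (fun y hy => localAt_le hi hy)
      (by rintro y rfl; exact (hru i hi).mem)) : R2 ≤ (X.comp i).V.toSubring) hx
  let JR : Ideal R2 :=
    { carrier := {x | ∀ i, X.Through Q i → (X.comp i).AtLeast K (x : F)}
      zero_mem' := fun i _ => Or.inl rfl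
      add_mem' := fun hx hy i hi => (hx i hi).add (hy i hi)
      smul_mem' := fun c' x hx i hi => by
        have := (hx i hi).mul_mem (hR2 i hi c' c'.2)
        rwa [mul_comm] at this }
  let f : A →+* R2 := Subring.inclusion fun y hy => Subring.subset_closure (Or.inl hy)
  let : CommRing (R2 ⧸ JR) := Ideal.Quotient.commRing JR
  let : Algebra A (R2 ⧸ JR) := ((Ideal.Quotient.mk JR).comp f).toAlgebra
  let : Module A (R2 ⧸ JR) := Algebra.toModule
  have hr2 : r ∈ R2 := Subring.subset_closure (Or.inr rfl)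
  set ρ : R2 ⧸ JR := Ideal.Quotient.mk JR ⟨r, hr2⟩
  -- the `n`-th power of `ρ` comes from the local ring
  have hcd' : (d : F) / c ∈ A := by
    refine ⟨d, c, hcQ, div_mul_cancel₀ _ fun e => hcQ ?_⟩
    rw [show c = 0 from Subtype.ext e]; exact zero_mem Q
  have hc00 : (c : F) ≠ 0 := fun e => hcQ (by rw [show c = 0 from Subtype.ext e]; exact zero_mem Q)
  set a0 : A := ⟨_, hcd'⟩
  have hρn : ρ ^ n = algebraMap A (R2 ⧸ JR) a0 := by
    show Ideal.Quotient.mk JR (⟨r, hr2⟩ ^ n) = Ideal.Quotient.mk JR (f a0)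
    rw [Ideal.Quotient.eq]
    intro i hi
    show (X.comp i).AtLeast K (r ^ n - (d : F) / c)
    rw [show r ^ n - (d : F) / c = (s ^ n * u - 1) * ((d : F) / c) by
      rw [show r ^ n = s ^ n / h ^ n from div_pow s h n, sub_mul, one_mul]
      congr 1
      field_simp
      linear_combination -hcd]
    exact (hs i).1.mul_mem (localAt_le hi hcd')
  -- generated by `ρ`
  have hgen : Algebra.adjoin A {ρ} = ⊤ := by
    refine eq_top_iff.mpr fun y _ => ?_
    obtain ⟨x, rfl⟩ := Ideal.Quotient.mk_surjective y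
    let S' : Subring R2 := (Algebra.adjoin A {ρ}).toSubring.comap (Ideal.Quotient.mk JR)
    have hle : R2 ≤ S'.map R2.subtype := by
      refine Subring.closure_le.mpr ?_
      rintro z (hz | rfl)
      · exact ⟨f ⟨z, hz⟩, (Algebra.adjoin A {ρ}).algebraMap_mem ⟨z, hz⟩, rfl⟩
      · exact ⟨⟨r, hr2⟩, Algebra.subset_adjoin (Set.mem_singleton ρ), rfl⟩
    obtain ⟨x', hx', e⟩ := hle x.2
    rwa [show x' = x from Subtype.ext e] at hx'
  have hint : IsIntegral A ρ :=
    ⟨Polynomial.X ^ n - Polynomial.C a0, monic_X_pow_sub_C a0 H.n_pos.ne', by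
      rw [eval₂_sub, eval₂_pow, eval₂_X, eval₂_C, hρn, sub_self]⟩
  have : Module.Finite A (R2 ⧸ JR) := ⟨by
    rw [← Algebra.top_toSubmodule, ← hgen]; exact hint.fg_adjoin_singleton⟩
  have : Algebra.IsIntegral A (R2 ⧸ JR) := Algebra.IsIntegral.of_finite A _
  -- at every maximal ideal `ρ` is one
  have hmax : ∀ 𝔮 : Ideal (R2 ⧸ JR), 𝔮.IsMaximal → ρ - 1 ∈ 𝔮 := by
    intro 𝔮 h𝔮
    have := h𝔮
    set p := 𝔮.comap (Ideal.Quotient.mk JR)
    have hp : p.IsMaximal := Ideal.comap_isMaximal_of_surjective _ Ideal.Quotient.mk_surjective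
    have hJp : JR ≤ p := fun x hx => by
      rw [Ideal.mem_comap, Ideal.Quotient.eq_zero_iff_mem.mpr hx]; exact zero_mem _
    obtain ⟨i, hi, hker⟩ : ∃ i, X.Through Q i ∧
        ∀ x : R2, (X.comp i).redF (x : F) = 0 → x ∈ p := by
      by_contra hcon
      push Not at hcon
      have hpick : ∀ i, ∃ x : R2, x ∉ p ∧
          (X.Through Q i → (X.comp i).redF (x : F) = 0) := fun i => by
        by_cases hi : X.Through Q i
        · obtain ⟨x, hx1, hx2⟩ := hcon i hi
          exact ⟨x, hx2, fun _ => hx1⟩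
        · exact ⟨1, fun h1 => hp.ne_top ((Ideal.eq_top_iff_one _).mpr h1), fun h => absurd h hi⟩
      choose x hxp hx0 using hpick
      refine (Ideal.IsPrime.mul_notMem ‹p.IsMaximal›.isPrime
        (Ideal.IsPrime.mul_notMem ‹p.IsMaximal›.isPrime (hxp 0) (hxp 1)) (hxp 2)) ?_
      refine ‹p.IsMaximal›.isPrime.mem_of_pow_mem K (hJp ?_)
      intro i hi
      have hm : ∀ j, ((x j : R2) : F) ∈ (X.comp i).V := fun j => hR2 i hi _ (x j).2
      have h1 := ((Comp.redF_eq_zero (hm i)).mp (hx0 i hi)).prod (x := fun j => ((x j : R2) : F)) hm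
      rw [SubmonoidClass.coe_pow]
      push_cast
      rw [Fin.prod_univ_three] at h1
      exact h1.pow K
    let φ : R2 →+* G :=
      { toFun := fun x => (X.comp i).redF (x : F)
        map_one' := Comp.redF_one
        map_mul' := fun x y => Comp.redF_mul (hR2 i hi _ x.2) (hR2 i hi _ y.2)
        map_zero' := (Comp.redF_eq_zero (zero_mem _)).mpr (Or.inl rfl)
        map_add' := fun x y => Comp.redF_add (hR2 i hi _ x.2) (hR2 i hi _ y.2) }
    have hkp : RingHom.ker φ.rangeRestrict ≤ p := fun x hx =>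
      hker x (congrArg Subtype.val (RingHom.mem_ker.mp hx))
    set I := p.map φ.rangeRestrict
    have hI : ∀ x : R2, φ.rangeRestrict x ∈ I ↔ x ∈ p := fun x => by
      rw [← Ideal.mem_comap, Ideal.comap_map_of_surjective' _ φ.rangeRestrict_surjective,
        sup_eq_left.mpr hkp]
    have hImax : I.IsMaximal :=
      Ideal.IsMaximal.map_of_surjective_of_ker_le φ.rangeRestrict_surjective hkp
    obtain ⟨O, hO1, hO2⟩ := Ideal.image_subset_nonunits_valuationSubring I hImax.ne_top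
    have hnon : ∀ x : R2, φ x ∈ O.nonunits → x ∈ p := fun x hx => by
      rw [← hI]
      have : IsLocalRing O.toSubring := inferInstanceAs (IsLocalRing O)
      let P : Ideal φ.range := Ideal.comap (Subring.inclusion hO1)
        (IsLocalRing.maximalIdeal O.toSubring)
      have hIP : I ≤ P := fun y hy => by
        rw [Ideal.mem_comap]
        have hy' : (y : G) ∈ O.nonunits := hO2 ⟨y, hy, rfl⟩
        obtain ⟨hy1, hy2⟩ := O.mem_nonunits_iff_exists_mem_maximalIdeal.mp hy'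
        exact hy2
      have hPne : P ≠ ⊤ := Ideal.comap_ne_top _ (IsLocalRing.maximalIdeal.isMaximal _).ne_top
      rw [hImax.eq_of_le hPne hIP, Ideal.mem_comap]
      obtain ⟨hy1, hy2⟩ := O.mem_nonunits_iff_exists_mem_maximalIdeal.mp hx
      exact hy2
    have hout : ∀ x : R2, φ x ∈ O := fun x => hO1 ⟨x, rfl⟩
    have hin : ∀ x : R2, x ∈ p → φ x ∈ O.nonunits := fun x hx =>
      hO2 ⟨φ.rangeRestrict x, (hI x).mpr hx, rfl⟩
    have : (𝔮.comap (algebraMap A (R2 ⧸ JR))).IsMaximal :=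
      Ideal.isMaximal_comap_of_isIntegral_of_isMaximal 𝔮
    have hloc : 𝔮.comap (algebraMap A (R2 ⧸ JR)) = IsLocalRing.maximalIdeal A :=
      IsLocalRing.eq_maximalIdeal ‹_›
    have hcent : X.Centred b Q i O := by
      refine ⟨fun c' => ?_, fun x => X.R_le_comp b i x.2, fun x => hout (f ⟨x, mem_localAt x⟩),
        fun x => ⟨fun hx => hin (f ⟨x, mem_localAt x⟩) ?_, fun hx => ?_⟩⟩
      · obtain ⟨x, hx⟩ := X.redF_resW (b := b) i c'
        rw [← hx]
        exact hout (f ⟨x, mem_localAt x⟩)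
      · have h1 : (⟨(x : F), mem_localAt x⟩ : A) ∈ 𝔮.comap (algebraMap A (R2 ⧸ JR)) := by
          rw [hloc]
          exact not_isUnit_localAt hx Q.one_notMem (by simp)
        exact h1
      · by_contra hxQ
        have hu' : IsUnit (⟨(x : F), mem_localAt x⟩ : A) :=
          isUnit_localAt hxQ Q.one_notMem (by simp)
        exact hp.ne_top (Ideal.eq_top_of_isUnit_mem _ (hnon _ hx) (hu'.map f))
    have ht := hval i O hcent
    show (⟨r, hr2⟩ - 1 : R2) ∈ p
    refine hnon _ ?_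
    show (X.comp i).redF ((⟨r, hr2⟩ - 1 : R2) : F) ∈ O.nonunits
    push_cast
    rw [Comp.redF_sub (hru i hi).mem (one_mem _), Comp.redF_one]
    set t := (X.comp i).redF (h / s₀)
    have hrr : (X.comp i).redF r = t⁻¹ := by
      rw [show r = (s / s₀) / (h / s₀) by rw [div_div_div_cancel_right₀ H.s_ne],
        (hs i).2.1.redF_div (hhs i hi), (hs i).2.2, one_div]
    rw [hrr]
    have ht0 : t ≠ 0 := (hhs i hi).redF_ne
    rw [ValuationSubring.mem_nonunits_iff] at ht ⊢
    have hone : O.valuation t = 1 := by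
      have h1 := Valuation.map_add_eq_of_lt_left O.valuation
        (x := (1 : G)) (y := t - 1) (by rwa [map_one])
      rwa [add_sub_cancel, map_one] at h1
    rw [show t⁻¹ - 1 = -(t⁻¹ * (t - 1)) by field_simp; ring, Valuation.map_neg, map_mul, map_inv₀,
      hone, inv_one, one_mul]
    exact ht
  -- Nakayama
  set m := IsLocalRing.maximalIdeal A
  set mB := m.map (algebraMap A (R2 ⧸ JR))
  have hjac : ∀ y : R2 ⧸ JR, (∀ 𝔮 : Ideal (R2 ⧸ JR), 𝔮.IsMaximal → y ∈ 𝔮) →
      y ∈ Ideal.jacobson (⊥ : Ideal (R2 ⧸ JR)) := fun y hy =>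
    Submodule.mem_sInf.mpr fun 𝔮 h𝔮 => hy 𝔮 h𝔮.2
  have hnu : ∀ 𝔮 : Ideal (R2 ⧸ JR), 𝔮.IsMaximal → ((n : ℕ) : R2 ⧸ JR) ∉ 𝔮 := by
    intro 𝔮 h𝔮 hn'
    have := h𝔮
    have : (𝔮.comap (algebraMap A (R2 ⧸ JR))).IsMaximal :=
      Ideal.isMaximal_comap_of_isIntegral_of_isMaximal 𝔮
    have h1 : ((n : ℕ) : A) ∈ IsLocalRing.maximalIdeal A := by
      rw [← IsLocalRing.eq_maximalIdeal this, Ideal.mem_comap, map_natCast]; exact hn'
    have hnQ : ((n : ℕ) : X.R b) ∈ Q :=
      mem_Q_of_not_isUnit (c := ((n : ℕ) : X.R b)) (d := 1) Q.one_notMem (by simp) h1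
    obtain ⟨x, hxQ, hx⟩ := hQ.2
    have hwQ : ((X.w : ℕ) : X.R b) ∈ Q := by
      rwa [show ((X.w : ℕ) : X.R b) = x from Subtype.ext (by simp [hx])]
    obtain ⟨α, β, hαβ⟩ := Nat.isCoprime_iff_coprime.mpr (X.coprime H.n_ne)
    refine hQ.1.ne_top ((Ideal.eq_top_iff_one _).mpr ?_)
    have h2 := congrArg (fun z : ℤ => (z : X.R b)) hαβ
    push_cast at h2
    rw [← h2]
    exact add_mem (Q.mul_mem_left _ hwQ) (Q.mul_mem_left _ hnQ)
  have hρ1 : ρ - 1 ∈ mB := by
    have hgeom : (∑ j ∈ Finset.range n, ρ ^ j) * (ρ - 1) = ρ ^ n - 1 := geom_sum_mul ρ n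
    have hGu : IsUnit (∑ j ∈ Finset.range n, ρ ^ j) := by
      by_contra hne
      obtain ⟨𝔮, h𝔮, hmem⟩ := exists_max_ideal_of_mem_nonunits hne
      refine hnu 𝔮 h𝔮 ?_
      have := h𝔮
      rw [← Ideal.Quotient.eq_zero_iff_mem, map_sum] at hmem
      rw [← Ideal.Quotient.eq_zero_iff_mem, map_natCast]
      have e : Ideal.Quotient.mk 𝔮 ρ = 1 := by
        rw [← map_one (Ideal.Quotient.mk 𝔮), Ideal.Quotient.eq]; exact hmax 𝔮 h𝔮
      simpa [e] using hmem
    have ha0 : ρ ^ n - 1 ∈ mB := by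
      rw [hρn, ← map_one (algebraMap A (R2 ⧸ JR)), ← map_sub]
      by_cases hB : Nontrivial (R2 ⧸ JR)
      · obtain ⟨𝔮, h𝔮⟩ := Ideal.exists_maximal (R2 ⧸ JR)
        have := h𝔮
        have : (𝔮.comap (algebraMap A (R2 ⧸ JR))).IsMaximal :=
          Ideal.isMaximal_comap_of_isIntegral_of_isMaximal 𝔮
        refine Ideal.mem_map_of_mem _ (show a0 - 1 ∈ IsLocalRing.maximalIdeal A from ?_)
        rw [← IsLocalRing.eq_maximalIdeal this, Ideal.mem_comap, map_sub, map_one, ← hρn, ← hgeom]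
        exact Ideal.mul_mem_left _ _ (hmax 𝔮 h𝔮)
      · have := not_nontrivial_iff_subsingleton.mp hB
        rw [Subsingleton.elim (algebraMap A (R2 ⧸ JR) (a0 - 1)) 0]
        exact zero_mem _
    obtain ⟨v, hv⟩ := hGu.exists_left_inv
    rw [show ρ - 1 = v * (ρ ^ n - 1) by rw [← hgeom, ← mul_assoc, hv, one_mul]]
    exact Ideal.mul_mem_left _ _ ha0
  set One : Submodule A (R2 ⧸ JR) := LinearMap.range (Algebra.linearMap A (R2 ⧸ JR))
  have hall : ∀ y : R2 ⧸ JR, ∃ a : A, y - algebraMap A _ a ∈ mB := by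
    intro y
    have hy : y ∈ Algebra.adjoin A {ρ} := hgen ▸ Algebra.mem_top
    induction hy using Algebra.adjoin_induction with
    | mem z hz =>
      rw [Set.mem_singleton_iff] at hz
      exact ⟨1, by rw [hz, map_one]; exact hρ1⟩
    | algebraMap a => exact ⟨a, by rw [sub_self]; exact zero_mem _⟩
    | add z z' _ _ hz hz' =>
      obtain ⟨a, ha⟩ := hz
      obtain ⟨a', ha'⟩ := hz'
      exact ⟨a + a', by rw [map_add, add_sub_add_comm]; exact add_mem ha ha'⟩
    | mul z z' _ _ hz hz' =>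
      obtain ⟨a, ha⟩ := hz
      obtain ⟨a', ha'⟩ := hz'
      refine ⟨a * a', ?_⟩
      rw [map_mul, show z * z' - algebraMap A _ a * algebraMap A _ a' =
        (z - algebraMap A _ a) * z' + algebraMap A _ a * (z' - algebraMap A _ a') by ring]
      exact add_mem (Ideal.mul_mem_right _ _ ha) (Ideal.mul_mem_left _ _ ha')
  have htop : (⊤ : Submodule A (R2 ⧸ JR)) ≤ One := by
    refine Submodule.le_of_le_smul_of_le_jacobson_bot Module.Finite.fg_top
      (IsLocalRing.maximalIdeal_le_jacobson _) fun y _ => ?_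
    obtain ⟨a, ha⟩ := hall y
    rw [show y = algebraMap A _ a + (y - algebraMap A _ a) by ring]
    refine add_mem (Submodule.mem_sup_left ⟨a, rfl⟩) (Submodule.mem_sup_right ?_)
    rw [Ideal.smul_top_eq_map]
    exact ha
  obtain ⟨a, ha⟩ := htop (Submodule.mem_top : ρ ∈ ⊤)
  refine ⟨a, a.2, fun i hi => ?_⟩
  have h1 : Ideal.Quotient.mk JR (f a) = Ideal.Quotient.mk JR ⟨r, hr2⟩ := ha
  exact (Ideal.Quotient.eq.mp h1) i hi

end Local

/-- The elements whose `n`-th power times `u` is integral on a chart. -/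
theorem add_pow_mul_mem {b : Bool} {n : ℕ} {u x y : F} (hx : x ^ n * u ∈ X.R b)
    (hy : y ^ n * u ∈ X.R b) : (x + y) ^ n * u ∈ X.R b := by
  refine X.mem_R.mpr fun V hW hT => ?_
  have hx' := X.mem_R.mp hx V hW hT
  have hy' := X.mem_R.mp hy V hW hT
  rcases eq_or_ne x 0 with rfl | hx0
  · rwa [zero_add]
  rcases eq_or_ne y 0 with rfl | hy0
  · rwa [add_zero]
  rcases V.mem_or_inv_mem (y / x) with hm | hm
  · rw [show x + y = (1 + y / x) * x by field_simp, mul_pow, mul_assoc]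
    exact mul_mem (pow_mem (add_mem (one_mem _) hm) _) hx'
  · rw [inv_div] at hm
    rw [show x + y = (x / y + 1) * y by field_simp, mul_pow, mul_assoc]
    exact mul_mem (pow_mem (add_mem hm (one_mem _)) _) hy'

theorem smul_pow_mul_mem {b : Bool} {n : ℕ} {u x : F} {r : F} (hr : r ∈ X.R b)
    (hx : x ^ n * u ∈ X.R b) : (r * x) ^ n * u ∈ X.R b := by
  rw [mul_pow, mul_assoc]
  exact mul_mem (pow_mem hr _) hx

include H in
/-- On either chart, a section as close as wanted to a root on the three components. -/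
theorem LocalRoots.exists_chart_approx (b : Bool) {K : ℕ} {s : F} (hs0 : s ≠ 0)
    (hs : ∀ i, (X.comp i).AtLeast K (s ^ n * u - 1) ∧ (X.comp i).Unit (s / s₀) ∧
      (X.comp i).redF (s / s₀) = 1) :
    ∃ f : F, f ^ n * u ∈ X.R b ∧ ∀ i, (X.comp i).AtLeast K ((f - s) / s₀) := by
  classical
  let J : Ideal (X.R b) :=
    { carrier := {r | ∃ f : F, f ^ n * u ∈ X.R b ∧
        ∀ i, (X.comp i).AtLeast K ((f - r * s) / s₀)}
      zero_mem' := ⟨0, by rw [zero_pow H.n_pos.ne', zero_mul]; exact zero_mem _,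
        fun i => Or.inl (by simp)⟩
      add_mem' := by
        rintro r r' ⟨f, hf, hf'⟩ ⟨g, hg, hg'⟩
        refine ⟨f + g, add_pow_mul_mem hf hg, fun i => ?_⟩
        have := (hf' i).add (hg' i)
        rw [← add_div] at this
        convert this using 2
        push_cast; ring
      smul_mem' := by
        rintro c r ⟨f, hf, hf'⟩
        refine ⟨c * f, smul_pow_mul_mem c.2 hf, fun i => ?_⟩
        have := (hf' i).mul_mem (X.R_le_comp b i c.2)
        convert this using 1
        simp only [smul_eq_mul]; push_cast; ring }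
  suffices htop : J = ⊤ by
    obtain ⟨f, hf, hf'⟩ := (Ideal.eq_top_iff_one J).mp htop
    exact ⟨f, hf, fun i => by simpa using hf' i⟩
  by_contra hne
  obtain ⟨Q, hQ, hJQ⟩ := Ideal.exists_le_maximal J hne
  have := hQ
  have hsi : ∀ i, s / s₀ ∈ (X.comp i).V := fun i => (hs i).2.1.mem
  have hwpow : ∀ i (m : ℕ), (X.comp i).AtLeast m ((X.w : F) ^ m) := fun i m => Or.inr (by
    rw [(X.comp i).ord_pow X.w_ne]; nlinarith [X.ord_w i])
  have hwQ : (⟨(X.w : F), natCast_mem _ _⟩ : X.R b) ∈ Q := by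
    refine hQ.isPrime.mem_of_pow_mem K (hJQ ⟨0, ?_, fun i => ?_⟩)
    · rw [zero_pow H.n_pos.ne', zero_mul]; exact zero_mem _
    · have := ((hwpow i K).mul_mem (hsi i)).neg
      convert this using 1
      push_cast; ring
  have hCP : X.ClosedPoint b Q := ⟨hQ, _, hwQ, rfl⟩
  obtain ⟨h, h0, hu, hval⟩ := H.loc b Q hCP
  obtain ⟨a, ha, ha'⟩ := H.exists_local hCP h0 hu hval hs0 hs
  obtain ⟨c', d', hd', had⟩ := ha
  obtain ⟨c, d, hc, hd, hcd⟩ := hu
  -- kill the components away from `Q`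
  have hx : ∀ i, ∃ x : X.R b, x ∉ Q ∧
      (X.Through Q i ∨ (X.comp i).AtLeast 1 (x : F)) := fun i => by
    by_cases hi : X.Through Q i
    · exact ⟨1, Q.one_notMem, Or.inl hi⟩
    · simp only [Through, not_forall] at hi
      obtain ⟨x, hx, hxQ⟩ := hi
      exact ⟨x, hxQ, Or.inr ((Comp.redF_eq_zero (X.R_le_comp b i x.2)).mp hx)⟩
  choose x hxQ hx using hx
  set r : X.R b := d' * d
  set e : F := (r * (h * a) - r * s) / s₀ with he
  obtain ⟨N, hN⟩ : ∃ N : ℕ, ∀ i, e = 0 ∨ (K : ℤ) ≤ N + (X.comp i).ord e :=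
    ⟨∑ i : Fin 3, ((K : ℤ) - (X.comp i).ord e).toNat, fun i => Or.inr (by
      have := Finset.single_le_sum (f := fun i : Fin 3 => ((K : ℤ) - (X.comp i).ord e).toNat)
        (fun _ _ => Nat.zero_le _) (Finset.mem_univ i)
      omega)⟩
  set D : X.R b := (x 0 * x 1 * x 2) ^ N
  have hDQ : D * r ∉ Q := fun hm => by
    have hp := hQ.isPrime
    refine (hp.mem_or_mem hm).elim (fun h1 => ?_) fun h1 => (hp.mem_or_mem h1).elim hd' hd
    exact (hp.mem_or_mem (hp.mem_of_pow_mem _ h1)).elim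
      (fun h2 => (hp.mem_or_mem h2).elim (hxQ 0) (hxQ 1)) (hxQ 2)
  refine hDQ (hJQ ⟨D * (r * (h * a)), smul_pow_mul_mem D.2 ?_, fun i => ?_⟩)
  · have : ((r : F) * (h * a)) ^ n * u = (c' : F) ^ n * ((d : F) ^ (n - 1) * c) := by
      rw [← had, ← hcd]
      have hn : (d : F) ^ n = (d : F) ^ (n - 1) * d := by
        rw [← pow_succ]; congr 1; have := H.n_pos; omega
      push_cast [r]
      rw [mul_pow, mul_pow, mul_pow, hn]
      ring
    rw [this]
    exact mul_mem (pow_mem c'.2 _) (mul_mem (pow_mem d.2 _) c.2)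
  · rw [show ((D : F) * ((r : F) * (h * a)) - ((D * r : X.R b) : F) * s) / s₀ = (D : F) * e by
      rw [he]; push_cast; ring]
    rcases hx i with hi | hi
    · have h1 : (X.comp i).AtLeast K e := by
        have h2 := ((ha' i hi).mul_mem (mul_mem (X.R_le_comp b i r.2) (X.W_le i 1 (one_mem _))))
        have hhs : h / s₀ ∈ (X.comp i).V := by
          have hcu := unit_of_notMem hi hc
          have hdu := unit_of_notMem hi hd
          have h3 : (X.comp i).ord (h ^ n * u * d) = 0 := by rw [hcd]; exact hcu.2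
          rw [(X.comp i).ord_mul _ _ (mul_ne_zero (pow_ne_zero _ h0) H.u_ne) hdu.1,
            (X.comp i).ord_mul _ _ (pow_ne_zero _ h0) H.u_ne, (X.comp i).ord_pow h0, hdu.2] at h3
          refine ((X.comp i).mem_iff _ (div_ne_zero h0 H.s_ne)).mpr ?_
          rw [(X.comp i).ord_div h0 H.s_ne]
          have := H.ord_s i
          have := H.n_pos
          nlinarith
        have h4 := h2.mul_mem hhs
        convert h4 using 1
        rw [he]
        field_simp
      rw [mul_comm]; exact h1.mul_mem (X.R_le_comp b i D.2)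
    · rcases hN i with hN | hN
      · exact Or.inl (by rw [hN, mul_zero])
      have h1 : (X.comp i).AtLeast 1 ((x 0 * x 1 * x 2 : X.R b) : F) := by
        have h := hi.prod (x := fun j => ((x j : X.R b) : F)) fun j => X.R_le_comp b i (x j).2
        push_cast
        rwa [Fin.prod_univ_three] at h
      have hD : ((D : X.R b) : F) = ((x 0 * x 1 * x 2 : X.R b) : F) ^ N := SubmonoidClass.coe_pow _ _
      rw [hD]
      exact ((h1.pow N).mul (Or.inr le_rfl : (X.comp i).AtLeast ((X.comp i).ord e) e)).mono hN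

include X in
/-- Denominators of `R false` are polynomials. -/
theorem exists_mul_mem (z : F) : ∃ d : F, d ≠ 0 ∧ d ∈ X.R false ∧ d * z ∈ X.R false := by
  rcases eq_or_ne z 0 with rfl | hz
  · exact ⟨1, one_ne_zero, one_mem _, by simp [zero_mem]⟩
  obtain ⟨N, hN⟩ : ∃ N : ℕ, ∀ i, 0 ≤ (N : ℤ) * (X.comp i).ord (X.w : F) + (X.comp i).ord z :=
    ⟨∑ i : Fin 3, (-(X.comp i).ord z).toNat, fun i => by
      have := Finset.single_le_sum (f := fun i : Fin 3 => (-(X.comp i).ord z).toNat)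
        (fun _ _ => Nat.zero_le _) (Finset.mem_univ i)
      have h1 := Int.self_le_toNat (-(X.comp i).ord z)
      have h2 : ((-(X.comp i).ord z).toNat : ℤ) ≤
          ((∑ i : Fin 3, (-(X.comp i).ord z).toNat : ℕ) : ℤ) := by exact_mod_cast this
      have := X.ord_w i
      nlinarith⟩
  obtain ⟨⟨P, hP⟩, hPz⟩ := X.exists_prim_mul_mem (x := (X.w : F) ^ N * z) fun i =>
    ((X.comp i).mem_iff _ (mul_ne_zero (pow_ne_zero _ X.w_ne) hz)).mpr (by
      rw [(X.comp i).ord_mul _ _ (pow_ne_zero _ X.w_ne) hz, (X.comp i).ord_pow X.w_ne]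
      exact hN i)
  exact ⟨X.evT P * (X.w : F) ^ N, mul_ne_zero (X.gauss 0 P hP).1 (pow_ne_zero _ X.w_ne),
    mul_mem (X.evT_mem_R _) (pow_mem (natCast_mem _ _) _), by rwa [mul_assoc]⟩

include H in
/-- Sections on the first chart have finitely many generators. -/
theorem LocalRoots.exists_section_gens : ∃ g : Finset F, (∀ y ∈ g, y ^ n * u ∈ X.R false) ∧
    ∀ x : F, x ^ n * u ∈ X.R false → ∃ c : F → X.W[X], x = ∑ y ∈ g, X.evT (c y) * y := by
  classical
  obtain ⟨d, hd0, hdR, hdu⟩ := X.exists_mul_mem u⁻¹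
  obtain ⟨s, hs, hgen⟩ := X.exists_gens
  let := X.evT.toAlgebra
  have := X.isNoetherian_poly
  let N : Submodule X.W[X] F := Submodule.span X.W[X] ((fun y => d⁻¹ * y) '' (s : Set F))
  let M : Submodule X.W[X] F :=
    { carrier := {x | x ^ n * u ∈ X.R false}
      zero_mem' := by show (0 : F) ^ n * u ∈ X.R false; rw [zero_pow H.n_pos.ne', zero_mul]; exact zero_mem _
      add_mem' := fun hx hy => add_pow_mul_mem hx hy
      smul_mem' := fun c x hx => smul_pow_mul_mem (X.evT_mem_R c) hx }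
  have hMN : M ≤ N := by
    intro x hx
    have h1 : d * x ∈ X.R false := X.mem_R.mpr fun V hW hT => by
      have h2 : (d * x) ^ n ∈ V := by
        have e : (d * x) ^ n = d ^ (n - 1) * (d * u⁻¹) * (x ^ n * u) := by
          have hn : d ^ n = d ^ (n - 1) * d := by
            rw [← pow_succ]; congr 1; have := H.n_pos; omega
          rw [mul_pow, hn]
          field_simp [H.u_ne]
        rw [e]
        exact mul_mem (mul_mem (pow_mem (X.mem_R.mp hdR V hW hT) _) (X.mem_R.mp hdu V hW hT))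
          (X.mem_R.mp hx V hW hT)
      rcases V.mem_or_inv_mem (d * x) with h | h
      · exact h
      rcases eq_or_ne (d * x) 0 with e | e
      · rw [e]; exact zero_mem _
      have e2 : d * x = (d * x) ^ n * ((d * x)⁻¹) ^ (n - 1) := by
        have : (d * x) ^ n = (d * x) * (d * x) ^ (n - 1) := by
          rw [← pow_succ']; congr 1; have := H.n_pos; omega
        rw [this, mul_assoc, ← mul_pow, mul_inv_cancel₀ e, one_pow, mul_one]
      rw [e2]; exact mul_mem h2 (pow_mem h _)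
    obtain ⟨c, hc⟩ := hgen _ h1
    rw [show x = ∑ y ∈ s, (c y) • (d⁻¹ * y) by
      rw [← inv_mul_cancel_left₀ hd0 x, hc, Finset.mul_sum]
      refine Finset.sum_congr rfl fun y _ => ?_
      show d⁻¹ * (X.evT (c y) * y) = X.evT (c y) * (d⁻¹ * y)
      ring]
    exact sum_mem fun y hy => Submodule.smul_mem _ _ (Submodule.subset_span ⟨y, hy, rfl⟩)
  have hNfg : N.FG := Submodule.fg_span (s.finite_toSet.image _)
  have : IsNoetherian X.W[X] N := isNoetherian_of_fg_of_noetherian N hNfg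
  obtain ⟨g, hg⟩ : M.FG := by
    have h1 : (M.comap N.subtype).FG := IsNoetherian.noetherian _
    have h2 := h1.map N.subtype
    rwa [Submodule.map_comap_subtype, inf_eq_right.mpr hMN] at h2
  refine ⟨g, fun y hy => (hg.le (Submodule.subset_span hy) : y ∈ M), fun x hx => ?_⟩
  obtain ⟨c, -, hc⟩ := Submodule.mem_span_finset.mp (hg.ge (hx : x ∈ M))
  exact ⟨c, hc.symm⟩

include H in
/-- Local roots give a global one. -/
theorem LocalRoots.exists_global : ∃ f : F, f ≠ 0 ∧
    ∀ V : ValuationSubring F, (∀ x ∈ X.W, x ∈ V) → f ^ n * u ∈ V := by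
  classical
  have := X.W_isDVR
  let M : Bool → Submodule X.W F := fun b =>
    { carrier := {x | x ^ n * u ∈ X.R b}
      zero_mem' := by show (0 : F) ^ n * u ∈ X.R b; rw [zero_pow H.n_pos.ne', zero_mul]; exact zero_mem _
      add_mem' := fun hx hy => add_pow_mul_mem hx hy
      smul_mem' := fun c x hx => smul_pow_mul_mem (X.W_le_R b c.2) hx }
  obtain ⟨g, hg, hgen⟩ := H.exists_section_gens
  -- every generator moves to the other chart
  have hj : ∀ y : F, y ∈ g → ∃ j : ℕ, (X.T⁻¹) ^ j * y ∈ M true := fun y hy => by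
    obtain ⟨j, hj⟩ := X.exists_pow_mul_mem true (X.inR2_of_mem false (hg y hy))
    refine ⟨j, ?_⟩
    show (X.T⁻¹ ^ j * y) ^ n * u ∈ X.R true
    have e : (X.T⁻¹ ^ j * y) ^ n * u = X.T⁻¹ ^ (j * n - j) * (X.T⁻¹ ^ j * (y ^ n * u)) := by
      rw [← mul_assoc _ (X.T⁻¹ ^ j), ← pow_add, mul_pow, ← pow_mul, mul_assoc,
        Nat.sub_add_cancel (Nat.le_mul_of_pos_right _ H.n_pos)]
    rw [e]
    exact mul_mem (pow_mem (X.par_mem_R true) _) hj
  choose! j hj using hj
  let E : Submodule X.W F := Submodule.span X.W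
    ((g.biUnion fun y => (Finset.range (j y)).image fun l => X.T⁻¹ ^ l * y : Finset F) : Set F)
  set P : Submodule X.W F := M false ⊔ M true
  -- the sections over the overlap
  have hov : ∀ x : F, X.InR2 (x ^ n * u) → x ∈ P ⊔ E := by
    intro x hx
    obtain ⟨m, hm⟩ := X.exists_pow_mul_mem false hx
    have h1 : (X.T ^ m * x) ^ n * u ∈ X.R false := by
      have e : (X.T ^ m * x) ^ n * u = X.T ^ (m * n - m) * (X.T ^ m * (x ^ n * u)) := by
        rw [← mul_assoc _ (X.T ^ m), ← pow_add, mul_pow, ← pow_mul, mul_assoc,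
          Nat.sub_add_cancel (Nat.le_mul_of_pos_right _ H.n_pos)]
      rw [e]
      exact mul_mem (pow_mem (X.par_mem_R false) _) hm
    obtain ⟨c, hc⟩ := hgen _ h1
    rw [show x = ∑ y ∈ g, (X.T⁻¹) ^ m * (X.evT (c y) * y) by
      rw [← Finset.mul_sum, ← hc, ← mul_assoc, ← mul_pow, inv_mul_cancel₀ X.T_ne, one_pow,
        one_mul]]
    refine sum_mem fun y hy => ?_
    show (X.T⁻¹) ^ m * (eval₂ X.W.subtype X.T (c y) * y) ∈ P ⊔ E
    rw [eval₂_eq_sum_range, Finset.sum_mul, Finset.mul_sum]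
    refine sum_mem fun l _ => ?_
    rw [show X.T⁻¹ ^ m * (X.W.subtype ((c y).coeff l) * X.T ^ l * y) =
      (c y).coeff l • (X.T⁻¹ ^ m * X.T ^ l * y) by rw [Subring.smul_def, smul_eq_mul]; simp; ring]
    refine Submodule.smul_mem _ _ ?_
    rcases le_or_gt m l with hml | hml
    · rw [show X.T⁻¹ ^ m * X.T ^ l = X.T ^ (l - m) by
        rw [← Nat.add_sub_cancel' hml, pow_add, ← mul_assoc, ← mul_pow,
          inv_mul_cancel₀ X.T_ne, one_pow, one_mul, Nat.add_sub_cancel_left]]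
      exact Submodule.mem_sup_left (Submodule.mem_sup_left
        (smul_pow_mul_mem (pow_mem (X.par_mem_R false) _) (hg y hy)))
    · rw [show X.T⁻¹ ^ m * X.T ^ l = X.T⁻¹ ^ (m - l) by
        rw [← Nat.sub_add_cancel hml.le, pow_add, mul_assoc, ← mul_pow,
          inv_mul_cancel₀ X.T_ne, one_pow, mul_one, Nat.add_sub_cancel]]
      rcases lt_or_ge (m - l) (j y) with hlt | hge
      · exact Submodule.mem_sup_right (Submodule.subset_span (Finset.mem_biUnion.mpr
          ⟨y, hy, Finset.mem_image.mpr ⟨m - l, Finset.mem_range.mpr hlt, rfl⟩⟩))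
      · rw [← Nat.sub_add_cancel hge, pow_add, mul_assoc]
        exact Submodule.mem_sup_left (Submodule.mem_sup_right
          (smul_pow_mul_mem (pow_mem (X.par_mem_R true) _) (hj y hy)))
  -- a bound for the torsion of the cokernel
  let T' : ℕ →o Submodule X.W E :=
    { toFun := fun c => (P.comap ((X.wW ^ c) • LinearMap.id (R := X.W) (M := F))).comap E.subtype
      monotone' := fun c c' hcc x hx => by
        show X.wW ^ c' • (x : F) ∈ P
        rw [← Nat.sub_add_cancel hcc, pow_add, mul_smul]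
        exact P.smul_mem _ hx }
  have : IsNoetherian X.W E := isNoetherian_of_fg_of_noetherian E
    (Submodule.fg_span (Finset.finite_toSet _))
  obtain ⟨cb, hcb⟩ := monotone_stabilizes_iff_noetherian.mpr inferInstance T'
  set m := cb + 1
  set K : ℕ := 1 + ∑ i : Fin 3, m * ((X.comp i).ord (X.w : F)).toNat
  obtain ⟨s, hs0, hs⟩ := H.exists_root K
  obtain ⟨f₀, hf₀, hf₀'⟩ := H.exists_chart_approx false hs0 hs
  obtain ⟨f₁, hf₁, hf₁'⟩ := H.exists_chart_approx true hs0 hs
  set z := (f₀ - f₁) / (X.w : F) ^ m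
  have hsu : ∀ i (x : F), x / s₀ ∈ (X.comp i).V → x ^ n * u ∈ (X.comp i).V := fun i x hx => by
    rw [show x ^ n * u = (x / s₀) ^ n * (s₀ ^ n * u) by
      rw [div_pow, ← mul_assoc, div_mul_cancel₀ _ (pow_ne_zero _ H.s_ne)]]
    exact mul_mem (pow_mem hx _) (H.unit i).mem
  have hzmem : ∀ i, z / s₀ ∈ (X.comp i).V := fun i => by
    have h1 := (hf₀' i).sub (hf₁' i)
    rw [← sub_div, sub_sub_sub_cancel_right] at h1
    rcases h1 with h1 | h1
    · rw [show z / s₀ = (f₀ - f₁) / s₀ / (X.w : F) ^ m by ring, h1, zero_div]; exact zero_mem _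
    rcases eq_or_ne (z / s₀) 0 with hz | hz
    · rw [hz]; exact zero_mem _
    refine ((X.comp i).mem_iff _ hz).mpr ?_
    have hne : (f₀ - f₁) / s₀ ≠ 0 := fun e => hz (by
      rw [show z / s₀ = (f₀ - f₁) / s₀ / (X.w : F) ^ m by ring, e, zero_div])
    rw [show z / s₀ = (f₀ - f₁) / s₀ / (X.w : F) ^ m by ring,
      (X.comp i).ord_div hne (pow_ne_zero _ X.w_ne), (X.comp i).ord_pow X.w_ne]
    have h2 : m * ((X.comp i).ord (X.w : F)).toNat ≤ K :=
      le_trans (Finset.single_le_sum (f := fun i : Fin 3 => m * ((X.comp i).ord (X.w : F)).toNat)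
        (fun _ _ => Nat.zero_le _) (Finset.mem_univ i)) (Nat.le_add_left _ _)
    have h3 : (m : ℤ) * (((X.comp i).ord (X.w : F)).toNat : ℤ) ≤ K := by exact_mod_cast h2
    rw [Int.toNat_of_nonneg (X.ord_w i).le] at h3
    linarith
  have hz2 : X.InR2 (z ^ n * u) := by
    have h1 : X.InR2 (((X.w : F) ^ (m * n)) * (z ^ n * u)) := by
      intro V hW hT hT'
      rw [show ((X.w : F) ^ (m * n)) * (z ^ n * u) = (f₀ - f₁) ^ n * u by
        rw [pow_mul, ← mul_assoc, ← mul_pow, mul_div_cancel₀ _ (pow_ne_zero _ X.w_ne)]]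
      have ha := X.mem_R.mp hf₀ V hW hT
      have hb := X.mem_R.mp hf₁ V hW hT'
      rcases eq_or_ne f₁ 0 with e | e
      · rwa [e, sub_zero]
      rcases V.mem_or_inv_mem (f₀ / f₁) with hm | hm
      · rw [show f₀ - f₁ = (f₀ / f₁ - 1) * f₁ by field_simp, mul_pow, mul_assoc]
        exact mul_mem (pow_mem (sub_mem hm (one_mem _)) _) hb
      · rcases eq_or_ne f₀ 0 with e' | e'
        · rw [e', zero_sub, ← neg_one_mul, mul_pow, mul_assoc]
          exact mul_mem (pow_mem (neg_mem (one_mem _)) _) hb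
        rw [inv_div] at hm
        rw [show f₀ - f₁ = (1 - f₁ / f₀) * f₀ by field_simp, mul_pow, mul_assoc]
        exact mul_mem (pow_mem (sub_mem (one_mem _) hm) _) ha
    obtain ⟨l, hl⟩ := X.exists_pow_mul_mem false h1
    have hl' : X.T ^ l * (z ^ n * u) ∈ X.R false := by
      refine X.mem_R_of_mul_mem (fun i => mul_mem (pow_mem (X.T_mem i) _) (hsu i z (hzmem i)))
        (m * n) ?_
      have e : (X.w : F) ^ (m * n) * (X.T ^ l * (z ^ n * u)) =
          X.T ^ l * ((X.w : F) ^ (m * n) * (z ^ n * u)) := mul_left_comm _ _ _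
      rw [e]
      exact hl
    intro V hW hT hT'
    have h2 := mul_mem (pow_mem hT' l) (X.mem_R.mp hl' V hW hT)
    rwa [← mul_assoc, ← mul_pow, inv_mul_cancel₀ X.T_ne, one_pow, one_mul] at h2
  have hwz : X.wW ^ m • z ∈ P := by
    show (((X.wW ^ m : X.W)) : F) * z ∈ P
    rw [SubmonoidClass.coe_pow, show ((X.wW : X.W) : F) = (X.w : F) from rfl,
      mul_div_cancel₀ _ (pow_ne_zero _ X.w_ne)]
    exact sub_mem (Submodule.mem_sup_left hf₀) (Submodule.mem_sup_right hf₁)
  obtain ⟨z₁, hz₁, z₂, hz₂, hz12⟩ := Submodule.mem_sup.mp (hov z hz2)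
  have hz₂' : X.wW ^ m • z₂ ∈ P := by
    rw [show z₂ = z - z₁ by rw [← hz12]; ring, smul_sub]
    exact sub_mem hwz (P.smul_mem _ hz₁)
  have hcz : X.wW ^ cb • z ∈ P := by
    have h1 : (⟨z₂, hz₂⟩ : E) ∈ T' m := hz₂'
    rw [← hcb m (Nat.le_succ cb)] at h1
    rw [← hz12, smul_add]
    exact add_mem (P.smul_mem _ hz₁) h1
  obtain ⟨a₀, ha₀, a₁, ha₁, ha⟩ := Submodule.mem_sup.mp hcz
  have ha' : (X.w : F) ^ cb * z = a₀ + a₁ := by
    rw [ha]
    show _ = ((X.wW ^ cb : X.W) : F) * z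
    rw [SubmonoidClass.coe_pow]; rfl
  set R₀ := (X.w : F) ^ cb * f₀ - (X.w : F) ^ m * a₀ with hR₀
  have hR₀' : R₀ = (X.w : F) ^ cb * f₁ + (X.w : F) ^ m * a₁ := by
    have h1 : f₀ - f₁ = (X.w : F) ^ m * z := (mul_div_cancel₀ _ (pow_ne_zero _ X.w_ne)).symm
    rw [hR₀]
    linear_combination (X.w : F) ^ cb * h1 + (X.w : F) ^ m * ha'
  have hw : ∀ b (l : ℕ), (X.w : F) ^ l ∈ X.R b := fun b l => pow_mem (natCast_mem _ _) l
  refine ⟨R₀, ?_, fun V hW => ?_⟩
  · -- the main term dominates at the component `0`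
    intro e
    set C := X.comp 0
    have hs1 : C.Unit (f₀ / s₀) := by
      have hm : C.AtLeast 1 ((f₀ - s) / s₀) := (hf₀' 0).mono (by exact_mod_cast Nat.le_add_right 1 _)
      have e1 : f₀ / s₀ = (f₀ - s) / s₀ + s / s₀ := by ring
      have hv : (f₀ - s) / s₀ ∈ C.V := C.atLeast_zero_iff.mp (hm.mono zero_le_one)
      refine Comp.unit_of_redF_ne (e1 ▸ add_mem hv (hs 0).2.1.mem) ?_
      rw [e1, Comp.redF_add hv (hs 0).2.1.mem, (Comp.redF_eq_zero hv).mpr hm, (hs 0).2.2, zero_add]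
      exact one_ne_zero
    have hf0 : f₀ ≠ 0 := fun e' => hs1.1 (by rw [e', zero_div])
    have hlhs : C.ord ((X.w : F) ^ cb * (f₀ / s₀)) = cb * C.ord (X.w : F) := by
      rw [C.ord_mul _ _ (pow_ne_zero _ X.w_ne) hs1.1, C.ord_pow X.w_ne, hs1.2, add_zero]
    have heq : (X.w : F) ^ cb * (f₀ / s₀) = (X.w : F) ^ m * (a₀ / s₀) := by
      rw [← mul_div_assoc, ← mul_div_assoc, sub_eq_zero.mp e]
    have ha0 : a₀ / s₀ ≠ 0 := fun e' => mul_ne_zero (pow_ne_zero cb X.w_ne) hs1.1 (by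
      rw [heq, e', mul_zero])
    have hnn : 0 ≤ C.ord (a₀ / s₀) := by
      have h1 : (a₀ / s₀) ^ n * (s₀ ^ n * u) ∈ C.V := by
        rw [div_pow, ← mul_assoc, div_mul_cancel₀ _ (pow_ne_zero _ H.s_ne)]
        exact X.R_le_comp false 0 ha₀
      have h2 := (C.mem_iff _ (mul_ne_zero (pow_ne_zero _ ha0) (H.unit 0).1)).mp h1
      rw [C.ord_mul _ _ (pow_ne_zero _ ha0) (H.unit 0).1, C.ord_pow ha0, (H.unit 0).2,
        add_zero] at h2
      exact (mul_nonneg_iff_of_pos_left (by exact_mod_cast H.n_pos)).mp h2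
    rw [heq, C.ord_mul _ _ (pow_ne_zero _ X.w_ne) ha0, C.ord_pow X.w_ne] at hlhs
    have := X.ord_w 0
    push_cast [m] at hlhs
    nlinarith
  · rcases V.mem_or_inv_mem X.T with hT | hT
    · exact X.mem_R.mp (show R₀ ^ n * u ∈ X.R false by
        rw [hR₀, sub_eq_add_neg, ← mul_neg]
        exact add_pow_mul_mem (smul_pow_mul_mem (hw _ _) hf₀)
          (smul_pow_mul_mem (hw _ _) ((M false).neg_mem ha₀))) V hW hT
    · exact X.mem_R.mp (show R₀ ^ n * u ∈ X.R true by
        rw [hR₀']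
        exact add_pow_mul_mem (smul_pow_mul_mem (hw _ _) hf₁)
          (smul_pow_mul_mem (hw _ _) ha₁)) V hW hT

end Chart

end Fermat.Agent.SquareOld

end
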