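import Fermat.Agent.SquareOld.Basic

/-!
# The integral closures of the two charts

Finiteness of the integral closure of `W[T]`, clearing of denominators, and normality: an element
integral away from the closed fibre and at the three components is integral.
-/

set_option autoImplicit false

noncomputable section

open Polynomial

namespace Fermat.Agent.SquareOld

/-- A root of a monic relation over a valuation subring belongs to it. -/
theorem mem_of_monic_relation {F : Type*} [Field F] (V : ValuationSubring F) {d : ℕ} (c : ℕ → F)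
    {y : F} (hc : ∀ i < d, c i ∈ V) (h : y ^ d + ∑ i ∈ Finset.range d, c i * y ^ i = 0) :
    y ∈ V := by
  by_contra hy
  have hy0 : y ≠ 0 := fun e => hy (e ▸ zero_mem V)
  have hn : y⁻¹ ∈ V.nonunits := V.inv_mem_nonunits_iff.mpr (Or.inr hy)
  have hi : y⁻¹ ∈ V := (V.mem_or_inv_mem y).resolve_left hy
  have h1 : (1 : F) = y⁻¹ * -∑ i ∈ Finset.range d, c i * (y⁻¹) ^ (d - (i + 1)) := by
    have h2 : y ^ d ≠ 0 := pow_ne_zero _ hy0
    refine mul_right_cancel₀ h2 ?_
    rw [one_mul, mul_neg, neg_mul, eq_neg_iff_add_eq_zero, Finset.mul_sum, Finset.sum_mul]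
    refine Eq.trans ?_ h
    refine congrArg _ (Finset.sum_congr rfl fun i hi' => ?_)
    have hid : i < d := Finset.mem_range.mp hi'
    have e : y ^ d = y ^ (d - (i + 1)) * y * y ^ i := by
      rw [mul_assoc, ← pow_succ', ← pow_add]; congr 1; omega
    calc y⁻¹ * (c i * y⁻¹ ^ (d - (i + 1))) * y ^ d
        = y⁻¹ * (c i * y⁻¹ ^ (d - (i + 1))) * (y ^ (d - (i + 1)) * y * y ^ i) := by rw [← e]
      _ = c i * (y⁻¹ ^ (d - (i + 1)) * y ^ (d - (i + 1))) * (y⁻¹ * y) * y ^ i := by ring
      _ = c i * y ^ i := by rw [← mul_pow, inv_mul_cancel₀ hy0, one_pow, mul_one, mul_one]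
  have hs : -∑ i ∈ Finset.range d, c i * (y⁻¹) ^ (d - (i + 1)) ∈ V :=
    neg_mem (sum_mem fun i hi' => mul_mem (hc i (Finset.mem_range.mp hi')) (pow_mem hi _))
  have hone : (1 : F) ∈ V.nonunits := by
    rw [h1]
    rw [ValuationSubring.mem_nonunits_iff, map_mul]
    exact mul_lt_one_of_lt_of_le hn ((V.valuation_le_one_iff _).mpr hs)
  rw [ValuationSubring.mem_nonunits_iff, map_one] at hone
  exact lt_irrefl _ hone

/-- If every coefficient can be cleared by an element of a submonoid, so can a root of a monic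
relation. -/
theorem exists_clear_root {F : Type*} [Field F] {ι : Type*} (base : ι → F) (comb : ι → ι → ι)
    (hcomb : ∀ a b, base (comb a b) = base a * base b) (one : ι)
    (R : Subring F) (hbase : ∀ a, base a ∈ R)
    (hR : ∀ {d : ℕ} (c : ℕ → F) {y : F}, (∀ i < d, c i ∈ R) →
      y ^ d + ∑ i ∈ Finset.range d, c i * y ^ i = 0 → y ∈ R)
    {d : ℕ} (c : ℕ → F) {x : F} (hc : ∀ i < d, ∃ a, base a * c i ∈ R)
    (h : x ^ d + ∑ i ∈ Finset.range d, c i * x ^ i = 0) : ∃ a, base a * x ∈ R := by
  classical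
  obtain ⟨a, ha⟩ : ∃ a, ∀ i < d, base a * c i ∈ R := by
    induction d with
    | zero => exact ⟨one, fun i hi => absurd hi (Nat.not_lt_zero i)⟩
    | succ d ih =>
      suffices hs : ∀ e, e ≤ d + 1 → ∃ a, ∀ i < e, base a * c i ∈ R from hs _ le_rfl
      intro e
      induction e with
      | zero => exact fun _ => ⟨one, fun i hi => absurd hi (Nat.not_lt_zero i)⟩
      | succ e ihe =>
        intro he
        obtain ⟨a, ha⟩ := ihe (by omega)
        obtain ⟨b, hb⟩ := hc e (by omega)
        refine ⟨comb a b, fun i hi => ?_⟩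
        rw [hcomb]
        rcases Nat.lt_succ_iff_lt_or_eq.mp hi with hi' | rfl
        · rw [mul_comm (base a), mul_assoc]; exact mul_mem (hbase b) (ha i hi')
        · rw [mul_assoc]; exact mul_mem (hbase a) hb
  refine ⟨a, hR (d := d) (fun i => c i * base a ^ (d - i)) (fun i hi => ?_) ?_⟩
  · obtain ⟨e, he⟩ : ∃ e, d - i = e + 1 := ⟨d - i - 1, by omega⟩
    rw [he, pow_succ, mul_comm, mul_assoc]
    exact mul_mem (pow_mem (hbase a) e) (by simpa [mul_comm] using ha i hi)
  · have e : ∀ i ∈ Finset.range d, c i * base a ^ (d - i) * (base a * x) ^ i =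
        base a ^ d * (c i * x ^ i) := fun i hi => by
      have hid : i < d := Finset.mem_range.mp hi
      rw [mul_pow, show base a ^ d = base a ^ (d - i) * base a ^ i by
        rw [← pow_add]; congr 1; omega]
      ring
    rw [Finset.sum_congr rfl e, ← Finset.mul_sum, mul_pow, ← mul_add, h, mul_zero]

namespace Chart

variable {k : Type*} [Field k] {F : Type*} [Field F] {G : Type*} [Field G] [Algebra k G]
  (X : Chart k F G)

/-- A monic relation over `R b` stays in `R b`. -/
theorem R_closed (b : Bool) {d : ℕ} (c : ℕ → F) {y : F} (hc : ∀ i < d, c i ∈ X.R b)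
    (h : y ^ d + ∑ i ∈ Finset.range d, c i * y ^ i = 0) : y ∈ X.R b :=
  X.mem_R.mpr fun V hW hT => mem_of_monic_relation V c (fun i hi => X.mem_R.mp (hc i hi) V hW hT) h

/-- Monic relations with coefficients in a subring, from integrality. -/
theorem exists_relation {S : Subring F} {x : F} (hx : IsIntegral S x) :
    ∃ (d : ℕ) (c : ℕ → F), (∀ i < d, c i ∈ S) ∧
      x ^ d + ∑ i ∈ Finset.range d, c i * x ^ i = 0 := by
  obtain ⟨p, hp, hpx⟩ := hx
  refine ⟨p.natDegree, fun i => (p.coeff i : F), fun i _ => SetLike.coe_mem _, ?_⟩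
  have h := hp.as_sum
  rw [h, eval₂_add, eval₂_pow, eval₂_X, eval₂_finsetSum] at hpx
  refine Eq.trans ?_ hpx
  refine congrArg _ (Finset.sum_congr rfl fun i _ => ?_)
  rw [eval₂_mul, eval₂_C, eval₂_pow, eval₂_X]
  rfl

theorem isIntegral_closure {s : Set F} {x : F}
    (h : ∀ V : ValuationSubring F, s ⊆ (V : Set F) → x ∈ V) :
    IsIntegral (Subring.closure s) x := by
  have : x ∈ (integralClosure (Subring.closure s) F).toSubring := by
    rw [← iInf_valuationSubring_superset, Subring.mem_iInf]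
    exact fun V => h V.1 V.2
  exact this

/-- Integral over `W[T, 1/T]`. -/
def InR2 (x : F) : Prop :=
  ∀ V : ValuationSubring F, (∀ y ∈ X.W, y ∈ V) → X.T ∈ V → X.T⁻¹ ∈ V → x ∈ V

theorem inR2_of_mem (b : Bool) {x : F} (hx : x ∈ X.R b) : X.InR2 x := fun V hW hT hT' =>
  X.mem_R.mp hx V hW (by cases b <;> assumption)

/-- Denominators of `W[T, 1/T]` clear. -/
theorem exists_pow_mul_mem (b : Bool) {x : F} (hx : X.InR2 x) :
    ∃ j : ℕ, X.par b ^ j * x ∈ X.R b := by
  have hp : X.par b ≠ 0 := by cases b <;> simp [par, X.T_ne]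
  let S : Subring F :=
    { carrier := {y | ∃ j : ℕ, X.par b ^ j * y ∈ X.R b}
      zero_mem' := ⟨0, by simp [zero_mem]⟩
      one_mem' := ⟨0, by simp [one_mem]⟩
      add_mem' := by
        rintro y z ⟨i, hi⟩ ⟨j, hj⟩
        refine ⟨i + j, ?_⟩
        rw [show X.par b ^ (i + j) * (y + z) =
          X.par b ^ j * (X.par b ^ i * y) + X.par b ^ i * (X.par b ^ j * z) by ring]
        exact add_mem (mul_mem (pow_mem (X.par_mem_R b) _) hi)
          (mul_mem (pow_mem (X.par_mem_R b) _) hj)
      mul_mem' := by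
        rintro y z ⟨i, hi⟩ ⟨j, hj⟩
        refine ⟨i + j, ?_⟩
        rw [show X.par b ^ (i + j) * (y * z) = (X.par b ^ i * y) * (X.par b ^ j * z) by ring]
        exact mul_mem hi hj
      neg_mem' := by
        rintro y ⟨i, hi⟩
        exact ⟨i, by rw [mul_neg]; exact neg_mem hi⟩ }
  have hS : Subring.closure ((X.W : Set F) ∪ {X.T, X.T⁻¹}) ≤ S := by
    refine Subring.closure_le.mpr (Set.union_subset (fun y hy => ⟨0, by simpa using X.W_le_R b hy⟩) ?_)
    have h0 : X.par b ∈ S := ⟨0, by simpa using X.par_mem_R b⟩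
    have h1 : (X.par b)⁻¹ ∈ S := ⟨1, by rw [pow_one, mul_inv_cancel₀ hp]; exact one_mem _⟩
    rintro y (rfl | rfl) <;> cases b
    · simpa [par] using h0
    · simpa [par, inv_inv] using h1
    · simpa [par] using h1
    · simpa [par] using h0
  obtain ⟨d, c, hc, hrel⟩ := exists_relation (isIntegral_closure
    (s := (X.W : Set F) ∪ {X.T, X.T⁻¹}) fun V hV =>
      hx V (fun y hy => hV (Or.inl hy)) (hV (Or.inr (Or.inl rfl))) (hV (Or.inr (Or.inr rfl))))
  exact exists_clear_root (fun j : ℕ => X.par b ^ j) (· + ·) (fun a a' => pow_add _ a a') 0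
    (X.R b) (fun a => pow_mem (X.par_mem_R b) a) (X.R_closed b) c
    (fun i hi => hS (hc i hi)) hrel

/-- Evaluation at `T`. -/
def evT : X.W[X] →+* F := eval₂RingHom X.W.subtype X.T

theorem evT_injective : Function.Injective X.evT :=
  (injective_iff_map_eq_zero _).mpr fun P hP => X.T_transcendental P hP

theorem evT_mem_R (P : X.W[X]) : X.evT P ∈ X.R false := by
  show eval₂ X.W.subtype X.T P ∈ X.R false
  rw [eval₂_eq_sum_range]
  exact sum_mem fun i _ => mul_mem (X.W_le_R false (SetLike.coe_mem _))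
    (pow_mem (X.par_mem_R false) _)

/-- Some coefficient is a unit. -/
def Prim (P : X.W[X]) : Prop := ∃ l, IsUnit (P.coeff l)

/-- The uniformiser. -/
def wW : X.W := ⟨(X.w : F), X.w_mem_W⟩

theorem wW_ne : X.wW ≠ 0 := fun e => X.w_ne (congrArg Subtype.val e)

theorem wW_prime : Prime X.wW := by
  refine ⟨X.wW_ne, X.w_ne_unit, fun a b hab => ?_⟩
  by_contra hcon
  push Not at hcon
  have hu : ∀ a : X.W, ¬ X.wW ∣ a → IsUnit a := fun a ha => by
    by_contra hn
    obtain ⟨y, hy⟩ := (X.W_maximal a).mp hn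
    exact ha ⟨y, by rw [hy]; exact congrArg (· * y) (Subtype.ext (map_natCast X.W.subtype X.w))⟩
  exact X.w_ne_unit (isUnit_of_dvd_unit hab ((hu a hcon.1).mul (hu b hcon.2)))

theorem prim_iff (P : X.W[X]) : X.Prim P ↔ ¬ C X.wW ∣ P := by
  rw [C_dvd_iff_dvd_coeff]
  push Not
  refine exists_congr fun l => ⟨fun hu hd => X.w_ne_unit (isUnit_of_dvd_unit hd hu), fun hd => ?_⟩
  by_contra hn
  obtain ⟨y, hy⟩ := (X.W_maximal _).mp hn
  exact hd ⟨y, by rw [hy]; exact congrArg (· * y) (Subtype.ext (map_natCast X.W.subtype X.w).symm).symm⟩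

theorem prim_mul {P Q : X.W[X]} (hP : X.Prim P) (hQ : X.Prim Q) : X.Prim (P * Q) := by
  rw [prim_iff] at *
  exact fun h => ((prime_C_iff.mpr X.wW_prime).dvd_or_dvd h).elim hP hQ

theorem prim_one : X.Prim 1 := ⟨0, by simp⟩

theorem isNoetherian_poly : IsNoetherianRing X.W[X] :=
  have := X.W_isDVR
  inferInstance

theorem exists_prim_factor {P : X.W[X]} (hP : P ≠ 0) :
    ∃ (a : ℕ) (Q : X.W[X]), X.Prim Q ∧ P = C X.wW ^ a * Q := by
  have := X.W_isDVR
  have := X.isNoetherian_poly
  obtain ⟨a, Q, hQ, e⟩ := WfDvdMonoid.max_power_factor hP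
    (prime_C_iff.mpr X.wW_prime).irreducible
  exact ⟨a, Q, (X.prim_iff Q).mpr hQ, e⟩

theorem evT_C (x : X.W) : X.evT (C x) = (x : F) := eval₂_C _ _

theorem evT_X : X.evT Polynomial.X = X.T := eval₂_X _ _

/-- An element integral at the three components is cleared by a primitive polynomial. -/
theorem exists_prim_mul_mem {x : F} (hx : ∀ i, x ∈ (X.comp i).V) :
    ∃ P : {P : X.W[X] // X.Prim P}, X.evT P * x ∈ X.R false := by
  let s : Set F := (X.W : Set F) ∪ {X.T} ∪
    Set.range fun P : {P : X.W[X] // X.Prim P} => (X.evT P)⁻¹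
  let S : Subring F :=
    { carrier := {y | ∃ P : {P : X.W[X] // X.Prim P}, X.evT P * y ∈ X.R false}
      zero_mem' := ⟨⟨1, X.prim_one⟩, by simp [zero_mem]⟩
      one_mem' := ⟨⟨1, X.prim_one⟩, by simp [one_mem]⟩
      add_mem' := by
        rintro y z ⟨P, hP⟩ ⟨Q, hQ⟩
        refine ⟨⟨P.1 * Q.1, X.prim_mul P.2 Q.2⟩, ?_⟩
        rw [map_mul, show X.evT P * X.evT Q * (y + z) =
          X.evT Q * (X.evT P * y) + X.evT P * (X.evT Q * z) by ring]
        exact add_mem (mul_mem (X.evT_mem_R _) hP) (mul_mem (X.evT_mem_R _) hQ)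
      mul_mem' := by
        rintro y z ⟨P, hP⟩ ⟨Q, hQ⟩
        refine ⟨⟨P.1 * Q.1, X.prim_mul P.2 Q.2⟩, ?_⟩
        rw [map_mul, show X.evT P * X.evT Q * (y * z) = (X.evT P * y) * (X.evT Q * z) by ring]
        exact mul_mem hP hQ
      neg_mem' := by
        rintro y ⟨P, hP⟩
        exact ⟨P, by rw [mul_neg]; exact neg_mem hP⟩ }
  have hprim0 : ∀ P : {P : X.W[X] // X.Prim P}, X.evT P ≠ 0 := fun P =>
    (X.gauss 0 P.1 P.2).1
  have hS : Subring.closure s ≤ S := by
    refine Subring.closure_le.mpr (Set.union_subset (Set.union_subset (fun y hy =>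
      ⟨⟨1, X.prim_one⟩, by simpa using X.W_le_R false hy⟩) ?_) ?_)
    · rintro y rfl
      exact ⟨⟨1, X.prim_one⟩, by simpa [par] using X.par_mem_R false⟩
    · rintro y ⟨P, rfl⟩
      exact ⟨P, by rw [mul_inv_cancel₀ (hprim0 P)]; exact one_mem _⟩
  have hint : IsIntegral (Subring.closure s) x := isIntegral_closure fun V hV => by
    have hW : ∀ y ∈ X.W, y ∈ V := fun y hy => hV (Or.inl (Or.inl hy))
    have hT : X.T ∈ V := hV (Or.inl (Or.inr rfl))
    have hP : ∀ P : X.W[X], X.Prim P → (X.evT P)⁻¹ ∈ V := fun P hP => hV (Or.inr ⟨⟨P, hP⟩, rfl⟩)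
    by_cases hw : (X.w : F) ∈ V.nonunits
    · obtain ⟨i, hi⟩ := X.ext_gauss V hW hT hw hP
      exact hi (hx i)
    · have hwi : (X.w : F)⁻¹ ∈ V := by
        by_contra hne
        exact hw (by simpa using V.inv_mem_nonunits_iff.mpr (Or.inr hne))
      let A : Subring F := (X.evT).range
      have hA : ∀ y ∈ A, y ∈ V := by
        rintro y ⟨P, rfl⟩
        show eval₂ X.W.subtype X.T P ∈ V
        rw [eval₂_eq_sum_range]
        exact sum_mem fun i _ => mul_mem (hW _ (SetLike.coe_mem _)) (pow_mem hT _)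
      have hAi : ∀ y ∈ A, y⁻¹ ∈ V := by
        rintro y ⟨P, rfl⟩
        rcases eq_or_ne P 0 with rfl | hP0
        · simp [zero_mem]
        obtain ⟨a, Q, hQ, rfl⟩ := X.exists_prim_factor hP0
        rw [map_mul, map_pow, evT_C, mul_inv, ← inv_pow]
        exact mul_mem (pow_mem hwi _) (hP Q hQ)
      have hK : ∀ y ∈ Subfield.closure ((X.W : Set F) ∪ {X.T}), y ∈ V := by
        intro y hy
        obtain ⟨a, ha, b, hb, rfl⟩ := Subfield.mem_closure_iff.mp hy
        have hle : Subring.closure ((X.W : Set F) ∪ {X.T}) ≤ A := Subring.closure_le.mpr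
          (Set.union_subset (fun z hz => ⟨C ⟨z, hz⟩, X.evT_C _⟩)
            (by rintro z rfl; exact ⟨Polynomial.X, X.evT_X⟩))
        rw [div_eq_mul_inv]
        exact mul_mem (hA a (hle ha)) (hAi b (hle hb))
      have := X.finite
      have hxi : IsIntegral (Subfield.closure ((X.W : Set F) ∪ {X.T})) x :=
        IsIntegral.of_finite _ x
      obtain ⟨p, hp, hpx⟩ := hxi
      refine mem_of_monic_relation V (d := p.natDegree) (fun i => (p.coeff i : F))
        (fun i _ => hK _ (SetLike.coe_mem _)) ?_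
      have h := hp.as_sum
      rw [h, eval₂_add, eval₂_pow, eval₂_X, eval₂_finsetSum] at hpx
      refine Eq.trans ?_ hpx
      refine congrArg _ (Finset.sum_congr rfl fun i _ => ?_)
      rw [eval₂_mul, eval₂_C, eval₂_pow, eval₂_X]
      rfl
  obtain ⟨d, c, hc, hrel⟩ := exists_relation hint
  exact exists_clear_root (fun P : {P : X.W[X] // X.Prim P} => X.evT P)
    (fun P Q => ⟨P.1 * Q.1, X.prim_mul P.2 Q.2⟩) (fun P Q => map_mul _ _ _) ⟨1, X.prim_one⟩
    (X.R false) (fun P => X.evT_mem_R _) (X.R_closed false) c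
    (fun i hi => hS (hc i hi)) hrel

/-- Membership in `R false` is integrality over `W[T]`. -/
theorem isIntegral_iff {x : F} :
    x ∈ X.R false ↔ X.evT.IsIntegralElem x := by
  constructor
  · intro hx
    obtain ⟨d, c, hc, hrel⟩ := exists_relation (isIntegral_closure
      (s := (X.W : Set F) ∪ {X.T}) fun V hV =>
        X.mem_R.mp hx V (fun y hy => hV (Or.inl hy)) (hV (Or.inr rfl)))
    have hle : Subring.closure ((X.W : Set F) ∪ {X.T}) ≤ X.evT.range := Subring.closure_le.mpr
      (Set.union_subset (fun z hz => ⟨C ⟨z, hz⟩, X.evT_C _⟩)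
        (by rintro z rfl; exact ⟨Polynomial.X, X.evT_X⟩))
    choose P hP using fun i : Fin d => hle (hc i i.2)
    refine ⟨Polynomial.X ^ d + ∑ i : Fin d, C (P i) * Polynomial.X ^ (i : ℕ),
      monic_X_pow_add ((degree_sum_fin_lt fun i => P i)), ?_⟩
    rw [eval₂_add, eval₂_pow, eval₂_X, eval₂_finsetSum, ← hrel, Finset.sum_range]
    refine congrArg _ (Finset.sum_congr rfl fun i _ => ?_)
    rw [eval₂_mul, eval₂_C, eval₂_pow, eval₂_X, hP]
  · rintro ⟨p, hp, hpx⟩
    refine X.R_closed false (d := p.natDegree) (fun i => X.evT (p.coeff i))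
      (fun i _ => X.evT_mem_R _) ?_
    have h := hp.as_sum
    rw [h, eval₂_add, eval₂_pow, eval₂_X, eval₂_finsetSum] at hpx
    refine Eq.trans ?_ hpx
    refine congrArg _ (Finset.sum_congr rfl fun i _ => ?_)
    rw [eval₂_mul, eval₂_C, eval₂_pow, eval₂_X]

theorem isIntegrallyClosed_poly : IsIntegrallyClosed X.W[X] :=
  have := X.W_isDVR
  inferInstance

theorem finiteDimensional_fraction :
    letI := X.evT.toAlgebra
    haveI : FaithfulSMul X.W[X] F := (faithfulSMul_iff_algebraMap_injective _ _).mpr X.evT_injective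
    letI := FractionRing.liftAlgebra X.W[X] F
    FiniteDimensional (FractionRing X.W[X]) F := by
  let := X.evT.toAlgebra
  have : FaithfulSMul X.W[X] F := (faithfulSMul_iff_algebraMap_injective _ _).mpr X.evT_injective
  let := FractionRing.liftAlgebra X.W[X] F
  have := FractionRing.isScalarTower_liftAlgebra X.W[X] F
  have := X.finite
  obtain ⟨s, hs⟩ := Module.finite_def.mp X.finite
  refine Module.finite_def.mpr ⟨s, top_le_iff.mp ?_⟩
  intro x _
  have hle : Subfield.closure ((X.W : Set F) ∪ {X.T}) ≤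
      (algebraMap (FractionRing X.W[X]) F).fieldRange := by
    refine Subfield.closure_le.mpr (Set.union_subset (fun z hz => ?_) ?_)
    · exact ⟨algebraMap X.W[X] _ (C ⟨z, hz⟩),
        by rw [← IsScalarTower.algebraMap_apply]; exact X.evT_C _⟩
    · rintro z rfl
      exact ⟨algebraMap X.W[X] _ Polynomial.X,
        by rw [← IsScalarTower.algebraMap_apply]; exact X.evT_X⟩
  have hx : x ∈ Submodule.span (Subfield.closure ((X.W : Set F) ∪ {X.T})) (s : Set F) :=
    hs ▸ Submodule.mem_top
  induction hx using Submodule.span_induction with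
  | mem y hy => exact Submodule.subset_span hy
  | zero => exact zero_mem _
  | add y z _ _ hy hz => exact add_mem (hy trivial) (hz trivial)
  | smul a y _ hy =>
    obtain ⟨a', ha'⟩ := hle a.2
    have e : a • y = a' • y := by rw [Algebra.smul_def, Algebra.smul_def, ha']; rfl
    rw [e]
    exact Submodule.smul_mem _ _ (hy trivial)

/-- Scaling a root by a nonzero scalar scales the minimal polynomial. -/
theorem coeff_minpoly_mul {K L : Type*} [Field K] [Field L] [Algebra K L] {z : L}
    (hz : IsIntegral K z) {a : K} (ha : a ≠ 0) (l : ℕ) :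
    (minpoly K (algebraMap K L a * z)).coeff l =
      (minpoly K z).coeff l * a ^ ((minpoly K z).natDegree - l) := by
  have e : (minpoly K z).scaleRoots a = minpoly K (algebraMap K L a * z) := by
    refine minpoly.unique K _ ((monic_scaleRoots_iff a).mpr (minpoly.monic hz))
      (scaleRoots_aeval_eq_zero (minpoly.aeval K z)) fun q hq hq0 => ?_
    rw [degree_scaleRoots, degree_eq_natDegree (minpoly.ne_zero hz), degree_eq_natDegree hq.ne_zero,
      Nat.cast_le, ← natDegree_scaleRoots q a⁻¹]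
    refine natDegree_le_of_dvd (minpoly.dvd K z ?_) (((monic_scaleRoots_iff a⁻¹).mpr hq).ne_zero)
    have h := scaleRoots_aeval_eq_zero (r := a⁻¹) hq0
    rwa [map_inv₀, ← mul_assoc, inv_mul_cancel₀
      ((map_ne_zero (algebraMap K L)).mpr ha), one_mul] at h
  rw [← e, coeff_scaleRoots]

/-- Normality: an element integral at the three components and away from the closed fibre is
integral. -/
theorem mem_R_of_mul_mem {x : F} (hx : ∀ i, x ∈ (X.comp i).V) (N : ℕ)
    (hN : (X.w : F) ^ N * x ∈ X.R false) : x ∈ X.R false := by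
  obtain ⟨⟨Q, hQ⟩, hQx⟩ := X.exists_prim_mul_mem hx
  let := X.evT.toAlgebra
  have : FaithfulSMul X.W[X] F := (faithfulSMul_iff_algebraMap_injective _ _).mpr X.evT_injective
  let := FractionRing.liftAlgebra X.W[X] F
  have := FractionRing.isScalarTower_liftAlgebra X.W[X] F
  have := X.finiteDimensional_fraction
  have := X.isIntegrallyClosed_poly
  set K := FractionRing X.W[X]
  have hz : IsIntegral K x := IsIntegral.of_finite _ _
  set p := minpoly K x
  have key : ∀ a : X.W[X], a ≠ 0 → X.evT a * x ∈ X.R false → ∀ l, ∃ α : X.W[X],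
      p.coeff l * algebraMap X.W[X] K a ^ (p.natDegree - l) = algebraMap X.W[X] K α := by
    intro a ha hax l
    have hint : IsIntegral X.W[X] (X.evT a * x) := X.isIntegral_iff.mp hax
    have ha' : algebraMap X.W[X] K a ≠ 0 :=
      (map_ne_zero_iff _ (IsFractionRing.injective _ _)).mpr ha
    have e := coeff_minpoly_mul hz ha' l
    rw [← IsScalarTower.algebraMap_apply, show (algebraMap X.W[X] F) a = X.evT a from rfl,
      minpoly.isIntegrallyClosed_eq_field_fractions' K hint, coeff_map] at e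
    exact ⟨_, e.symm⟩
  have hw0 : (C X.wW : X.W[X]) ≠ 0 := C_ne_zero.mpr X.wW_ne
  have hQ0 : Q ≠ 0 := fun e => (X.prim_iff Q).mp hQ (e ▸ dvd_zero _)
  have hcoef : ∀ l, ∃ α : X.W[X], p.coeff l = algebraMap X.W[X] K α := by
    intro l
    obtain ⟨α, hα⟩ := key (C X.wW ^ N) (pow_ne_zero _ hw0) (by rwa [map_pow, evT_C]) l
    obtain ⟨β, hβ⟩ := key Q hQ0 hQx l
    set e := p.natDegree - l
    have h1 : α * Q ^ e = β * (C X.wW ^ N) ^ e := by
      apply IsFractionRing.injective X.W[X] K
      simp only [map_mul, map_pow] at hα hβ ⊢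
      rw [← hα, ← hβ]; ring
    have h2 : C X.wW ^ (N * e) ∣ α := by
      refine (prime_C_iff.mpr X.wW_prime).pow_dvd_of_dvd_mul_right _ (fun h => ?_)
        ⟨β, by rw [h1, pow_mul]; ring⟩
      exact (X.prim_iff Q).mp hQ ((prime_C_iff.mpr X.wW_prime).dvd_of_dvd_pow h)
    obtain ⟨γ, rfl⟩ := h2
    refine ⟨γ, mul_right_cancel₀ (pow_ne_zero e ((map_ne_zero_iff _
      (IsFractionRing.injective _ _)).mpr (pow_ne_zero N hw0))) ?_⟩
    rw [hα, map_mul, map_pow, map_pow, ← pow_mul, mul_comm]
  choose α hα using hcoef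
  refine X.R_closed false (d := p.natDegree) (fun i => X.evT (α i)) (fun i _ => X.evT_mem_R _) ?_
  have h := minpoly.aeval K x
  rw [(minpoly.monic hz).as_sum, map_add, map_pow, aeval_X, map_sum] at h
  refine Eq.trans ?_ h
  refine congrArg _ (Finset.sum_congr rfl fun i _ => ?_)
  rw [map_mul, aeval_C, map_pow, aeval_X, hα, ← IsScalarTower.algebraMap_apply]
  rfl

/-- The integral closure of `W[T]` is a finite module. -/
theorem exists_gens : ∃ s : Finset F, (∀ y ∈ s, y ∈ X.R false) ∧
    ∀ x ∈ X.R false, ∃ c : F → X.W[X], x = ∑ y ∈ s, X.evT (c y) * y := by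
  classical
  let := X.evT.toAlgebra
  have : FaithfulSMul X.W[X] F := (faithfulSMul_iff_algebraMap_injective _ _).mpr X.evT_injective
  let := FractionRing.liftAlgebra X.W[X] F
  have := FractionRing.isScalarTower_liftAlgebra X.W[X] F
  have := X.finiteDimensional_fraction
  have := X.isIntegrallyClosed_poly
  have := X.isNoetherian_poly
  have := X.charZero
  have : CharZero (FractionRing X.W[X]) :=
    (RingHom.charZero_iff (algebraMap (FractionRing X.W[X]) F).injective).mpr inferInstance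
  have : Algebra.IsSeparable (FractionRing X.W[X]) F := inferInstance
  have hfin : Module.Finite X.W[X] (integralClosure X.W[X] F) :=
    IsIntegralClosure.finite X.W[X] (FractionRing X.W[X]) F (integralClosure X.W[X] F)
  obtain ⟨s, hs⟩ := (Module.Finite.iff_fg (N := (integralClosure X.W[X] F).toSubmodule)).mp hfin
  refine ⟨s, fun y hy => X.isIntegral_iff.mpr ?_, fun x hx => ?_⟩
  · exact (hs.le (Submodule.subset_span hy) : y ∈ (integralClosure X.W[X] F).toSubmodule)
  · have hx' : x ∈ Submodule.span X.W[X] (s : Set F) :=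
      hs.ge (X.isIntegral_iff.mp hx : x ∈ (integralClosure X.W[X] F).toSubmodule)
    obtain ⟨c, -, hc⟩ := Submodule.mem_span_finset.mp hx'
    exact ⟨c, hc.symm⟩

end Chart

end Fermat.Agent.SquareOld

end
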