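import Fermat.Agent.SquareOld.Criterion
import Fermat.Agent.LevelP.RegularUFD

/-!
# A factorial local ring from one branch with a principal ideal

If an element `s` of the local ring at a closed point divides a power of `w`, has order one at one
component through the point and is a unit at the others, it generates the kernel of the reduction
there; if that reduction is onto the ring of the branch, a discrete valuation ring, the local ring is
factorial.
-/

set_option autoImplicit false

noncomputable section

namespace Fermat.Agent.SquareOld.Chart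

open IsLocalRing

variable {k : Type*} [Field k] {F : Type*} [Field F] {G : Type*} [Field G] [Algebra k G]
  {X : Chart k F G} {b : Bool} {Q : Ideal (X.R b)} [Q.IsPrime]

/-- Reduction of the local ring to the ring of a branch. -/
def redLocal {i : Fin 3} {O : ValuationSubring G} (h : X.Centred b Q i O) :
    localAt b Q →+* O where
  toFun x := ⟨(X.comp i).redF (x : F), (red_localAt_mem h x.2).2⟩
  map_one' := Subtype.ext Comp.redF_one
  map_mul' x y := Subtype.ext
    (Comp.redF_mul (red_localAt_mem h x.2).1 (red_localAt_mem h y.2).1)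
  map_zero' := Subtype.ext ((Comp.redF_eq_zero (zero_mem _)).mpr (Or.inl rfl))
  map_add' x y := Subtype.ext
    (Comp.redF_add (red_localAt_mem h x.2).1 (red_localAt_mem h y.2).1)

theorem coe_redLocal {i : Fin 3} {O : ValuationSubring G} (h : X.Centred b Q i O)
    (x : localAt b Q) : (redLocal h x : G) = (X.comp i).redF (x : F) := rfl

/-- An element of the local ring which divides a power of `w` divides what it divides at the
components through the point. -/
theorem div_mem_localAt (hQ : X.ClosedPoint b Q) {s t : localAt b Q} {N : ℕ}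
    (hst : (s : F) * (t : F) = (X.w : F) ^ N) {z : F} (hz : z ∈ localAt b Q)
    (hd : ∀ j, X.Through Q j → z / (s : F) ∈ (X.comp j).V) : z / (s : F) ∈ localAt b Q := by
  have hs0 : (s : F) ≠ 0 := left_ne_zero_of_mul (hst.trans_ne (pow_ne_zero N X.w_ne))
  refine mem_localAt_of hQ N ?_ hd
  have e : (X.w : F) ^ N * (z / (s : F)) = z * (t : F) := by rw [← hst]; field_simp
  rw [e]
  exact mul_mem hz t.2

/-- **Factoriality from a branch.** -/
theorem ufd_of_branch (hQ : X.ClosedPoint b Q) {i : Fin 3} {O : ValuationSubring G}
    (h : X.Centred b Q i O) [IsPrincipalIdealRing O] {s t : localAt b Q} {N : ℕ}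
    (hst : (s : F) * (t : F) = (X.w : F) ^ N) (hsi : (X.comp i).ord (s : F) = 1)
    (hsj : ∀ j, j ≠ i → X.Through Q j → (X.comp j).ord (s : F) = 0)
    (hsurj : ∀ z ∈ O, ∃ x ∈ localAt b Q, (X.comp i).redF x = z) :
    UniqueFactorizationMonoid (localAt b Q) := by
  have hs0 : (s : F) ≠ 0 := left_ne_zero_of_mul (hst.trans_ne (pow_ne_zero N X.w_ne))
  have : IsDomain (localAt b Q) := inferInstance
  have := isNoetherianRing_localAt Q
  have hz : redLocal h s = 0 := Subtype.ext ((coe_redLocal h s).trans
    ((Comp.redF_eq_zero (red_localAt_mem h s.2).1).mpr (Or.inr hsi.ge)))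
  have hker : RingHom.ker (redLocal h) = Ideal.span {s} := by
    refine le_antisymm (fun z hz' => ?_) ((Ideal.span_singleton_le_iff_mem _).mpr hz)
    rw [Ideal.mem_span_singleton]
    have hzi : (X.comp i).AtLeast 1 (z : F) := (Comp.redF_eq_zero (red_localAt_mem h z.2).1).mp
      ((coe_redLocal h z).symm.trans (congrArg Subtype.val (RingHom.mem_ker.mp hz')))
    refine ⟨⟨_, div_mem_localAt hQ hst z.2 fun j hj => ?_⟩, Subtype.ext ?_⟩
    · rcases eq_or_ne (z : F) 0 with h0 | h0
      · rw [h0, zero_div]; exact zero_mem _
      refine ((X.comp j).mem_iff _ (div_ne_zero h0 hs0)).mpr ?_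
      rw [(X.comp j).ord_div h0 hs0]
      rcases eq_or_ne j i with rfl | hji
      · have := hzi.resolve_left h0
        omega
      · have := ((X.comp j).mem_iff _ h0).mp (localAt_le hj z.2)
        have := hsj j hji hj
        omega
    · push_cast
      field_simp
  have honto : Function.Surjective (redLocal h) := fun z => by
    obtain ⟨x, hx, e⟩ := hsurj z z.2
    exact ⟨⟨x, hx⟩, Subtype.ext e⟩
  refine LevelP.uniqueFactorizationMonoid_of_pid_quotient (s := s)
    (fun e => hs0 (by rw [e]; rfl)) ?_ (hker ▸ RingHom.ker_isPrime _) ?_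
  · refine (mem_maximalIdeal s).mpr fun hu => ?_
    have h1 := hu.map (redLocal h)
    rw [hz] at h1
    exact h1.ne_zero rfl
  · exact IsPrincipalIdealRing.of_surjective
      (((Ideal.quotEquivOfEq hker).symm.trans (RingHom.quotientKerEquivOfSurjective honto)).symm :
        O →+* localAt b Q ⧸ Ideal.span {s})
      (RingEquiv.surjective _)

end Fermat.Agent.SquareOld.Chart

end
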