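import Fermat.Agent.SquareOld.Globalize

/-!
# What the two norms force on orders and reductions
-/

set_option autoImplicit false

noncomputable section

namespace Fermat.Agent.SquareOld

namespace Data

variable {k : Type*} [Field k] {F : Type*} [Field F] {G : Type*} [Field G] [Algebra k G]
  {E : Type*} [Field E] (X : Data k F G E) {n : ℕ}

/-- Both norms of `u` are `n`-th powers up to constants. -/
def NormPow (n : ℕ) (u : F) : Prop :=
  ∀ t, ∃ g : E, ∃ c d : X.W, X.ιE c ≠ 0 ∧ X.ιE d ≠ 0 ∧ X.ιE d * X.Nm t u = X.ιE c * g ^ n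

variable {X}

theorem NormPow.pow {u : F} (h : X.NormPow n u) (m : ℕ) : X.NormPow n (u ^ m) := fun t => by
  obtain ⟨g, c, d, hc, hd, e⟩ := h t
  refine ⟨g ^ m, c ^ m, d ^ m, by rw [map_pow]; exact pow_ne_zero _ hc,
    by rw [map_pow]; exact pow_ne_zero _ hd, ?_⟩
  rw [map_pow, map_pow, map_pow, ← mul_pow, e, mul_pow, ← pow_mul, ← pow_mul, mul_comm n]

variable (X)

theorem ιE_w : X.ιE (X.w : X.W) = (X.w : E) := map_natCast _ _

theorem w_ne_E : (X.w : E) ≠ 0 := by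
  intro h
  have := (X.ord_norm _ X.w_ne).1 0
  rw [X.Nm_w, h, zero_pow X.w_prime.ne_zero] at this
  exact this rfl

theorem ord_w_eq : (X.comp 0).ord (X.w : F) = 1 ∧ (X.comp 1).ord (X.w : F) = (X.w : ℤ) - 1 ∧
    (X.comp 2).ord (X.w : F) = 1 := by
  obtain ⟨-, h1, h2, h3, -⟩ := X.ord_norm _ X.w_ne
  rw [X.Nm_w, (X.low 0).ord_pow X.w_ne_E, X.low_w] at h1 h3
  rw [X.Nm_w, (X.low 1).ord_pow X.w_ne_E, X.low_w] at h2
  have hw : (X.w : ℤ) ≠ 0 := by exact_mod_cast X.w_prime.ne_zero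
  have e2 : (X.comp 2).ord (X.w : F) = 1 := by
    have := (mul_right_inj' hw).mp h2; exact this.symm
  have e0 : (X.comp 0).ord (X.w : F) = 1 := by
    have := (mul_right_inj' hw).mp h3; exact this.symm
  exact ⟨e0, by linarith, e2⟩

variable {X}

theorem NormPow.mul_w {u : F} (h : X.NormPow n u) (m : ℕ) :
    X.NormPow n (u * (X.w : F) ^ m) := fun t => by
  obtain ⟨g, c, d, hc, hd, e⟩ := h t
  refine ⟨g, c * (X.w : X.W) ^ (X.w * m), d, ?_, hd, ?_⟩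
  · rw [map_mul, map_pow, ιE_w]; exact mul_ne_zero hc (pow_ne_zero _ X.w_ne_E)
  · rw [map_mul, map_mul, map_pow, map_pow, ιE_w, X.Nm_w, ← pow_mul, ← mul_assoc, e]; ring

theorem horizPow_pow {u : F} (h : X.HorizPow n u) (m : ℕ) : X.HorizPow n (u ^ m) :=
  fun V hW hw => by
    obtain ⟨f, hf, h1, h2⟩ := h V hW hw
    refine ⟨f ^ m, pow_ne_zero _ hf, ?_, ?_⟩
    · rw [← pow_mul, mul_comm m, pow_mul, ← inv_pow, ← mul_pow]; exact pow_mem h1 m
    · rw [← pow_mul, mul_comm m, pow_mul, ← inv_pow, ← mul_pow]; exact pow_mem h2 m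

theorem horizPow_mul_w {u : F} (h : X.HorizPow n u) (m : ℕ) :
    X.HorizPow n (u * (X.w : F) ^ m) := fun V hW hw => by
  obtain ⟨f, hf, h1, h2⟩ := h V hW hw
  refine ⟨f, hf, ?_, ?_⟩
  · rw [mul_inv, ← mul_assoc, ← inv_pow]; exact mul_mem h1 (pow_mem hw m)
  · rw [mul_right_comm]; exact mul_mem h2 (pow_mem (hW _ (natCast_mem _ _)) m)

variable (X)

/-- A constant is a power of the uniformiser times a unit. -/
theorem exists_unit_eq {c : X.W} (hc : c ≠ 0) :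
    ∃ (l : ℕ) (e : X.W), IsUnit e ∧ c = (X.w : X.W) ^ l * e := by
  have := X.W_isDVR
  obtain ⟨l, e, he⟩ := WfDvdMonoid.max_power_factor hc X.wW_prime.irreducible
  refine ⟨l, e, ?_, ?_⟩
  · by_contra hu
    obtain ⟨y, hy⟩ := (X.W_maximal e).mp hu
    exact he.1 ⟨y, by rw [hy]; exact congrArg (· * y) (Subtype.ext (map_natCast X.W.subtype X.w))⟩
  · rw [show (X.w : X.W) = X.wW from Subtype.ext (map_natCast X.W.subtype X.w)]
    exact he.2

theorem resW_ne_of_isUnit {e : X.W} (he : IsUnit e) : X.resW e ≠ 0 := (he.map X.resW).ne_zero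

theorem low_unit {e : X.W} (he : IsUnit e) (j : Fin 2) : (X.low j).Unit (X.ιE e) :=
  Comp.unit_of_redF_ne (X.low_const j e).1 (by
    rw [(X.low_const j e).2, ne_eq, map_eq_zero]; exact X.resW_ne_of_isUnit he)

theorem low_ord_const {c : X.W} (hc : c ≠ 0) :
    ∃ (l : ℕ) (e : X.W), IsUnit e ∧ c = (X.w : X.W) ^ l * e ∧
      ∀ j, (X.low j).ord (X.ιE c) = l := by
  obtain ⟨l, e, he, h⟩ := X.exists_unit_eq hc
  refine ⟨l, e, he, h, fun j => ?_⟩
  rw [h, map_mul, map_pow, ιE_w,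
    (X.low j).ord_mul _ _ (pow_ne_zero _ X.w_ne_E) (X.low_unit he j).1,
    (X.low j).ord_pow X.w_ne_E, X.low_w, (X.low_unit he j).2, mul_one, add_zero]

variable {X}

/-- The congruences between the three orders. -/
theorem NormPow.ord_congr (hn : 0 < n) {u : F} (h : X.NormPow n u) (hu : u ≠ 0) :
    (n : ℤ) ∣ ((X.comp 0).ord u + (X.comp 1).ord u - X.w * (X.comp 2).ord u) ∧
    (n : ℤ) ∣ ((X.comp 2).ord u + (X.comp 1).ord u - X.w * (X.comp 0).ord u) := by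
  have key : ∀ t, (n : ℤ) ∣ (X.low 0).ord (X.Nm t u) - (X.low 1).ord (X.Nm t u) := fun t => by
    obtain ⟨g, c, d, hc, hd, e⟩ := h t
    have hc' : c ≠ 0 := fun e' => hc (by rw [e', map_zero])
    have hd' : d ≠ 0 := fun e' => hd (by rw [e', map_zero])
    obtain ⟨lc, -, -, -, hlc⟩ := X.low_ord_const hc'
    obtain ⟨ld, -, -, -, hld⟩ := X.low_ord_const hd'
    have hNu := (X.ord_norm u hu).1 t
    have hg : g ≠ 0 := fun e' => by
      rw [e', zero_pow hn.ne', mul_zero] at e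
      exact mul_ne_zero hd hNu e
    have hj : ∀ j, (ld : ℤ) + (X.low j).ord (X.Nm t u) = lc + n * (X.low j).ord g := fun j => by
      have := congrArg (X.low j).ord e
      rwa [(X.low j).ord_mul _ _ hd hNu, (X.low j).ord_mul _ _ hc (pow_ne_zero _ hg),
        (X.low j).ord_pow hg, hlc, hld] at this
    exact ⟨(X.low 0).ord g - (X.low 1).ord g, by linarith [hj 0, hj 1]⟩
  obtain ⟨-, h1, h2, h3, h4⟩ := X.ord_norm u hu
  constructor
  · have := key 0; rwa [h1, h2] at this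
  · have := key 1; rw [h3, h4] at this
    obtain ⟨c, hc⟩ := this
    exact ⟨-c, by linarith⟩

/-- A bounded power of `u`, moved by a constant, has all orders divisible by `n`. -/
theorem NormPow.exists_ord_zero (hn : 0 < n) {u : F} (h : X.NormPow n u) (hu : u ≠ 0) :
    ∃ (l : ℕ) (s : F), s ≠ 0 ∧ ∀ i, (X.comp i).Unit (s ^ n * (u ^ (X.w + 1) * (X.w : F) ^ l)) := by
  obtain ⟨⟨A, hA⟩, ⟨B, hB⟩⟩ := h.ord_congr hn hu
  obtain ⟨e0, e1, e2⟩ := X.ord_w_eq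
  set v := fun i => (X.comp i).ord u
  obtain ⟨l, hl⟩ : ∃ l : ℕ, (n : ℤ) ∣ ((X.w : ℤ) + 1) * v 0 + l := by
    refine ⟨((-(((X.w : ℤ) + 1) * v 0)) % n).toNat, ?_⟩
    rw [Int.toNat_of_nonneg (Int.emod_nonneg _ (by exact_mod_cast hn.ne'))]
    exact ⟨-((-(((X.w : ℤ) + 1) * v 0)) / n), by
      linarith [Int.emod_def (-(((X.w : ℤ) + 1) * v 0)) n]⟩
  have hu1 : u ^ (X.w + 1) * (X.w : F) ^ l ≠ 0 :=
    mul_ne_zero (pow_ne_zero _ hu) (pow_ne_zero _ X.w_ne)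
  have hord : ∀ i, (X.comp i).ord (u ^ (X.w + 1) * (X.w : F) ^ l) =
      ((X.w : ℤ) + 1) * v i + l * (X.comp i).ord (X.w : F) := fun i => by
    rw [(X.comp i).ord_mul _ _ (pow_ne_zero _ hu) (pow_ne_zero _ X.w_ne),
      (X.comp i).ord_pow hu, (X.comp i).ord_pow X.w_ne]
    push_cast; rfl
  obtain ⟨L, hL⟩ := hl
  have hdvd : ∀ i, (n : ℤ) ∣ (X.comp i).ord (u ^ (X.w + 1) * (X.w : F) ^ l) := by
    intro i
    obtain rfl | rfl | rfl : i = 0 ∨ i = 1 ∨ i = 2 := by omega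
    · exact ⟨L, by rw [hord, e0]; linarith⟩
    · refine ⟨((X.w : ℤ) - 1) * L + X.w * B + A, ?_⟩
      rw [hord, e1]
      linear_combination (X.w : ℤ) * hB + hA + ((X.w : ℤ) - 1) * hL
    · refine ⟨L + B - A, ?_⟩
      rw [hord, e2]
      linear_combination hB - hA + hL
  choose q hq using hdvd
  obtain ⟨s, hs, hsi⟩ := X.indep fun i => -q i
  refine ⟨l, s, hs, fun i => ⟨mul_ne_zero (pow_ne_zero _ hs) hu1, ?_⟩⟩
  rw [(X.comp i).ord_mul _ _ (pow_ne_zero _ hs) hu1, (X.comp i).ord_pow hs, hsi, hq i]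
  ring

/-- The norms of a unit are exact powers of units. -/
theorem NormPow.exists_root (hn : (n : k) ≠ 0) {u s : F} (h : X.NormPow n u) (_hs : s ≠ 0)
    (hU : ∀ i, (X.comp i).Unit (s ^ n * u)) (t : Fin 2) :
    ∃ y : E, (∀ j, (X.low j).Unit y) ∧ y ^ n = X.Nm t (s ^ n * u) := by
  have hn0 : 0 < n := Nat.pos_of_ne_zero fun e => hn (by rw [e, Nat.cast_zero])
  obtain ⟨g, c, d, hc, hd, e⟩ := h t
  have hU0 := (hU 0).1
  have hu : u ≠ 0 := right_ne_zero_of_mul hU0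
  have hNU : ∀ j, (X.low j).Unit (X.Nm t (s ^ n * u)) := by
    obtain ⟨h0, h1, h2, h3, h4⟩ := X.ord_norm _ hU0
    simp only [(hU _).2, add_zero, mul_zero] at h1 h2 h3 h4
    intro j
    refine ⟨h0 t, ?_⟩
    obtain rfl | rfl : t = 0 ∨ t = 1 := by omega
    all_goals obtain rfl | rfl : j = 0 ∨ j = 1 := by omega
    all_goals assumption
  set g' := g * X.Nm t s
  have e' : X.ιE d * X.Nm t (s ^ n * u) = X.ιE c * g' ^ n := by
    rw [map_mul, map_pow, mul_left_comm, e]; ring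
  have hg' : g' ≠ 0 := fun h' => by
    rw [h', zero_pow hn0.ne', mul_zero] at e'
    exact mul_ne_zero hd (hNU 0).1 e'
  obtain ⟨lc, ec, hec, hc', hlc⟩ := X.low_ord_const (c := c) (fun e' => hc (by rw [e', map_zero]))
  obtain ⟨ld, ed, hed, hd', hld⟩ := X.low_ord_const (c := d) (fun e' => hd (by rw [e', map_zero]))
  obtain ⟨edu, rfl⟩ := hed
  obtain ⟨δ, hδu, hδ⟩ := X.root n (ec * ((edu⁻¹ : X.Wˣ) : X.W)) hn (hec.mul (Units.isUnit _))
  have hord : ∀ j, (ld : ℤ) = lc + n * (X.low j).ord g' := fun j => by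
    have := congrArg (X.low j).ord e'
    rwa [(X.low j).ord_mul _ _ hd (hNU j).1, (X.low j).ord_mul _ _ hc (pow_ne_zero _ hg'),
      (X.low j).ord_pow hg', hlc, hld, (hNU j).2, add_zero] at this
  set q := (X.low 0).ord g'
  refine ⟨X.ιE δ * g' * (X.w : E) ^ (-q), fun j => ?_, ?_⟩
  · have hq : (X.low j).ord g' = q :=
      mul_left_cancel₀ (by exact_mod_cast hn0.ne' : (n : ℤ) ≠ 0) (by linarith [hord j, hord 0])
    have hzp : (X.low j).ord ((X.w : E) ^ (-q)) = -q := by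
      obtain ⟨m, hm | hm⟩ := Int.eq_nat_or_neg (-q)
      · rw [hm, zpow_natCast, (X.low j).ord_pow X.w_ne_E, X.low_w, mul_one]
      · rw [hm, zpow_neg, zpow_natCast, (X.low j).ord_inv (pow_ne_zero _ X.w_ne_E),
          (X.low j).ord_pow X.w_ne_E, X.low_w, mul_one]
    have h1 : X.ιE δ * g' ≠ 0 := mul_ne_zero (X.low_unit hδu j).1 hg'
    refine ⟨mul_ne_zero h1 (zpow_ne_zero _ X.w_ne_E), ?_⟩
    rw [(X.low j).ord_mul _ _ h1 (zpow_ne_zero _ X.w_ne_E),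
      (X.low j).ord_mul _ _ (X.low_unit hδu j).1 hg', (X.low_unit hδu j).2, hzp, hq]
    ring
  · have hd0 := (X.low_unit (Units.isUnit edu) 0).1
    have hedi : X.ιE ((edu⁻¹ : X.Wˣ) : X.W) = (X.ιE (edu : X.W))⁻¹ :=
      eq_inv_of_mul_eq_one_left (by rw [← map_mul, Units.inv_mul, map_one])
    have hwq : (X.w : E) ^ (ld : ℕ) = (X.w : E) ^ lc * ((X.w : E) ^ q) ^ n := by
      rw [← zpow_natCast, ← zpow_natCast (X.w : E) lc, ← zpow_natCast ((X.w : E) ^ q) n, ← zpow_mul,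
        ← zpow_add₀ X.w_ne_E, hord 0, mul_comm q]
    rw [hc', hd', map_mul, map_mul, map_pow, map_pow, ιE_w, hwq] at e'
    rw [mul_pow, mul_pow, ← map_pow, hδ, map_mul, hedi, zpow_neg, inv_pow]
    have hwn : ((X.w : E) ^ q) ^ n ≠ 0 := pow_ne_zero _ (zpow_ne_zero _ X.w_ne_E)
    have hwl : (X.w : E) ^ lc ≠ 0 := pow_ne_zero _ X.w_ne_E
    refine mul_left_cancel₀ (mul_ne_zero (mul_ne_zero hwl hwn) hd0) ?_
    simp only [map_mul, map_pow, ιE_w] at e' ⊢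
    field_simp
    refine mul_left_cancel₀ hwl ?_
    linear_combination -e'

/-- A power of the reductions are `n`-th powers. -/
theorem NormPow.exists_red_one (hn : (n : k) ≠ 0) {u s : F} (h : X.NormPow n u) (hs : s ≠ 0)
    (hU : ∀ i, (X.comp i).Unit (s ^ n * u)) : ∃ s' : F, s' ≠ 0 ∧
      (∀ i, (X.comp i).Unit (s' ^ n * u ^ (X.w - 1))) ∧
      ∀ i, (X.comp i).redF (s' ^ n * u ^ (X.w - 1)) = 1 := by
  obtain ⟨y₀, hy₀, e₀⟩ := h.exists_root hn hs hU 0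
  obtain ⟨y₁, hy₁, e₁⟩ := h.exists_root hn hs hU 1
  obtain ⟨r0, r2, r3, -⟩ := X.red_norm _ hU
  rw [← e₀, Comp.redF_pow (hy₀ _).mem] at r0 r2
  rw [← e₁, Comp.redF_pow (hy₁ _).mem] at r3
  set A := (X.comp 0).redF (s ^ n * u)
  set M := (X.comp 1).redF (s ^ n * u)
  have hroot : ∀ (c : G), c ≠ 0 → (∃ a : G, c ^ X.w = a ^ n) → ∃ a : G, a ≠ 0 ∧ c = a ^ n := by
    rintro c hc ⟨a, ha⟩
    obtain ⟨α, β, hαβ⟩ := Nat.isCoprime_iff_coprime.mpr (X.coprime hn)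
    have hn0 : n ≠ 0 := fun e => hn (by rw [e, Nat.cast_zero])
    have ha0 : a ≠ 0 := fun e => by
      rw [e, zero_pow hn0] at ha; exact pow_ne_zero _ hc ha
    refine ⟨a ^ α * c ^ β, mul_ne_zero (zpow_ne_zero _ ha0) (zpow_ne_zero _ hc), ?_⟩
    rw [mul_pow, ← zpow_natCast (a ^ α), ← zpow_natCast (c ^ β), ← zpow_mul, ← zpow_mul,
      mul_comm α, zpow_mul, zpow_natCast, ← ha, ← zpow_natCast c X.w, ← zpow_mul,
      ← zpow_add₀ hc]
    rw [show (X.w : ℤ) * α + β * n = 1 by linarith, zpow_one]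
  obtain ⟨a, ha, hA⟩ := hroot A (hU 0).redF_ne ⟨X.φ ((X.low 0).redF y₁), by rw [← r3, map_pow]⟩
  obtain ⟨c, hc, hC⟩ := hroot ((X.comp 2).redF (s ^ n * u)) (hU 2).redF_ne
    ⟨X.φ ((X.low 1).redF y₀), by rw [← r2, map_pow]⟩
  set m := (X.low 0).redF y₀ / a
  have hM : M ^ (X.w - 1) = m ^ n := by
    rw [div_pow, r0, ← hA, mul_div_cancel_left₀ _ (hU 0).redF_ne]
  have hm : m ≠ 0 := div_ne_zero (hy₀ 0).redF_ne ha
  obtain ⟨f, hf⟩ := X.approx ![(a ^ (X.w - 1))⁻¹, m⁻¹, (c ^ (X.w - 1))⁻¹]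
  have hz : ∀ i, (![(a ^ (X.w - 1))⁻¹, m⁻¹, (c ^ (X.w - 1))⁻¹] : Fin 3 → G) i ≠ 0 := fun i => by
    fin_cases i <;> simp [ha, hm, hc]
  have hfu : ∀ i, (X.comp i).Unit f := fun i =>
    Comp.unit_of_redF_ne (hf i).1 (by rw [(hf i).2]; exact hz i)
  have hW : 1 ≤ X.w := X.w_prime.one_lt.le
  have e : (f * s ^ (X.w - 1)) ^ n * u ^ (X.w - 1) = f ^ n * (s ^ n * u) ^ (X.w - 1) := by
    rw [mul_pow, mul_pow, ← pow_mul s, mul_comm (X.w - 1) n, pow_mul s n, mul_assoc]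
  refine ⟨f * s ^ (X.w - 1), mul_ne_zero (hfu 0).1 (pow_ne_zero _ hs),
    fun i => e ▸ ((hfu i).pow n).mul ((hU i).pow _), fun i => ?_⟩
  rw [e, Comp.redF_mul ((hfu i).pow n).mem ((hU i).pow _).mem, Comp.redF_pow (hfu i).mem,
    Comp.redF_pow (hU i).mem, (hf i).2]
  obtain rfl | rfl | rfl : i = 0 ∨ i = 1 ∨ i = 2 := by omega
  · rw [show (X.comp 0).redF (s ^ n * u) = A from rfl, hA]
    simp [← pow_mul, mul_comm n, inv_mul_cancel₀ (pow_ne_zero _ ha)]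
  · rw [show (X.comp 1).redF (s ^ n * u) = M from rfl, hM]
    simp [inv_mul_cancel₀ (pow_ne_zero _ hm)]
  · rw [hC]
    simp [← pow_mul, mul_comm n, inv_mul_cancel₀ (pow_ne_zero _ hc)]

end Data

end Fermat.Agent.SquareOld

end
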